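import Mathlib
import Fermat.Agent.S24.H6_Rho
import Fermat.Agent.S28.Deg.H21_Theta

/-!
# S28 / MOD (helper17): the `q`-expansion of the derivative

For a function `A : ℍ → ℂ` which is `1`-periodic, holomorphic and bounded at `i∞`, the normalised
derivative `D A = (2πi)⁻¹ dA/dτ` has the same properties and its `q`-expansion is
`θ = q d/dq` applied to the `q`-expansion of `A`.  Consequently `IsReal h f → IsReal (θ h) (D f)`.
-/

set_option autoImplicit false

open UpperHalfPlane ModularForm Filter Topology Function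
open scoped MatrixGroups ModularForm Manifold Real Nat
open Derivative

namespace Fermat.Agent.S28.Mod.QD

open Fermat.Agent.S23.R5 Fermat.Agent.S24.Real Fermat.Agent.S28.Deg.H21

local notation "𝕢" => Function.Periodic.qParam

lemma hasDerivAt_qParam_one (z : ℂ) : HasDerivAt (𝕢 1) (2 * π * Complex.I * 𝕢 1 z) z := by
  have h1 : HasDerivAt (fun z : ℂ => 2 * π * Complex.I * z / ((1 : ℝ) : ℂ)) (2 * π * Complex.I) z := by
    have := ((hasDerivAt_id z).const_mul (2 * (π : ℂ) * Complex.I)).div_const (((1 : ℝ)) : ℂ)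
    simp only [id, mul_one, Complex.ofReal_one, div_one] at this ⊢
    exact this
  have h2 := h1.cexp
  have e : Complex.exp (2 * π * Complex.I * z / ((1 : ℝ) : ℂ)) * (2 * π * Complex.I)
      = 2 * π * Complex.I * 𝕢 1 z := by
    rw [mul_comm]; rfl
  rw [e] at h2
  exact h2

lemma qParam_one_add_one (z : ℂ) : 𝕢 1 (z + 1) = 𝕢 1 z := by
  unfold Function.Periodic.qParam
  rw [show 2 * (π : ℂ) * Complex.I * (z + 1) / ((1 : ℝ) : ℂ)
    = 2 * π * Complex.I * z / ((1 : ℝ) : ℂ) + 2 * π * Complex.I by push_cast; ring,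
    Complex.exp_add, Complex.exp_two_pi_mul_I, mul_one]

variable {A : ℍ → ℂ}

/-- Pointwise formula: `D A (τ) = q F'(q)` where `F` is the cusp function of `A`. -/
lemma D_apply_eq (hA : NiceAtInf A) (τ : ℍ) :
    D A τ = 𝕢 1 τ * deriv (cuspFunction 1 A) (𝕢 1 τ) := by
  have hq : ‖𝕢 1 (τ : ℂ)‖ < 1 := Function.Periodic.norm_qParam_lt_one one_pos τ.im_pos
  have hF : HasDerivAt (cuspFunction 1 A) (deriv (cuspFunction 1 A) (𝕢 1 τ)) (𝕢 1 τ) :=
    (differentiableAt_cuspFunction one_pos hA.periodic hA.holo hA.bdd hq).hasDerivAt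
  have hcomp : HasDerivAt (cuspFunction 1 A ∘ 𝕢 1)
      (deriv (cuspFunction 1 A) (𝕢 1 τ) * (2 * π * Complex.I * 𝕢 1 τ)) τ :=
    hF.comp (τ : ℂ) (hasDerivAt_qParam_one τ)
  have heq : (A ∘ ofComplex) =ᶠ[𝓝 (τ : ℂ)] (cuspFunction 1 A ∘ 𝕢 1) := by
    filter_upwards [isOpen_upperHalfPlaneSet.mem_nhds τ.im_pos] with w hw
    simp only [Function.comp_apply]
    have := eq_cuspFunction (h := 1) (f := A) ⟨w, hw⟩ one_ne_zero hA.periodic
    rw [ofComplex_apply_of_im_pos hw]
    exact this.symm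
  have hd := (hcomp.congr_of_eventuallyEq heq).deriv
  simp only [normalizedDerivOfComplex]
  rw [hd]
  have : (2 * (π : ℂ) * Complex.I) ≠ 0 := Complex.two_pi_I_ne_zero
  field_simp

/-- `D A` is given by the termwise differentiated `q`-expansion. -/
lemma hasSum_D (hA : NiceAtInf A) (τ : ℍ) :
    HasSum (fun m : ℕ => ((m : ℂ) * (qExpansion 1 A).coeff m) • 𝕢 1 τ ^ m) (D A τ) := by
  have hdiff : DifferentiableOn ℂ (cuspFunction 1 A) (Metric.ball 0 1) :=
    differentiableOn_cuspFunction_ball one_pos hA.periodic hA.holo hA.bdd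
  have hdiff' : DifferentiableOn ℂ (deriv (cuspFunction 1 A)) (Metric.ball 0 1) :=
    hdiff.deriv Metric.isOpen_ball
  have hq : 𝕢 1 (τ : ℂ) ∈ Metric.ball (0 : ℂ) 1 := by
    rw [mem_ball_zero_iff]
    exact Function.Periodic.norm_qParam_lt_one one_pos τ.im_pos
  have h1 := Complex.hasSum_taylorSeries_on_ball hdiff' hq
  have h2 := h1.mul_left (𝕢 1 (τ : ℂ))
  rw [← D_apply_eq hA τ] at h2
  rw [← hasSum_nat_add_iff' 1]
  simp only [Finset.range_one, Finset.sum_singleton, Nat.cast_zero, zero_mul, zero_smul, sub_zero]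
  have e : (fun m : ℕ => (((m + 1 : ℕ) : ℂ) * (qExpansion 1 A).coeff (m + 1)) • 𝕢 1 (τ : ℂ) ^ (m + 1))
      = fun i : ℕ => 𝕢 1 (τ : ℂ) * ((i ! : ℂ)⁻¹ • (𝕢 1 (τ : ℂ) - 0) ^ i •
          iteratedDeriv i (deriv (cuspFunction 1 A)) 0) := by
    funext m
    rw [qExpansion_coeff, iteratedDeriv_succ', sub_zero]
    simp only [smul_eq_mul]
    have hm : ((m + 1 : ℕ) ! : ℂ) = ((m : ℂ) + 1) * (m ! : ℂ) := by
      rw [Nat.factorial_succ]; push_cast; ring
    have hm0 : ((m : ℂ) + 1) ≠ 0 := by exact_mod_cast Nat.succ_ne_zero m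
    have hm1 : (m ! : ℂ) ≠ 0 := by exact_mod_cast Nat.factorial_ne_zero m
    rw [hm]
    push_cast
    field_simp
    ring
  rw [e]
  exact h2

theorem niceAtInf_D (hA : NiceAtInf A) : NiceAtInf (D A) where
  periodic := by
    intro w
    simp only [Function.comp_apply]
    by_cases hw : 0 < w.im
    · have hw' : 0 < (w + 1).im := by simpa using hw
      rw [ofComplex_apply_of_im_pos hw, ofComplex_apply_of_im_pos hw', D_apply_eq hA,
        D_apply_eq hA]
      change 𝕢 1 (w + 1) * deriv (cuspFunction 1 A) (𝕢 1 (w + 1)) = _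
      rw [qParam_one_add_one]
    · have hw0 : w.im ≤ 0 := not_lt.mp hw
      have hw' : (w + 1).im ≤ 0 := by simpa using hw0
      rw [ofComplex_apply_eq_of_im_nonpos hw' hw0]
  holo := normalizedDerivOfComplex_mdifferentiable hA.holo
  bdd := isBoundedAtImInfty_of_hasSum_qExpansion one_pos (hasSum_D hA)

/-- function-level uniqueness of `q`-expansion coefficients. -/
theorem qExpansion_coeff_unique_fn {f : ℍ → ℂ} {c : ℕ → ℂ}
    (hfanalytic : AnalyticAt ℂ (cuspFunction 1 f) 0)
    (hf : ∀ τ : ℍ, HasSum (fun m ↦ c m • 𝕢 1 (τ : ℂ) ^ m) (f τ)) (m : ℕ) :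
    c m = (qExpansion 1 f).coeff m := by
  have h1 := (hasFPowerSeriesOnBall_cuspFunction one_pos hfanalytic hf).hasFPowerSeriesAt
  have h2 := hfanalytic.hasFPowerSeriesAt
  have h3 := congr_arg (FormalMultilinearSeries.coeff · m) (h1.eq_formalMultilinearSeries h2)
  simp only [FormalMultilinearSeries.coeff_ofScalars] at h3
  rw [h3, qExpansion_coeff, div_eq_inv_mul]

theorem qExpansion_D_coeff (hA : NiceAtInf A) (m : ℕ) :
    (qExpansion 1 (D A)).coeff m = (m : ℂ) * (qExpansion 1 A).coeff m :=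
  (qExpansion_coeff_unique_fn (niceAtInf_D hA).analyticAt (hasSum_D hA) m).symm

theorem toL_qExpansion_D (hA : NiceAtInf A) :
    toL (qExpansion 1 (D A)) = theta (toL (qExpansion 1 A)) := by
  ext k
  rw [theta_coeff]
  rcases lt_or_ge k 0 with hk | hk
  · rw [coeff_toL_neg _ hk, coeff_toL_neg _ hk, mul_zero]
  · lift k to ℕ using hk
    rw [coeff_toL_nat, coeff_toL_nat, qExpansion_D_coeff hA]
    push_cast
    rfl

/-- **Realisation of the derivative**: if `h` is the `q`-series of `f` then `θ h` is the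
`q`-series of `D f`. -/
theorem isReal_D {h : LaurentSeries ℂ} {f : ℍ → ℂ} (hf : IsReal h f) :
    IsReal (theta h) (D f) := by
  have hfholo := hf.holo
  obtain ⟨A, B, hA, hB, hB0, hfAB, hq⟩ := hf
  have hAB : f * B = A := funext hfAB
  have hDA : D A = D f * B + f * D B := by
    rw [← hAB, normalizedDerivOfComplex_mul f B hfholo hB.holo]
  refine ⟨D A * B - A * D B, B * B, ((niceAtInf_D hA).mul hB).sub (hA.mul (niceAtInf_D hB)),
    hB.mul hB, fun z => mul_ne_zero (hB0 z) (hB0 z), fun z => ?_, ?_⟩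
  · simp only [Pi.sub_apply, Pi.mul_apply]
    rw [hDA, ← hfAB z]
    simp only [Pi.add_apply, Pi.mul_apply]
    ring
  · rw [qExpansion_sub ((niceAtInf_D hA).mul hB).analyticAt (hA.mul (niceAtInf_D hB)).analyticAt,
      qExpansion_mul (niceAtInf_D hA).analyticAt hB.analyticAt,
      qExpansion_mul hA.analyticAt (niceAtInf_D hB).analyticAt,
      qExpansion_mul hB.analyticAt hB.analyticAt]
    simp only [map_sub, map_mul]
    rw [toL_qExpansion_D hA, toL_qExpansion_D hB, hq, theta_mul]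
    ring

end Fermat.Agent.S28.Mod.QD
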