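import Mathlib
import Fermat.Prelude.Def_ModularCurve_X0ModL

/-!
# S28, package MOD (helper14): the triangular argument for polynomials in `j` (PolyJ)

`jqModC S = q⁻¹ + 744 + …` has integer coefficients and leading coefficient `1`.  Hence a
polynomial `P ∈ S[X]` such that the `q`-expansion `P(j)` has all its coefficients in (the image
of) a ring `R →+* S` has itself coefficients in (the image of) `R`.
-/

set_option autoImplicit false

open Polynomial ModularCurve

namespace Fermat.Agent.S28.Mod.PolyJ

variable {R S : Type*} [CommRing R] [CommRing S]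

theorem algebraMap_eq_single (a : R) :
    algebraMap R (LaurentSeries R) a = HahnSeries.single 0 a := by
  have h1 : algebraMap R (PowerSeries R) a = PowerSeries.C a := by
    simp
  rw [HahnSeries.algebraMap_apply', h1, HahnSeries.ofPowerSeries_C]
  rfl

theorem coeff_algebraMap_mul (a : R) (x : LaurentSeries R) (k : ℤ) :
    (algebraMap R (LaurentSeries R) a * x).coeff k = a * x.coeff k := by
  rw [algebraMap_eq_single, HahnSeries.coeff_single_zero_mul]

theorem coeffMap_algebraMap' (φ : R →+* S) (a : R) :
    coeffMap φ (algebraMap R (LaurentSeries R) a) = algebraMap S (LaurentSeries S) (φ a) := by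
  rw [algebraMap_eq_single, algebraMap_eq_single, coeffMap_single]

/-- the coefficient of `q ^ (-d)` in `P(j)`, for `natDegree P ≤ d`, is the `d`-th coefficient
of `P`. -/
theorem coeff_aeval_jqModC (P : S[X]) (d : ℕ) (hd : P.natDegree ≤ d) :
    (aeval (jqModC S) P).coeff (-(d : ℤ)) = P.coeff d := by
  rw [aeval_def, eval₂_eq_sum_range' _ (Nat.lt_add_one_of_le hd)]
  have h : ∀ i ∈ Finset.range (d + 1),
      (algebraMap S (LaurentSeries S) (P.coeff i) * jqModC S ^ i).coeff (-(d : ℤ)) =
        if i = d then P.coeff d else 0 := by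
    intro i hi
    rw [coeff_algebraMap_mul]
    split_ifs with h
    · subst h
      rw [coeff_jqModC_pow_self, mul_one]
    · have hlt : i < d := lt_of_le_of_ne (Nat.lt_succ_iff.mp (Finset.mem_range.mp hi)) h
      rw [coeff_jqModC_pow_of_lt S (by omega), mul_zero]
  have hsum : (∑ i ∈ Finset.range (d + 1),
        algebraMap S (LaurentSeries S) (P.coeff i) * jqModC S ^ i).coeff (-(d : ℤ)) =
      ∑ i ∈ Finset.range (d + 1),
        (algebraMap S (LaurentSeries S) (P.coeff i) * jqModC S ^ i).coeff (-(d : ℤ)) := by
    exact map_sum (HahnSeries.coeff.addMonoidHom (-(d : ℤ))) _ _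
  rw [hsum, Finset.sum_congr rfl h, Finset.sum_ite_eq' (Finset.range (d + 1)) d]
  simp

/-- `P(j) = 0 → P = 0`: `j` is transcendental over any coefficient ring. -/
theorem eq_zero_of_aeval_jqModC_eq_zero (P : S[X]) (h : aeval (jqModC S) P = 0) : P = 0 := by
  by_contra hP
  have := coeff_aeval_jqModC P P.natDegree le_rfl
  rw [h, HahnSeries.coeff_zero] at this
  exact hP (leadingCoeff_eq_zero.mp this.symm)

theorem aeval_jqModC_injective :
    Function.Injective (fun P : S[X] => aeval (jqModC S) P) := by
  intro P Q h
  have h' : aeval (jqModC S) (P - Q) = 0 := by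
    rw [map_sub]; exact sub_eq_zero.mpr h
  exact sub_eq_zero.mp (eq_zero_of_aeval_jqModC_eq_zero _ h')

/-- `coeffMap` commutes with evaluation of a polynomial at `j`. -/
theorem coeffMap_aeval_jqModC (φ : R →+* S) (P : R[X]) :
    coeffMap φ (aeval (jqModC R) P) = aeval (jqModC S) (P.map φ) := by
  induction P using Polynomial.induction_on' with
  | add p q hp hq => rw [map_add, map_add, Polynomial.map_add, map_add, hp, hq]
  | monomial n a =>
    rw [aeval_monomial, Polynomial.map_monomial, aeval_monomial, map_mul, map_pow,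
      coeffMap_jqModC, coeffMap_algebraMap']

/-- **Triangular argument.** If `P(j)` is the image of a series with coefficients in `R`, then
`P` is the image of a polynomial with coefficients in `R`. -/
theorem exists_map_eq_of_aeval_eq (φ : R →+* S) (P : S[X]) (f : LaurentSeries R)
    (h : aeval (jqModC S) P = coeffMap φ f) :
    ∃ P₀ : R[X], P₀.map φ = P := by
  induction' hn : P.natDegree using Nat.strong_induction_on with n ih generalizing P f
  by_cases hP : P = 0
  · subst hP
    exact ⟨0, by simp⟩
  · set c : R := f.coeff (-(P.natDegree : ℤ)) with hc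
    have hlc : P.leadingCoeff = φ c := by
      rw [hc, ← coeffMap_coeff, ← h, coeff_aeval_jqModC P P.natDegree le_rfl]
      rfl
    have h' : aeval (jqModC S) P.eraseLead =
        coeffMap φ (f - algebraMap R (LaurentSeries R) c * jqModC R ^ P.natDegree) := by
      have e1 : P.eraseLead = P - C P.leadingCoeff * X ^ P.natDegree := by
        rw [eq_sub_iff_add_eq, eraseLead_add_C_mul_X_pow]
      rw [e1, map_sub, map_mul, map_pow, aeval_X, aeval_C, h, map_sub, map_mul, map_pow,
        coeffMap_jqModC, hlc, coeffMap_algebraMap']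
    obtain ⟨Q₀, hQ₀⟩ : ∃ Q₀ : R[X], Q₀.map φ = P.eraseLead := by
      rcases eraseLead_natDegree_lt_or_eraseLead_eq_zero P with h1 | h1
      · exact ih _ (hn ▸ h1) P.eraseLead _ h' rfl
      · exact ⟨0, by rw [h1]; simp⟩
    refine ⟨Q₀ + C c * X ^ P.natDegree, ?_⟩
    rw [Polynomial.map_add, hQ₀, Polynomial.map_mul, Polynomial.map_pow, Polynomial.map_C,
      Polynomial.map_X, ← hlc, eraseLead_add_C_mul_X_pow]

/-- the same, with the compatibility of the `q`-expansions when `φ` is injective. -/
theorem exists_map_eq_of_aeval_eq' (φ : R →+* S) (hφ : Function.Injective φ) (P : S[X])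
    (f : LaurentSeries R) (h : aeval (jqModC S) P = coeffMap φ f) :
    ∃ P₀ : R[X], P₀.map φ = P ∧ aeval (jqModC R) P₀ = f := by
  obtain ⟨P₀, hP₀⟩ := exists_map_eq_of_aeval_eq φ P f h
  refine ⟨P₀, hP₀, ?_⟩
  have h1 : coeffMap φ (aeval (jqModC R) P₀) = coeffMap φ f := by
    rw [coeffMap_aeval_jqModC, hP₀, h]
  ext k
  have := congrArg (fun x => HahnSeries.coeff x k) h1
  simp only [coeffMap_coeff] at this
  exact hφ this

/-- **Triangular argument, two variables.** If `H ∈ S[Y][X]` becomes, after `Y ↦ j`, the image
of a polynomial `G` over `R((q))`, then `H` comes from `R[Y][X]`. -/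
theorem exists_map_eq_of_map_aeval_eq (φ : R →+* S) (H : (S[X])[X]) (G : (LaurentSeries R)[X])
    (h : H.map (aeval (jqModC S)).toRingHom = G.map (coeffMap φ)) :
    ∃ H₀ : (R[X])[X], H₀.map (Polynomial.mapRingHom φ) = H := by
  have hc : ∀ i, ∃ c : R[X], c.map φ = H.coeff i := by
    intro i
    refine exists_map_eq_of_aeval_eq φ (H.coeff i) (G.coeff i) ?_
    have := congrArg (fun P => Polynomial.coeff P i) h
    simpa [Polynomial.coeff_map] using this
  choose c hc using hc
  refine ⟨∑ i ∈ H.support, monomial i (c i), ?_⟩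
  rw [Polynomial.map_sum]
  conv_rhs => rw [H.as_sum_support]
  refine Finset.sum_congr rfl fun i _ => ?_
  rw [Polynomial.map_monomial]
  congr 1
  exact hc i

/-- two variables, with compatibility of the series when `φ` is injective. -/
theorem exists_map_eq_of_map_aeval_eq' (φ : R →+* S) (hφ : Function.Injective φ)
    (H : (S[X])[X]) (G : (LaurentSeries R)[X])
    (h : H.map (aeval (jqModC S)).toRingHom = G.map (coeffMap φ)) :
    ∃ H₀ : (R[X])[X], H₀.map (Polynomial.mapRingHom φ) = H ∧
      H₀.map (aeval (jqModC R)).toRingHom = G := by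
  obtain ⟨H₀, hH₀⟩ := exists_map_eq_of_map_aeval_eq φ H G h
  refine ⟨H₀, hH₀, ?_⟩
  have hinj : Function.Injective (coeffMap φ : LaurentSeries R →+* LaurentSeries S) := by
    intro x y hxy
    ext k
    have := congrArg (fun z => HahnSeries.coeff z k) hxy
    simp only [coeffMap_coeff] at this
    exact hφ this
  apply Polynomial.map_injective (coeffMap φ) hinj
  rw [← h, ← hH₀, Polynomial.map_map, Polynomial.map_map]
  congr 1
  refine RingHom.ext fun P => ?_
  exact coeffMap_aeval_jqModC φ P

/-- monicity and degree are reflected by `map` along an injective homomorphism. -/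
theorem monic_of_map_mapRingHom (φ : R →+* S) (hφ : Function.Injective φ) {H₀ : (R[X])[X]}
    (h : (H₀.map (Polynomial.mapRingHom φ)).Monic) : H₀.Monic := by
  have hinj : Function.Injective (Polynomial.mapRingHom φ) := Polynomial.map_injective φ hφ
  exact Polynomial.monic_of_injective hinj h

theorem natDegree_map_mapRingHom (φ : R →+* S) (hφ : Function.Injective φ) (H₀ : (R[X])[X]) :
    (H₀.map (Polynomial.mapRingHom φ)).natDegree = H₀.natDegree :=
  Polynomial.natDegree_map_eq_of_injective (Polynomial.map_injective φ hφ) H₀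

end Fermat.Agent.S28.Mod.PolyJ
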