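import Fermat.Agent.S28.Asm.Defs
import Fermat.Agent.S24.H25_Inputs

/-!
# S28 / MOD, deliverable DEG0 (helper23)

`StDEG0All`: for every level `N`, the field `ℚ(j_d : d ∣ N) ⊆ ℚ((q))` is finite over `ℚ(j)` of
degree at most `ψ(N) = [SL₂(ℤ) : Γ₀(N)]` (in fact equal to it).  This is the transport of the
degree computation of S24 (`Final.finrank_jF`, for `K = ℚ`) to the prelude field
`modularFunctionFieldFullC ℚ N`.
-/

set_option autoImplicit false

open ModularCurve IntermediateField

noncomputable section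

namespace Fermat.Agent.S28.Mod.H23

open Fermat.Agent.S28.Asm

/-- Transport of finiteness and degree along an equality of intermediate fields. -/
theorem h23_transport {k E : Type*} [Field k] [Field E] [Algebra k E]
    (L₁ L₂ : IntermediateField k E) (h : L₁ = L₂) (x₁ : L₁) (x₂ : L₂)
    (hx : (x₁ : E) = (x₂ : E)) :
    (FiniteDimensional (IntermediateField.adjoin k {x₁}) L₁ ↔
      FiniteDimensional (IntermediateField.adjoin k {x₂}) L₂) ∧
    Module.finrank (IntermediateField.adjoin k {x₁}) L₁ =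
      Module.finrank (IntermediateField.adjoin k {x₂}) L₂ := by
  subst h
  obtain rfl : x₁ = x₂ := Subtype.ext hx
  exact ⟨Iff.rfl, rfl⟩

/-- Over `ℚ` the coefficient embedding is the identity. -/
theorem h23_coeffEmb_rat (x : LaurentSeries ℚ) : coeffEmb ℚ x = x := by
  ext k
  rw [coeffEmb_coeff]
  exact (eq_ratCast (algebraMap ℚ ℚ) _).trans (Rat.cast_id _)

/-- Over `ℚ` the base change of the modular function field is the field itself. -/
theorem h23_FK_rat (N : ℕ) :
    Fermat.Agent.S24.Real.FK ℚ N = modularFunctionFieldFull N := by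
  have himg : (⇑(coeffEmb ℚ) '' ((modularFunctionFieldFull N : IntermediateField ℚ
      (LaurentSeries ℚ)) : Set (LaurentSeries ℚ))) =
      ((modularFunctionFieldFull N : IntermediateField ℚ (LaurentSeries ℚ)) :
        Set (LaurentSeries ℚ)) := by
    ext x
    constructor
    · rintro ⟨y, hy, rfl⟩
      rw [h23_coeffEmb_rat]
      exact hy
    · intro hx
      exact ⟨x, hx, h23_coeffEmb_rat x⟩
  show laurentBaseChange ℚ (modularFunctionFieldFull N) = modularFunctionFieldFull N
  rw [laurentBaseChange, himg]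
  exact IntermediateField.adjoin_self ℚ _

/-- Finiteness of `k(j_d : d ∣ N)` over `k(j)`, stated for a general field `k` (so that the
instances are the ones of `Asm.StDEG0` / `Asm.StDEGU`). -/
def FinDimC (k : Type) [Field k] (N : ℕ) [NeZero N] : Prop :=
  FiniteDimensional (IntermediateField.adjoin k {jbFull k N}) ↥(modularFunctionFieldFullC k N)

/-- Finiteness over `ℚ(x)` does not depend on the `ℚ`-algebra structure used to form `ℚ(x)`. -/
theorem h23_findim_congr {L : Type*} [Field L] (a1 a2 : Algebra ℚ L) (x : L) :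
    FiniteDimensional (@IntermediateField.adjoin ℚ _ L _ a1 {x}) L ↔
      FiniteDimensional (@IntermediateField.adjoin ℚ _ L _ a2 {x}) L := by
  have h : a1 = a2 := Subsingleton.elim _ _
  subst h
  exact Iff.rfl

/-- `Asm.StDEG0` in terms of the generic-instance finiteness statement. (In `Asm.StDEG0` the field
`ℚ(j)` is formed with the `ℚ`-algebra structure `DivisionRing.toRatAlgebra`, in `degC` with the
one inherited from `ℚ((q))`.) -/
theorem stDEG0_iff (N : ℕ) [NeZero N] : StDEG0 N ↔ FinDimC ℚ N ∧ degC ℚ N ≤ psi N := by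
  unfold StDEG0 FinDimC
  exact and_congr_left fun _ => h23_findim_congr _ _ _

/-- **DEG0**, with equality: `[ℚ(j_d : d ∣ N) : ℚ(j)] = ψ(N)`, finite. -/
theorem h23_deg0_eq (N : ℕ) [NeZero N] : FinDimC ℚ N ∧ degC ℚ N = psi N := by
  have e : ℚ →+* ℂ := algebraMap ℚ ℂ
  have hfd := Fermat.Agent.S24.Final.finiteDimensional_jF e N
  have hfr := Fermat.Agent.S24.Final.finrank_jF e N
  have hcoe : ((Fermat.Agent.S24.Final.jF ℚ N : Fermat.Agent.S24.Real.FK ℚ N) :
      LaurentSeries ℚ) = ((jbFull ℚ N : ↥(modularFunctionFieldFullC ℚ N)) : LaurentSeries ℚ) := by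
    show coeffEmb ℚ jq = jqModC ℚ
    rw [h23_coeffEmb_rat]
    rfl
  obtain ⟨h1, h2⟩ := h23_transport (Fermat.Agent.S24.Real.FK ℚ N) (modularFunctionFieldFullC ℚ N)
    (h23_FK_rat N) (Fermat.Agent.S24.Final.jF ℚ N) (jbFull ℚ N) hcoe
  refine ⟨h1.mp hfd, ?_⟩
  rw [degC, ← h2, hfr]
  rfl

/-- **Deliverable DEG0** of package MOD. -/
theorem stDEG0All : StDEG0All := fun N _ =>
  (stDEG0_iff N).mpr ⟨(h23_deg0_eq N).1, (h23_deg0_eq N).2.le⟩

/-- Lower-bound form: `ψ(N) ≤ [ℚ(j_d : d ∣ N) : ℚ(j)]`. -/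
theorem h23_psi_le_degC (N : ℕ) [NeZero N] : psi N ≤ degC ℚ N :=
  (h23_deg0_eq N).2.ge

end Fermat.Agent.S28.Mod.H23
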