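import Fermat.Agent.S28.Mod.H7_ModInst
import Fermat.Agent.S28.Deg.H9_PrimeAsm
import Fermat.Agent.S28.Deg.H21_Excl

/-!
# S28 / MOD (helper7): the deliverables of MOD in the shapes consumed by PRIME

* `stModC_of_ANac` : `Deg.H9.StModC p` (helper9) from the analytic input at `(1, 0)`;
* `stVInt_of_ANac` : `Deg.H21.StVInt (ZMod ℓ) p` (helper21), `ℓ ≠ p`, from the analytic input at
  `(0, 1)`; the ring `ℤ[1/p]` is `Localization.Away (p : ℤ)`.
-/

set_option autoImplicit false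

namespace Fermat.Agent.S28.Mod.H7

open ModularCurve Polynomial Fermat.Agent.S28.Mod.UnitZ

noncomputable section

section ModC

variable (p : ℕ) [NeZero p]

lemma h7_eval₂RingHom_eq (x : LaurentSeries ℤ) :
    Polynomial.eval₂RingHom (Int.castRingHom (LaurentSeries ℤ)) x
      = (aeval (R := ℤ) x).toRingHom := by
  refine Polynomial.ringHom_ext (fun a => ?_) ?_
  · simp
  · simp

/-- MOD-C in the shape of helper9 (`Deg.H9.StModCIn ℤ p`). -/
theorem stModCIn_int_of_StMODC (h : StMODC p) : Fermat.Agent.S28.Deg.H9.StModCIn ℤ p := by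
  obtain ⟨Φ, hm, hd, h1, h2⟩ := h
  refine ⟨Φ, hm, hd, ?_, ?_⟩
  · rw [Fermat.Agent.S28.Deg.H9.ev2_eq_eval_map, h7_eval₂RingHom_eq]
    exact h1
  · rw [Fermat.Agent.S28.Deg.H9.ev2_eq_eval_map, h7_eval₂RingHom_eq]
    exact h2

/-- **MOD-C, deliverable** in the shape `Deg.H9.StModC p` consumed by `stPRIMEAll_of`. -/
theorem stModC_of_StMODC (h : StMODC p) : Fermat.Agent.S28.Deg.H9.StModC p :=
  (Fermat.Agent.S28.Deg.H9.stModC_iff p).mpr
    (Fermat.Agent.S28.Deg.H9.StModCIn.map (Int.castRingHom ℚ) (stModCIn_int_of_StMODC p h))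

theorem stModC_of_ANac (hp : p.Prime) (h : StANac p 1 0) : Fermat.Agent.S28.Deg.H9.StModC p :=
  stModC_of_StMODC p (stMODC_of_ANac p hp h)

end ModC

section VInt

variable (p : ℕ) [NeZero p]

/-- The two models of `v = Δ(q^p)/Δ(q)` over a field agree. -/
theorem h7_vL_eq (k : Type*) [Field k] : Fermat.Agent.S28.Deg.H21.vL k p = vL k p := by
  have h1 : Fermat.Agent.S28.Deg.H21.deltaL k = deltaL k := rfl
  have h2 : (deltaL k)⁻¹ = deltaInvL k := inv_eq_of_mul_eq_one_right (deltaL_mul_deltaInvL k)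
  rw [Fermat.Agent.S28.Deg.H21.vL, h1, h2, vL]

/-- `ℤ[1/p]`. -/
abbrev Zinv : Type := Localization.Away ((p : ℕ) : ℤ)

lemma h7_isUnit_complex : IsUnit ((Int.castRingHom ℂ) ((p : ℕ) : ℤ)) := by
  rw [isUnit_iff_ne_zero]
  simpa using NeZero.ne p

/-- `ℤ[1/p] → ℂ`. -/
def zinvToC : Zinv p →+* ℂ :=
  IsLocalization.Away.lift ((p : ℕ) : ℤ) (g := Int.castRingHom ℂ) (h7_isUnit_complex p)

lemma zinvToC_injective : Function.Injective (zinvToC p) := by
  rw [zinvToC, IsLocalization.Away.lift, IsLocalization.lift_injective_iff]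
  intro x y
  constructor
  · intro h
    have hp0 : ((p : ℕ) : ℤ) ≠ 0 := by exact_mod_cast NeZero.ne p
    have hinj : Function.Injective (algebraMap ℤ (Zinv p)) :=
      IsLocalization.injective (M := Submonoid.powers ((p : ℕ) : ℤ)) (Zinv p)
        (powers_le_nonZeroDivisors_of_noZeroDivisors hp0)
    rw [hinj h]
  · intro h
    rw [Int.cast_injective (α := ℂ) h]

omit [NeZero p] in
lemma h7_natCast_mul_invSelf :
    ((p : ℕ) : Zinv p) * IsLocalization.Away.invSelf ((p : ℕ) : ℤ) = 1 := by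
  have h := IsLocalization.Away.mul_invSelf (S := Zinv p) ((p : ℕ) : ℤ)
  rwa [map_natCast] at h

/-- `ℤ[1/p] → ZMod ℓ` for a prime `ℓ ≠ p`. -/
def zinvToZMod (ℓ : ℕ) (hu : IsUnit ((Int.castRingHom (ZMod ℓ)) ((p : ℕ) : ℤ))) :
    Zinv p →+* ZMod ℓ :=
  IsLocalization.Away.lift ((p : ℕ) : ℤ) (g := Int.castRingHom (ZMod ℓ)) hu

omit [NeZero p] in
lemma h7_isUnit_zmod (hp : p.Prime) (ℓ : ℕ) [Fact ℓ.Prime] (hpl : p ≠ ℓ) :
    IsUnit ((Int.castRingHom (ZMod ℓ)) ((p : ℕ) : ℤ)) := by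
  have hco : Nat.Coprime p ℓ := (Nat.coprime_primes hp (Fact.out : ℓ.Prime)).mpr hpl
  have := (ZMod.unitOfCoprime p hco).isUnit
  simpa using this

/-- **`v` is integral over `ℤ[1/p][j]`**, in the form MOD-A over `ℤ[1/p]`. -/
theorem stMODA_vL_zinv (hp : p.Prime) (h : StANac p 0 1) : StMODA p (Zinv p) (vL (Zinv p) p) :=
  stMODA_vL p (zinvToC p) (zinvToC_injective p) hp _ (h7_natCast_mul_invSelf p) h

/-- MOD-A for `v` over `ZMod ℓ`, `ℓ ≠ p`. -/
theorem stMODA_vL_zmod (hp : p.Prime) (ℓ : ℕ) [Fact ℓ.Prime] (hpl : p ≠ ℓ)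
    (h : StANac p 0 1) : StMODA p (ZMod ℓ) (vL (ZMod ℓ) p) := by
  have h1 := (stMODA_vL_zinv p hp h).map p (zinvToZMod p ℓ (h7_isUnit_zmod p hp ℓ hpl))
  rwa [coeffMap_vL] at h1

/-- **Integrality of `v`, deliverable** in the shape `Deg.H21.StVInt (ZMod ℓ) p` consumed by the
exclusion `Deg.H21.excl`. -/
theorem stVInt_of_ANac (hp : p.Prime) (ℓ : ℕ) [Fact ℓ.Prime] (hpl : p ≠ ℓ)
    (h : StANac p 0 1) : Fermat.Agent.S28.Deg.H21.StVInt (ZMod ℓ) p := by
  rw [Fermat.Agent.S28.Deg.H21.StVInt, h7_vL_eq]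
  exact (stMODA_vL_zmod p hp ℓ hpl h).isIntegral

end VInt

end

end Fermat.Agent.S28.Mod.H7
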