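import Fermat.Agent.S28.Mod.H24_AN
import Fermat.Agent.S28.Mod.H7_ModBridge

/-!
# S28 / MOD (helper24): the deliverables (M1) and (M3) of the package MOD

* `h24_stANac` : the analytic input in helper7's shape `H7.StANac p a c`, for all `a c : ℂ`;
* `h24_stModC` : (M1) the modular equation `Deg.H9.StModC p` for every prime `p`;
* `h24_stVInt` : (M3) `Deg.H21.StVInt (ZMod ℓ) p` for all primes `p ≠ ℓ`.
-/

set_option autoImplicit false

open Polynomial ModularCurve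

noncomputable section

namespace Fermat.Agent.S28.Mod.H24

/-- The analytic input in the shape `H7.StANac`. -/
theorem h24_stANac (p : ℕ) [NeZero p] (hp : p.Prime) (a c : ℂ) : H7.StANac p a c := by
  have h := h24_stAN p hp a c
  rw [H7.StANac, H7.gSer, H7.gSSer, UnitZ.vL_eq_coeffEmb p ℂ, UnitZ.uL_eq_coeffEmb p ℂ]
  exact h

/-- **(M1)** The modular equation of prime level `p`: `Φ ∈ ℤ[Y][X]` monic of degree `p + 1` with
`Φ(j_p ; j) = 0` and `Φ(j ; j_p) = 0`. -/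
theorem h24_stModC (p : ℕ) [NeZero p] (hp : p.Prime) : Fermat.Agent.S28.Deg.H9.StModC p :=
  H7.stModC_of_ANac p hp (h24_stANac p hp 1 0)

/-- **(M3)** The modular unit `v = Δ(q^p)/Δ(q)` is integral over `𝔽_ℓ[j]` for `ℓ ≠ p`. -/
theorem h24_stVInt (p : ℕ) [NeZero p] (hp : p.Prime) (ℓ : ℕ) [Fact ℓ.Prime] (hpl : p ≠ ℓ) :
    Fermat.Agent.S28.Deg.H21.StVInt (ZMod ℓ) p :=
  H7.stVInt_of_ANac p hp ℓ hpl (h24_stANac p hp 0 1)

/-- (M1) for all primes, in the shape consumed by `Deg.H9.stPRIMEAll_of_mod`. -/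
theorem h24_stModC_all : ∀ (p : ℕ) [NeZero p], p.Prime → Fermat.Agent.S28.Deg.H9.StModC p :=
  fun p _ hp => h24_stModC p hp

/-- (M3) for all primes `p ≠ ℓ`, in the shape consumed by `Deg.H9.stPRIMEAll_of_mod`. -/
theorem h24_stVInt_all : ∀ (p : ℕ) [NeZero p] (ℓ : ℕ) [Fact ℓ.Prime], p.Prime → p ≠ ℓ →
    Fermat.Agent.S28.Deg.H21.StVInt (ZMod ℓ) p :=
  fun p _ ℓ _ hp hpl => h24_stVInt p hp ℓ hpl

end Fermat.Agent.S28.Mod.H24
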