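import Mathlib
import Fermat.Prelude.Def_ModularCurve_ModularUnit
import Fermat.Agent.S24.H6_Rho

/-!
# S28 / MOD (helper14): the modular unit `Δ(p z) / Δ(z)` in the `IsReal` / `IsModReal` calculus

* `vFun p z = Δ(p z) / Δ(z)`, `uFun p z = Δ(z) / Δ(p z)`;
* `vSer p`, `uSer p` : the corresponding formal series (images of the prelude's
  `(modularUnitSeries p)⁻¹` and `modularUnitSeries p` in `ℂ((q))`);
* `isModReal_vFun`, `isModReal_uFun` : realisation, `Γ₀(p)`-invariance, moderate growth;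
* `vFun_S_scale`, `uFun_S_scale`, `jN_S_scale`, `jInv_S_scale` : the translates by
  `z ↦ -1 / (p z)`.
-/

set_option autoImplicit false

open UpperHalfPlane ModularForm EisensteinSeries ModularFormClass Filter Topology
open CongruenceSubgroup
open scoped MatrixGroups ModularForm Manifold

namespace Fermat.Agent.S28.Mod.Unit

open Fermat.Agent.S23 Fermat.Agent.S23.R5 Fermat.Agent.S23.R4 Fermat.Agent.S24.Real

/-- The modular unit `v(z) = Δ(p z) / Δ(z)`. -/
noncomputable def vFun (p : ℕ) : ℍ → ℂ :=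
  fun z => ModularForm.discriminant (scaleN p z) / ModularForm.discriminant z

/-- The modular unit `u(z) = Δ(z) / Δ(p z)`. -/
noncomputable def uFun (p : ℕ) : ℍ → ℂ :=
  fun z => ModularForm.discriminant z / ModularForm.discriminant (scaleN p z)

/-- The formal series of `v`, over `ℂ`. -/
noncomputable def vSer (p : ℕ) [NeZero p] : LaurentSeries ℂ :=
  ModularCurve.coeffEmb ℂ (ModularCurve.modularUnitSeries p)⁻¹

/-- The formal series of `u`, over `ℂ`. -/
noncomputable def uSer (p : ℕ) [NeZero p] : LaurentSeries ℂ :=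
  ModularCurve.coeffEmb ℂ (ModularCurve.modularUnitSeries p)

lemma vFun_apply (p : ℕ) (z : ℍ) :
    vFun p z = ModularForm.discriminant (scaleN p z) / ModularForm.discriminant z := rfl

lemma uFun_apply (p : ℕ) (z : ℍ) :
    uFun p z = ModularForm.discriminant z / ModularForm.discriminant (scaleN p z) := rfl

lemma vFun_ne_zero (p : ℕ) (z : ℍ) : vFun p z ≠ 0 :=
  div_ne_zero (discriminant_ne_zero _) (discriminant_ne_zero _)

lemma uFun_ne_zero (p : ℕ) (z : ℍ) : uFun p z ≠ 0 :=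
  div_ne_zero (discriminant_ne_zero _) (discriminant_ne_zero _)

lemma uFun_mul_vFun (p : ℕ) (z : ℍ) : uFun p z * vFun p z = 1 := by
  rw [uFun_apply, vFun_apply]
  have h1 := discriminant_ne_zero z
  have h2 := discriminant_ne_zero (scaleN p z)
  field_simp

lemma vFun_eq_inv (p : ℕ) (z : ℍ) : vFun p z = (uFun p z)⁻¹ := by
  rw [uFun_apply, vFun_apply, inv_div]

lemma uFun_eq_inv (p : ℕ) (z : ℍ) : uFun p z = (vFun p z)⁻¹ := by
  rw [uFun_apply, vFun_apply, inv_div]

lemma uSer_mul_vSer (p : ℕ) [NeZero p] : uSer p * vSer p = 1 := by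
  rw [uSer, vSer, ← map_mul, mul_inv_cancel₀ (ModularCurve.modularUnitSeries_ne_zero p), map_one]

/-! ### Realisation -/

/-- The prelude's formal `Δ` over `ℂ` is the `q`-expansion of the analytic `Δ`. -/
lemma coeffEmb_deltaSeries :
    ModularCurve.coeffEmb ℂ ModularCurve.deltaSeries =
      toL (qExpansion 1 ModularForm.discriminant) := by
  rw [qExpansion_discriminant, ModularCurve.coeffEmb, ModularCurve.deltaSeries, map_mul,
    ModularCurve.coeffMap_single, map_one, coeffMap_ofPowerSeries, deltaZ, map_mul, map_mul,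
    PowerSeries.map_X, HahnSeries.ofPowerSeries_X, ModularCurve.dedekindEtaUnitQ]
  congr 2

/-- The formal `Δ` is realised by the analytic `Δ`. -/
theorem isReal_discriminant :
    IsReal (ModularCurve.coeffEmb ℂ ModularCurve.deltaSeries) ModularForm.discriminant := by
  refine ⟨ModularForm.discriminant, 1, niceAtInf_discriminant, NiceAtInf.one,
    fun _ => one_ne_zero, fun z => by simp, ?_⟩
  rw [qExpansion_one, map_one, mul_one, coeffEmb_deltaSeries]

/-- Inverse of a nowhere vanishing realised function. -/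
lemma isReal_inv {h : LaurentSeries ℂ} {f : ℍ → ℂ} (hf : IsReal h f) (h0 : ∀ z, f z ≠ 0) :
    IsReal h⁻¹ (fun z => (f z)⁻¹) := by
  obtain ⟨A, B, hA, hB, hB0, hfAB, hq⟩ := hf
  have hA0 : ∀ z, A z ≠ 0 := fun z => by
    rw [← hfAB z]
    exact mul_ne_zero (h0 z) (hB0 z)
  refine ⟨B, A, hB, hA, hA0, fun z => ?_, ?_⟩
  · rw [← hfAB z]
    field_simp [h0 z]
  · have hA' := toL_qExpansion_ne_zero hA hA0
    have hh : h ≠ 0 := by
      rintro rfl
      rw [zero_mul] at hq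
      exact hA' hq
    rw [hq, ← mul_assoc, inv_mul_cancel₀ hh, one_mul]

/-- The formal `Δ(q ^ p)` is realised by `z ↦ Δ(p z)`. -/
theorem isReal_discN (p : ℕ) [NeZero p] :
    IsReal (ModularCurve.coeffEmb ℂ (ModularCurve.deltaSeriesN p))
      (fun z => ModularForm.discriminant (scaleN p z)) := by
  have := isReal_discriminant.scale p
  have e : ModularCurve.coeffEmb ℂ (ModularCurve.deltaSeriesN p) =
      ModularCurve.qExpand ℂ p (ModularCurve.coeffEmb ℂ ModularCurve.deltaSeries) :=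
    coeffMap_qExpand _ p _
  rwa [e]

theorem isReal_vFun (p : ℕ) [NeZero p] : IsReal (vSer p) (vFun p) := by
  have h1 := isReal_discN p
  have h2 := isReal_inv isReal_discriminant discriminant_ne_zero
  have h3 := h1.mul h2
  have e1 : ModularCurve.coeffEmb ℂ (ModularCurve.deltaSeriesN p) *
      (ModularCurve.coeffEmb ℂ ModularCurve.deltaSeries)⁻¹ = vSer p := by
    rw [vSer, ModularCurve.modularUnitSeries, mul_inv, inv_inv, map_mul, map_inv₀, mul_comm]
  have e2 : ((fun z => ModularForm.discriminant (scaleN p z)) *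
      fun z => (ModularForm.discriminant z)⁻¹) = vFun p := by
    funext z
    simp only [Pi.mul_apply, vFun_apply, div_eq_mul_inv]
  rwa [e1, e2] at h3

theorem isReal_uFun (p : ℕ) [NeZero p] : IsReal (uSer p) (uFun p) := by
  have h := isReal_inv (isReal_vFun p) (vFun_ne_zero p)
  have e1 : (vSer p)⁻¹ = uSer p := by
    rw [vSer, uSer, map_inv₀, inv_inv]
  have e2 : (fun z => (vFun p z)⁻¹) = uFun p := by
    funext z
    rw [uFun_eq_inv]
  rwa [e1, e2] at h

/-! ### Invariance under `Γ₀(p)` -/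

lemma scaleN_smul_of_mem_Gamma0 (p : ℕ) [NeZero p] (γ : SL(2, ℤ)) (e : ℤ)
    (he : γ 1 0 = p * e) (z : ℍ) :
    scaleN p (γ • z) = conjSL p γ e he • scaleN p z := by
  have h1 : γ • z = Matrix.SpecialLinearGroup.mapGL ℝ γ • z := rfl
  have h2 : conjSL p γ e he • scaleN p z =
      Matrix.SpecialLinearGroup.mapGL ℝ (conjSL p γ e he) • scaleN p z := rfl
  rw [h1, h2, scaleN, scaleN, ← mul_smul, ← mul_smul, heckeDiagMatrix_mul_mapGL p γ e he]

lemma discriminant_scaleN_smul_of_mem_Gamma0 (p : ℕ) [NeZero p] (γ : SL(2, ℤ))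
    (hγ : γ ∈ Gamma0 p) (z : ℍ) :
    ModularForm.discriminant (scaleN p (γ • z)) =
      (((γ 1 0 : ℤ) : ℂ) * z + ((γ 1 1 : ℤ) : ℂ)) ^ (12 : ℤ) *
        ModularForm.discriminant (scaleN p z) := by
  obtain ⟨e, he⟩ : (p : ℤ) ∣ γ 1 0 :=
    (ZMod.intCast_zmod_eq_zero_iff_dvd _ p).mp (Gamma0_mem.mp hγ)
  rw [scaleN_smul_of_mem_Gamma0 p γ e he z, discriminant_smul]
  have e10 : (conjSL p γ e he) 1 0 = e := rfl
  have e11 : (conjSL p γ e he) 1 1 = γ 1 1 := rfl
  rw [e10, e11, coe_scaleN, he]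
  congr 2
  push_cast
  ring

theorem gamma0Inv_vFun (p : ℕ) [NeZero p] : Gamma0Inv p (vFun p) := by
  intro γ hγ z
  rw [vFun_apply, vFun_apply, discriminant_scaleN_smul_of_mem_Gamma0 p γ hγ z,
    discriminant_smul γ z]
  have h := cz_add_d_ne_zero γ z
  have hΔ := discriminant_ne_zero z
  have h12 : (((γ 1 0 : ℤ) : ℂ) * z + ((γ 1 1 : ℤ) : ℂ)) ^ (12 : ℤ) ≠ 0 := zpow_ne_zero _ h
  field_simp

theorem gamma0Inv_uFun (p : ℕ) [NeZero p] : Gamma0Inv p (uFun p) := by
  intro γ hγ z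
  rw [uFun_eq_inv, uFun_eq_inv, gamma0Inv_vFun p γ hγ z]

/-! ### Translates by `SL(2, ℤ)` and moderate growth -/

/-- Explicit form of the translates of `v`: `v (γ z) = D⁻¹² Δ((A z + B) / D) / Δ(z)`. -/
theorem exists_vFun_smul_eq (p : ℕ) [NeZero p] (γ : SL(2, ℤ)) :
    ∃ (A D : ℕ) (hA : 0 < A) (hD : 0 < D) (B : ℤ), A * D = p ∧
      (A = p → (p : ℤ) ∣ γ 1 0) ∧
      ∀ z : ℍ, vFun p (γ • z) =
        ((D : ℂ) ^ 12)⁻¹ * ModularForm.discriminant (affH A D hA hD B z) /
          ModularForm.discriminant z := by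
  obtain ⟨δ, A, D, hA, hD, B, hAD, hAN, hz⟩ := exists_scaleH_smul_eq_denom p γ
  refine ⟨A, D, hA, hD, B, hAD, hAN, fun z => ?_⟩
  obtain ⟨hsm, hden⟩ := hz z
  have hD0 : (D : ℂ) ≠ 0 := by exact_mod_cast hD.ne'
  have hcz : ((γ 1 0 : ℤ) : ℂ) * z + ((γ 1 1 : ℤ) : ℂ) ≠ 0 := cz_add_d_ne_zero γ z
  rw [vFun_apply, R4.scaleN_eq_scaleH, hsm, discriminant_smul δ, discriminant_smul γ z]
  set w : ℂ := (affH A D hA hD B z : ℂ) with hw
  set c : ℂ := ((γ 1 0 : ℤ) : ℂ) * z + ((γ 1 1 : ℤ) : ℂ) with hc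
  have e : ((δ 1 0 : ℤ) : ℂ) * w + ((δ 1 1 : ℤ) : ℂ) = c / D := by
    rw [eq_div_iff hD0]; exact hden
  rw [e]
  have e12 : (c / (D : ℂ)) ^ (12 : ℤ) = (c / D) ^ 12 := by norm_cast
  have e12' : c ^ (12 : ℤ) = c ^ 12 := by norm_cast
  rw [e12, e12']
  have hΔ := discriminant_ne_zero z
  field_simp

theorem modGrowth_vFun (p : ℕ) [NeZero p] : ModGrowth (vFun p) := by
  intro γ
  obtain ⟨A, D, hA, hD, B, hAD, -, hz⟩ := exists_vFun_smul_eq p γ
  obtain ⟨A₀, hA₀, hbd⟩ := norm_discriminant_bounds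
  refine ⟨1, ?_⟩
  rw [UpperHalfPlane.isBoundedAtImInfty_iff]
  have hD' : (1 : ℝ) ≤ D := by exact_mod_cast hD
  have hA' : (1 : ℝ) ≤ A := by exact_mod_cast hA
  have hDpos : (0 : ℝ) < D := by linarith
  refine ⟨2, A₀ * D, fun z hzim => ?_⟩
  rw [hz z, pow_one, div_mul_cancel₀ _ (discriminant_ne_zero z), norm_mul, norm_inv, norm_pow]
  have him : (affH A D hA hD B z).im = A * z.im / D := im_affH A D hA hD B z
  have hzpos := z.im_pos
  have hge : A₀ ≤ (affH A D hA hD B z).im := by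
    rw [him, le_div_iff₀ hDpos]
    calc A₀ * D ≤ z.im := hzim
      _ ≤ A * z.im := by nlinarith
  have h1 := (hbd _ hge).2
  have h2 : Real.exp (-(2 * Real.pi * (affH A D hA hD B z).im)) ≤ 1 := by
    rw [Real.exp_le_one_iff]
    have : 0 < (affH A D hA hD B z).im := (affH A D hA hD B z).im_pos
    have hpi := Real.pi_pos
    nlinarith
  have h3 : ‖ModularForm.discriminant (affH A D hA hD B z)‖ ≤ 2 := by linarith
  have h4 : (‖(D : ℂ)‖ ^ 12)⁻¹ ≤ 1 := by
    apply inv_le_one_of_one_le₀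
    have : ‖(D : ℂ)‖ = D := by simp
    rw [this]
    exact one_le_pow₀ hD'
  calc (‖(D : ℂ)‖ ^ 12)⁻¹ * ‖ModularForm.discriminant (affH A D hA hD B z)‖
      ≤ 1 * 2 := mul_le_mul h4 h3 (norm_nonneg _) zero_le_one
    _ = 2 := one_mul 2

/-- **The modular unit `v = Δ(p z) / Δ(z)`**: realisation of the formal series, invariance
under `Γ₀(p)`, moderate growth at all cusps. -/
theorem isModReal_vFun (p : ℕ) [NeZero p] : IsModReal p (vSer p) (vFun p) :=
  ⟨isReal_vFun p, gamma0Inv_vFun p, modGrowth_vFun p⟩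

/-! ### The translate by `z ↦ -1 / (p z)` -/

lemma S_entries : (ModularGroup.S 0 0 = 0) ∧ (ModularGroup.S 0 1 = -1) ∧
    (ModularGroup.S 1 0 = 1) ∧ (ModularGroup.S 1 1 = 0) := by
  refine ⟨rfl, rfl, rfl, rfl⟩

lemma coe_S_smul (z : ℍ) : ((ModularGroup.S • z : ℍ) : ℂ) = -1 / (z : ℂ) := by
  rw [coe_smul_SL, S_entries.1, S_entries.2.1, S_entries.2.2.1, S_entries.2.2.2]
  push_cast
  ring_nf

lemma discriminant_S_smul (z : ℍ) :
    ModularForm.discriminant (ModularGroup.S • z) = (z : ℂ) ^ 12 * ModularForm.discriminant z := by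
  rw [discriminant_smul, S_entries.2.2.1, S_entries.2.2.2]
  push_cast
  rw [one_mul, add_zero]
  norm_cast

/-- `p · (-1 / (p z)) = -1 / z`. -/
lemma scaleN_S_smul_scaleN (p : ℕ) [NeZero p] (z : ℍ) :
    scaleN p (ModularGroup.S • scaleN p z) = ModularGroup.S • z := by
  apply UpperHalfPlane.ext
  rw [coe_scaleN, coe_S_smul, coe_S_smul, coe_scaleN]
  have hp : (p : ℂ) ≠ 0 := by exact_mod_cast NeZero.ne p
  have hz : (z : ℂ) ≠ 0 := UpperHalfPlane.ne_zero z
  field_simp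

/-- `v (-1 / (p z)) = p⁻¹² u (z)`. -/
theorem vFun_S_scale (p : ℕ) [NeZero p] (z : ℍ) :
    vFun p (ModularGroup.S • scaleN p z) = ((p : ℂ)⁻¹) ^ 12 * uFun p z := by
  rw [vFun_apply, uFun_apply, scaleN_S_smul_scaleN, discriminant_S_smul, discriminant_S_smul,
    coe_scaleN]
  have hp : (p : ℂ) ≠ 0 := by exact_mod_cast NeZero.ne p
  have hz : (z : ℂ) ≠ 0 := UpperHalfPlane.ne_zero z
  have h1 := discriminant_ne_zero z
  have h2 := discriminant_ne_zero (scaleN p z)
  field_simp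

/-- `u (-1 / (p z)) = p¹² v (z)`. -/
theorem uFun_S_scale (p : ℕ) [NeZero p] (z : ℍ) :
    uFun p (ModularGroup.S • scaleN p z) = (p : ℂ) ^ 12 * vFun p z := by
  rw [uFun_eq_inv, vFun_S_scale, uFun_eq_inv, mul_inv, inv_inv, inv_pow, inv_inv]

/-- `j (-1 / (p z)) = j (p z)`. -/
theorem jInv_S_scale (p : ℕ) [NeZero p] (z : ℍ) :
    jInv (ModularGroup.S • scaleN p z) = jN p z := by
  rw [jInv_smul, R4.scaleN_eq_scaleH]
  rfl

/-- `j_p (-1 / (p z)) = j (z)`. -/
theorem jN_S_scale (p : ℕ) [NeZero p] (z : ℍ) :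
    jN p (ModularGroup.S • scaleN p z) = jInv z := by
  show jInv (scaleH p (ModularGroup.S • scaleN p z)) = jInv z
  rw [← R4.scaleN_eq_scaleH, scaleN_S_smul_scaleN, jInv_smul]

end Fermat.Agent.S28.Mod.Unit
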