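import Mathlib
import Fermat.Prelude.Def_ModularCurve_X0
import Fermat.Prelude.Def_ModularCurve_LaurentCoeff
import Fermat.Prelude.Def_ModularCurve_ModularUnit
import Fermat.Prelude.Def_ModularCurve_JqCoeff
import Fermat.Prelude.Thm_ModularCurve_coeffMap_qExpand

/-!
# S28, package MOD, leaf MOD-UNITZ (helper22): the modular unit over an arbitrary ring

For every commutative ring `R` we define the Laurent series

* `deltaL R = q ∏ (1 - qⁿ)²⁴` and its inverse `deltaInvL R`;
* `vL R p = Δ(q ^ p) / Δ(q)` (order `p - 1`, leading coefficient `1`);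
* `uL R p = Δ(q) / Δ(q ^ p)` (order `1 - p`, leading coefficient `1`), `uL R p * vL R p = 1`.

They are compatible with every change of the coefficient ring (`coeffMap_vL`, …), so
`vL ℤ p` is the integral model, `vL (ZMod ℓ) p` its reduction, and `uL ℚ p` is the prelude's
`modularUnitSeries p`.
-/

set_option autoImplicit false
set_option linter.unusedSectionVars false
set_option linter.unusedVariables false

open HahnSeries ModularCurve

namespace Fermat.Agent.S28.Mod.UnitZ

noncomputable section

/-! ### Series with leading coefficient `1` -/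

section Monic

variable {R : Type*} [CommRing R]

/-- `f` has the shape `q ^ m (1 + …)`: the coefficient of index `m` is `1` and the lower
coefficients vanish.  (No hypothesis on `R`; for nontrivial `R` this says that `f` has order `m`
and leading coefficient `1`.) -/
def MonicAt (f : LaurentSeries R) (m : ℤ) : Prop :=
  f.coeff m = 1 ∧ ∀ k < m, f.coeff k = 0

theorem MonicAt.coeff_self {f : LaurentSeries R} {m : ℤ} (h : MonicAt f m) : f.coeff m = 1 := h.1

theorem MonicAt.coeff_of_lt {f : LaurentSeries R} {m k : ℤ} (h : MonicAt f m) (hk : k < m) :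
    f.coeff k = 0 := h.2 k hk

theorem MonicAt.ne_zero [Nontrivial R] {f : LaurentSeries R} {m : ℤ} (h : MonicAt f m) :
    f ≠ 0 := by
  intro h0
  have := h.1
  rw [h0, HahnSeries.coeff_zero] at this
  exact zero_ne_one this

theorem MonicAt.order [Nontrivial R] {f : LaurentSeries R} {m : ℤ} (h : MonicAt f m) :
    f.order = m := by
  refine le_antisymm (HahnSeries.order_le_of_coeff_ne_zero ?_) ?_
  · rw [h.1]
    exact one_ne_zero
  · rw [HahnSeries.le_order_iff_forall h.ne_zero]
    exact h.2

theorem MonicAt.leadingCoeff [Nontrivial R] {f : LaurentSeries R} {m : ℤ} (h : MonicAt f m) :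
    f.leadingCoeff = 1 := by
  rw [HahnSeries.leadingCoeff_eq, h.order, h.1]

theorem monicAt_of_order [Nontrivial R] {f : LaurentSeries R} {m : ℤ} (ho : f.order = m)
    (hl : f.leadingCoeff = 1) : MonicAt f m := by
  refine ⟨by rw [← ho, ← HahnSeries.leadingCoeff_eq, hl], fun k hk => ?_⟩
  exact HahnSeries.coeff_eq_zero_of_lt_order (ho ▸ hk)

/-- `q ^ m * U(q)` for a power series `U` with constant coefficient `1`. -/
theorem monicAt_single_mul_ofPowerSeries (m : ℤ) {U : PowerSeries R}
    (hU : PowerSeries.constantCoeff U = 1) :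
    MonicAt (HahnSeries.single m (1 : R) * HahnSeries.ofPowerSeries ℤ R U) m := by
  constructor
  · rw [HahnSeries.coeff_single_mul, one_mul, sub_self,
      show (0 : ℤ) = ((0 : ℕ) : ℤ) from rfl, HahnSeries.ofPowerSeries_apply_coeff,
      PowerSeries.coeff_zero_eq_constantCoeff, hU]
  · intro k hk
    rw [HahnSeries.coeff_single_mul, one_mul]
    exact ModularCurve.ofPowerSeries_coeff_of_neg U (by omega)

/-- A series of shape `q ^ m (1 + …)` is `q ^ m` times a series of shape `1 + …`. -/
theorem MonicAt.shift {f : LaurentSeries R} {m : ℤ} (h : MonicAt f m) (n : ℤ) :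
    MonicAt (HahnSeries.single n (1 : R) * f) (n + m) := by
  constructor
  · rw [HahnSeries.coeff_single_mul, one_mul, add_sub_cancel_left]
    exact h.1
  · intro k hk
    rw [HahnSeries.coeff_single_mul, one_mul]
    exact h.2 _ (by omega)

theorem single_mul_single_cancel (n : ℤ) (f : LaurentSeries R) :
    HahnSeries.single n (1 : R) * (HahnSeries.single (-n) (1 : R) * f) = f := by
  rw [← mul_assoc, HahnSeries.single_mul_single, one_mul, add_neg_cancel]
  exact one_mul f

theorem MonicAt.mul {f g : LaurentSeries R} {m n : ℤ} (hf : MonicAt f m) (hg : MonicAt g n) :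
    MonicAt (f * g) (m + n) := by
  rcases subsingleton_or_nontrivial R with h | h
  · exact ⟨Subsingleton.elim _ _, fun _ _ => Subsingleton.elim _ _⟩
  · have h1 : f.leadingCoeff * g.leadingCoeff ≠ 0 := by
      rw [hf.leadingCoeff, hg.leadingCoeff, one_mul]
      exact one_ne_zero
    refine monicAt_of_order ?_ ?_
    · rw [HahnSeries.order_mul_of_ne_zero h1, hf.order, hg.order]
    · rw [HahnSeries.leadingCoeff_mul_of_ne_zero h1, hf.leadingCoeff, hg.leadingCoeff, one_mul]

theorem MonicAt.qExpand {f : LaurentSeries R} {m : ℤ} (p : ℕ) [NeZero p] (hf : MonicAt f m) :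
    MonicAt (ModularCurve.qExpand R p f) ((p : ℤ) * m) := by
  constructor
  · rw [qExpand_coeff_mul]
    exact hf.1
  · intro k hk
    by_cases hdvd : (p : ℤ) ∣ k
    · obtain ⟨j, rfl⟩ := hdvd
      rw [qExpand_coeff_mul]
      refine hf.2 _ ?_
      have hp : (0 : ℤ) < (p : ℤ) := by exact_mod_cast Nat.pos_of_ne_zero (NeZero.ne p)
      exact lt_of_mul_lt_mul_left hk hp.le
    · exact qExpand_coeff_of_not_dvd p f hdvd

theorem MonicAt.coeffMap {S : Type*} [CommRing S] (φ : R →+* S) {f : LaurentSeries R} {m : ℤ}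
    (hf : MonicAt f m) : MonicAt (coeffMap φ f) m := by
  constructor
  · rw [coeffMap_coeff, hf.1, map_one]
  · intro k hk
    rw [coeffMap_coeff, hf.2 k hk, map_zero]

theorem MonicAt.one : MonicAt (1 : LaurentSeries R) 0 := by
  constructor
  · simp
  · intro k hk
    rw [HahnSeries.coeff_one, if_neg (by omega)]

/-- If `c ≠ 0` and `f` has shape `q ^ m (1 + …)`, `g` has shape `q ^ n (1 + …)` with `m < n`, then
`c • f + d • g` has order `m` (and leading coefficient `c`). -/
theorem order_smul_add_smul_of_lt [Nontrivial R] {f g : LaurentSeries R} {m n : ℤ}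
    (hf : MonicAt f m) (hg : MonicAt g n) (hmn : m < n) {c : R} (hc : c ≠ 0) (d : R) :
    (HahnSeries.C c * f + HahnSeries.C d * g).order = m ∧
      (HahnSeries.C c * f + HahnSeries.C d * g).coeff m = c := by
  have hcoeff : ∀ k, (HahnSeries.C c * f + HahnSeries.C d * g).coeff k
      = c * f.coeff k + d * g.coeff k := by
    intro k
    rw [HahnSeries.coeff_add, HahnSeries.C_apply, HahnSeries.C_apply,
      HahnSeries.coeff_single_mul, HahnSeries.coeff_single_mul, sub_zero]
  have hm : (HahnSeries.C c * f + HahnSeries.C d * g).coeff m = c := by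
    rw [hcoeff, hf.1, hg.2 m hmn, mul_one, mul_zero, add_zero]
  have hne : HahnSeries.C c * f + HahnSeries.C d * g ≠ 0 := by
    intro h0
    rw [h0, HahnSeries.coeff_zero] at hm
    exact hc hm.symm
  refine ⟨le_antisymm (HahnSeries.order_le_of_coeff_ne_zero (by rw [hm]; exact hc)) ?_, hm⟩
  rw [HahnSeries.le_order_iff_forall hne]
  intro k hk
  rw [hcoeff, hf.2 k hk, hg.2 k (hk.trans hmn), mul_zero, mul_zero, add_zero]

/-- If `f`, `g` both have shape `q ^ m (1 + …)` and `c + d ≠ 0`, then `c • f + d • g` has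
order `m` (and leading coefficient `c + d`). -/
theorem order_smul_add_smul_of_eq [Nontrivial R] {f g : LaurentSeries R} {m : ℤ}
    (hf : MonicAt f m) (hg : MonicAt g m) {c d : R} (hcd : c + d ≠ 0) :
    (HahnSeries.C c * f + HahnSeries.C d * g).order = m ∧
      (HahnSeries.C c * f + HahnSeries.C d * g).coeff m = c + d := by
  have hcoeff : ∀ k, (HahnSeries.C c * f + HahnSeries.C d * g).coeff k
      = c * f.coeff k + d * g.coeff k := by
    intro k
    rw [HahnSeries.coeff_add, HahnSeries.C_apply, HahnSeries.C_apply,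
      HahnSeries.coeff_single_mul, HahnSeries.coeff_single_mul, sub_zero]
  have hm : (HahnSeries.C c * f + HahnSeries.C d * g).coeff m = c + d := by
    rw [hcoeff, hf.1, hg.1, mul_one, mul_one]
  have hne : HahnSeries.C c * f + HahnSeries.C d * g ≠ 0 := by
    intro h0
    rw [h0, HahnSeries.coeff_zero] at hm
    exact hcd hm.symm
  refine ⟨le_antisymm (HahnSeries.order_le_of_coeff_ne_zero (by rw [hm]; exact hcd)) ?_, hm⟩
  rw [HahnSeries.le_order_iff_forall hne]
  intro k hk
  rw [hcoeff, hf.2 k hk, hg.2 k hk, mul_zero, mul_zero, add_zero]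

end Monic

/-! ### The discriminant series -/

section Delta

variable (R : Type*) [CommRing R]

/-- `∏ (1 - qⁿ)²⁴` over `R`. -/
def etaUnit : PowerSeries R := dedekindEtaUnit.map (Int.castRingHom R)

/-- `∏ (1 - qⁿ)⁻²⁴` over `R`. -/
def etaUnitInv : PowerSeries R := dedekindEtaUnitInv.map (Int.castRingHom R)

theorem etaUnit_mul_inv : etaUnit R * etaUnitInv R = 1 := by
  unfold etaUnit etaUnitInv
  rw [← map_mul, dedekindEtaUnit_mul_inv, map_one]

theorem constantCoeff_etaUnit : PowerSeries.constantCoeff (etaUnit R) = 1 := by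
  unfold etaUnit
  rw [← PowerSeries.coeff_zero_eq_constantCoeff_apply, PowerSeries.coeff_map,
    PowerSeries.coeff_zero_eq_constantCoeff_apply, constantCoeff_dedekindEtaUnit, map_one]

theorem constantCoeff_etaUnitInv : PowerSeries.constantCoeff (etaUnitInv R) = 1 := by
  unfold etaUnitInv
  rw [← PowerSeries.coeff_zero_eq_constantCoeff_apply, PowerSeries.coeff_map,
    PowerSeries.coeff_zero_eq_constantCoeff_apply, constantCoeff_dedekindEtaUnitInv, map_one]

/-- `Δ(q) = q ∏ (1 - qⁿ)²⁴` as a Laurent series over `R`. -/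
def deltaL : LaurentSeries R :=
  HahnSeries.single (1 : ℤ) 1 * HahnSeries.ofPowerSeries ℤ R (etaUnit R)

/-- `Δ(q)⁻¹` as a Laurent series over `R`. -/
def deltaInvL : LaurentSeries R :=
  HahnSeries.single (-1 : ℤ) 1 * HahnSeries.ofPowerSeries ℤ R (etaUnitInv R)

theorem deltaL_mul_deltaInvL : deltaL R * deltaInvL R = 1 := by
  unfold deltaL deltaInvL
  rw [mul_mul_mul_comm, HahnSeries.single_mul_single, ← map_mul, etaUnit_mul_inv, map_one,
    mul_one, mul_one, add_neg_cancel]
  rfl

theorem deltaInvL_mul_deltaL : deltaInvL R * deltaL R = 1 := by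
  rw [mul_comm, deltaL_mul_deltaInvL]

theorem monicAt_deltaL : MonicAt (deltaL R) 1 :=
  monicAt_single_mul_ofPowerSeries 1 (constantCoeff_etaUnit R)

theorem monicAt_deltaInvL : MonicAt (deltaInvL R) (-1) :=
  monicAt_single_mul_ofPowerSeries (-1) (constantCoeff_etaUnitInv R)

theorem deltaL_rat : deltaL ℚ = deltaSeries := rfl

end Delta

/-! ### Change of the coefficient ring -/

section BaseChange

variable {R S : Type*} [CommRing R] [CommRing S] (φ : R →+* S)

theorem coeffMap_ofPowerSeries (U : PowerSeries R) :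
    coeffMap φ (HahnSeries.ofPowerSeries ℤ R U) = HahnSeries.ofPowerSeries ℤ S (U.map φ) := by
  ext k
  rw [coeffMap_coeff]
  rcases le_or_gt 0 k with hk | hk
  · lift k to ℕ using hk
    rw [HahnSeries.ofPowerSeries_apply_coeff, HahnSeries.ofPowerSeries_apply_coeff,
      PowerSeries.coeff_map]
  · rw [ModularCurve.ofPowerSeries_coeff_of_neg _ hk, ModularCurve.ofPowerSeries_coeff_of_neg _ hk,
      map_zero]

theorem map_etaUnit : (etaUnit R).map φ = etaUnit S := by
  unfold etaUnit
  ext n
  rw [PowerSeries.coeff_map, PowerSeries.coeff_map, PowerSeries.coeff_map]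
  simp

theorem map_etaUnitInv : (etaUnitInv R).map φ = etaUnitInv S := by
  unfold etaUnitInv
  ext n
  rw [PowerSeries.coeff_map, PowerSeries.coeff_map, PowerSeries.coeff_map]
  simp

theorem coeffMap_deltaL : coeffMap φ (deltaL R) = deltaL S := by
  unfold deltaL
  rw [map_mul, coeffMap_single, map_one, coeffMap_ofPowerSeries, map_etaUnit]

theorem coeffMap_deltaInvL : coeffMap φ (deltaInvL R) = deltaInvL S := by
  unfold deltaInvL
  rw [map_mul, coeffMap_single, map_one, coeffMap_ofPowerSeries, map_etaUnitInv]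

end BaseChange

/-! ### The modular unit -/

section Unit

variable (R : Type*) [CommRing R] (p : ℕ) [NeZero p]

/-- `v = Δ(q ^ p) / Δ(q)` as a Laurent series over `R`. -/
def vL : LaurentSeries R := qExpand R p (deltaL R) * deltaInvL R

/-- `u = Δ(q) / Δ(q ^ p)` as a Laurent series over `R`. -/
def uL : LaurentSeries R := deltaL R * qExpand R p (deltaInvL R)

theorem uL_mul_vL : uL R p * vL R p = 1 := by
  unfold uL vL
  have h1 : qExpand R p (deltaInvL R) * qExpand R p (deltaL R) = 1 := by
    rw [← map_mul, deltaInvL_mul_deltaL, map_one]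
  calc deltaL R * qExpand R p (deltaInvL R) * (qExpand R p (deltaL R) * deltaInvL R)
      = deltaL R * (qExpand R p (deltaInvL R) * qExpand R p (deltaL R)) * deltaInvL R := by ring
    _ = 1 := by rw [h1, mul_one, deltaL_mul_deltaInvL]

theorem vL_mul_uL : vL R p * uL R p = 1 := by
  rw [mul_comm, uL_mul_vL]

/-- `v * Δ(q) = Δ(q ^ p)`. -/
theorem vL_mul_deltaL : vL R p * deltaL R = qExpand R p (deltaL R) := by
  unfold vL
  rw [mul_assoc, deltaInvL_mul_deltaL, mul_one]

/-- `u * Δ(q ^ p) = Δ(q)`. -/
theorem uL_mul_qExpand_deltaL : uL R p * qExpand R p (deltaL R) = deltaL R := by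
  unfold uL
  rw [mul_assoc, ← map_mul, deltaInvL_mul_deltaL, map_one, mul_one]

theorem monicAt_vL : MonicAt (vL R p) ((p : ℤ) - 1) := by
  have h := ((monicAt_deltaL R).qExpand p).mul (monicAt_deltaInvL R)
  rw [mul_one] at h
  exact h

theorem monicAt_uL : MonicAt (uL R p) (1 - (p : ℤ)) := by
  have h := (monicAt_deltaL R).mul ((monicAt_deltaInvL R).qExpand p)
  have h2 : (1 : ℤ) + (p : ℤ) * (-1) = 1 - p := by ring
  rw [h2] at h
  exact h

theorem coeff_vL_self : (vL R p).coeff ((p : ℤ) - 1) = 1 := (monicAt_vL R p).1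

theorem coeff_vL_of_lt {k : ℤ} (hk : k < (p : ℤ) - 1) : (vL R p).coeff k = 0 :=
  (monicAt_vL R p).2 k hk

theorem coeff_uL_self : (uL R p).coeff (1 - (p : ℤ)) = 1 := (monicAt_uL R p).1

theorem coeff_uL_of_lt {k : ℤ} (hk : k < 1 - (p : ℤ)) : (uL R p).coeff k = 0 :=
  (monicAt_uL R p).2 k hk

theorem order_vL [Nontrivial R] : (vL R p).order = (p : ℤ) - 1 := (monicAt_vL R p).order

theorem order_uL [Nontrivial R] : (uL R p).order = 1 - (p : ℤ) := (monicAt_uL R p).order

theorem leadingCoeff_vL [Nontrivial R] : (vL R p).leadingCoeff = 1 :=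
  (monicAt_vL R p).leadingCoeff

theorem leadingCoeff_uL [Nontrivial R] : (uL R p).leadingCoeff = 1 :=
  (monicAt_uL R p).leadingCoeff

theorem vL_ne_zero [Nontrivial R] : vL R p ≠ 0 := (monicAt_vL R p).ne_zero

theorem uL_ne_zero [Nontrivial R] : uL R p ≠ 0 := (monicAt_uL R p).ne_zero

/-- `v` is a power series without constant term when `p ≥ 2`: all coefficients of index `≤ 0`
vanish. -/
theorem coeff_vL_of_nonpos (hp : 2 ≤ p) {k : ℤ} (hk : k ≤ 0) : (vL R p).coeff k = 0 :=
  coeff_vL_of_lt R p (by
    have : (2 : ℤ) ≤ p := by exact_mod_cast hp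
    omega)

variable {R} in
theorem coeffMap_vL {S : Type*} [CommRing S] (φ : R →+* S) : coeffMap φ (vL R p) = vL S p := by
  unfold vL
  rw [map_mul, ModularCurve.coeffMap_qExpand, coeffMap_deltaL, coeffMap_deltaInvL]

variable {R} in
theorem coeffMap_uL {S : Type*} [CommRing S] (φ : R →+* S) : coeffMap φ (uL R p) = uL S p := by
  unfold uL
  rw [map_mul, ModularCurve.coeffMap_qExpand, coeffMap_deltaL, coeffMap_deltaInvL]

/-- Every `vL R p` is the image of the integral model `vL ℤ p`. -/
theorem vL_eq_coeffMap_int : vL R p = coeffMap (Int.castRingHom R) (vL ℤ p) :=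
  (coeffMap_vL p (Int.castRingHom R)).symm

theorem uL_eq_coeffMap_int : uL R p = coeffMap (Int.castRingHom R) (uL ℤ p) :=
  (coeffMap_uL p (Int.castRingHom R)).symm

end Unit

/-! ### Comparison with the prelude -/

section Prelude

variable (p : ℕ) [NeZero p]

theorem qExpand_deltaL_rat : qExpand ℚ p (deltaL ℚ) = deltaSeriesN p := rfl

/-- `uL ℚ p` is the prelude's `modularUnitSeries p`. -/
theorem uL_rat : uL ℚ p = modularUnitSeries p := by
  have h1 : uL ℚ p * deltaSeriesN p = deltaSeries := by
    rw [← qExpand_deltaL_rat, uL_mul_qExpand_deltaL, deltaL_rat]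
  have h2 := modularUnitSeries_mul_deltaSeriesN p
  exact mul_right_cancel₀ (deltaSeriesN_ne_zero p) (h1.trans h2.symm)

/-- `vL ℚ p` is the inverse of the prelude's `modularUnitSeries p`. -/
theorem vL_rat : vL ℚ p = (modularUnitSeries p)⁻¹ := by
  rw [← uL_rat]
  exact eq_inv_of_mul_eq_one_left (vL_mul_uL ℚ p)

/-- Over any field of characteristic zero (e.g. `ℂ`), `vL` is the image of the inverse of the
prelude's modular unit. -/
theorem vL_eq_coeffEmb (L : Type*) [Field L] [Algebra ℚ L] :
    vL L p = coeffEmb L (modularUnitSeries p)⁻¹ := by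
  rw [← vL_rat]
  exact (coeffMap_vL p (algebraMap ℚ L)).symm

theorem uL_eq_coeffEmb (L : Type*) [Field L] [Algebra ℚ L] :
    uL L p = coeffEmb L (modularUnitSeries p) := by
  rw [← uL_rat]
  exact (coeffMap_uL p (algebraMap ℚ L)).symm

end Prelude

/-! ### The `j`-series and the `S`-translates -/

section JSeries

variable (R : Type*) [CommRing R]

theorem constantCoeff_jNum_map :
    PowerSeries.constantCoeff (jNum.map (Int.castRingHom R)) = 1 := by
  rw [← PowerSeries.coeff_zero_eq_constantCoeff_apply, PowerSeries.coeff_map,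
    PowerSeries.coeff_zero_eq_constantCoeff_apply, constantCoeff_jNum, map_one]

theorem monicAt_jqModC : MonicAt (jqModC R) (-1) :=
  monicAt_single_mul_ofPowerSeries (-1) (constantCoeff_jNum_map R)

theorem order_jqModC [Nontrivial R] : (jqModC R).order = -1 := (monicAt_jqModC R).order

variable {R} in
theorem coeffMap_jqModC {S : Type*} [CommRing S] (φ : R →+* S) :
    coeffMap φ (jqModC R) = jqModC S :=
  map_jqModC φ

theorem jqModC_ne_zero [Nontrivial R] : jqModC R ≠ 0 := (monicAt_jqModC R).ne_zero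

variable (p : ℕ) [NeZero p]

theorem monicAt_qExpand_jqModC : MonicAt (qExpand R p (jqModC R)) (-(p : ℤ)) := by
  have h := (monicAt_jqModC R).qExpand p
  rwa [mul_neg, mul_one] at h

/-- **Order of the `S`-translate** `a j + c u` (`p ≥ 3`, `c ≠ 0`): it is `1 - p`. -/
theorem order_translate_of_ne_zero [Nontrivial R] (hp : 3 ≤ p) (a : R) {c : R} (hc : c ≠ 0) :
    (HahnSeries.C a * jqModC R + HahnSeries.C c * uL R p).order = 1 - (p : ℤ) := by
  have h := order_smul_add_smul_of_lt (monicAt_uL R p) (monicAt_jqModC R)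
    (by have : (3 : ℤ) ≤ p := by exact_mod_cast hp
        omega) hc a
  rw [add_comm]
  exact h.1

/-- **Order of the `S`-translate** `a j + c u` for `p = 2`: it is `-1` if `a + c ≠ 0`. -/
theorem order_translate_two [Nontrivial R] {a c : R} (hac : a + c ≠ 0) :
    (HahnSeries.C a * jqModC R + HahnSeries.C c * uL R 2).order = -1 := by
  have hu : MonicAt (uL R 2) (-1) := by
    have := monicAt_uL R 2
    norm_num at this
    exact this
  exact (order_smul_add_smul_of_eq (monicAt_jqModC R) hu hac).1

/-- **Order of the `S`-translate** `a j` (`a ≠ 0`): it is `-1`. -/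
theorem order_translate_j [Nontrivial R] {a : R} (ha : a ≠ 0) :
    (HahnSeries.C a * jqModC R).order = -1 := by
  have h := order_smul_add_smul_of_lt (monicAt_jqModC R) (MonicAt.one (R := R))
    (by norm_num) ha 0
  rw [map_zero, zero_mul, add_zero] at h
  exact h.1

/-- In all cases the order of the translate is prime to `p`: `p` does not divide `1 - p`
nor `-1` when `p ≥ 2`. -/
theorem not_dvd_one_sub (hp : 2 ≤ p) : ¬ (p : ℤ) ∣ 1 - (p : ℤ) := by
  intro h
  have h1 : (p : ℤ) ∣ 1 := by
    have := dvd_add h (dvd_refl (p : ℤ))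
    simpa using this
  have h2 := Int.le_of_dvd one_pos h1
  have : (2 : ℤ) ≤ p := by exact_mod_cast hp
  omega

theorem not_dvd_neg_one (hp : 2 ≤ p) : ¬ (p : ℤ) ∣ -1 := by
  intro h
  have h1 : (p : ℤ) ∣ 1 := (dvd_neg).mp h
  have h2 := Int.le_of_dvd one_pos h1
  have : (2 : ℤ) ≤ p := by exact_mod_cast hp
  omega

theorem gcd_one_sub (hp : 2 ≤ p) : Int.gcd (1 - (p : ℤ)) p = 1 := by
  have h : IsCoprime (1 - (p : ℤ)) (p : ℤ) := ⟨1, 1, by ring⟩
  exact Int.isCoprime_iff_gcd_eq_one.mp h

theorem gcd_neg_one : Int.gcd (-1 : ℤ) p = 1 := by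
  have h : IsCoprime (-1 : ℤ) (p : ℤ) := ⟨-1, 0, by ring⟩
  exact Int.isCoprime_iff_gcd_eq_one.mp h

end JSeries

end

end Fermat.Agent.S28.Mod.UnitZ
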