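import Mathlib
import Fermat.Agent.S24.H17_JLocal
import Fermat.Agent.S28.Mod.H14_UnitReal
import Fermat.Agent.S28.Mod.H22_UnitZ
import Fermat.Agent.S28.Deg.H21_Excl

/-!
# S28 / MOD (helper21): the level-one identity (I3), `(θ j)^6 = j^4 (j - 1728)^3 Δ`

Analytic side: `D j · Δ` is a modular form of weight `14`, hence `D j · Δ = c E₄² E₆`
(helper17's `S24.G1`), and `E₄³ = j Δ`, `E₆² = (j - 1728) Δ`; so pointwise
`(D j)^6 = c^6 j^4 (j - 1728)^3 Δ`.

Formal side: in the `IsReal` calculus this becomes an identity of Laurent series over `ℂ`, the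
coefficient of `q^(-6)` gives `c^6 = 1`, and the identity descends to `ℤ`.

The only input is the realisation of `θ j` by `D j`, i.e. the instance `f = j` of
"the `q`-expansion of the derivative is `θ` of the `q`-expansion".
-/

set_option autoImplicit false

noncomputable section

namespace Fermat.Agent.S28.Mod.H21I3

open UpperHalfPlane ModularForm EisensteinSeries
open scoped MatrixGroups Manifold Real
open Derivative
open Fermat.Agent.S23 Fermat.Agent.S24.Real Fermat.Agent.S28.Deg.H21 ModularCurve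
open Fermat.Agent.S28.Mod.UnitZ (MonicAt)

local notation "Δ" => ModularForm.discriminant

/-! ### The pointwise identity -/

/-- `D j · Δ = c E₄² E₆`. -/
theorem exists_D_jInv_mul_discriminant :
    ∃ c : ℂ, ∀ z : ℍ, D R4.jInv z * Δ z = c * (E₄ z ^ 2 * E₆ z) := by
  obtain ⟨c, -, hc⟩ := Fermat.Agent.S24.G1.exists_deriv_jC_mul_discriminant
  refine ⟨(2 * π * Complex.I)⁻¹ * c, fun z => ?_⟩
  have h := hc z
  have hD : D R4.jInv z = (2 * π * Complex.I)⁻¹ * deriv Fermat.Agent.S24.G1.jC z := rfl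
  rw [hD, mul_assoc, h]
  ring

/-- `(D j)^6 = c j^4 (j - 1728)^3 Δ` for some constant `c`. -/
theorem exists_D_jInv_pow_six :
    ∃ c : ℂ, ∀ z : ℍ,
      D R4.jInv z ^ 6 = c * (R4.jInv z ^ 4 * (R4.jInv z - 1728) ^ 3 * Δ z) := by
  obtain ⟨c, hc⟩ := exists_D_jInv_mul_discriminant
  refine ⟨c ^ 6, fun z => ?_⟩
  have hΔ : Δ z ≠ 0 := discriminant_ne_zero z
  have h4 : R4.jInv z * Δ z = E₄ z ^ 3 := R1.jInv_mul_discriminant z
  have h6 : E₆ z ^ 2 = (R4.jInv z - 1728) * Δ z := R1.E₆_sq_eq z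
  have h := hc z
  have key : D R4.jInv z ^ 6 * Δ z ^ 6 =
      c ^ 6 * (R4.jInv z ^ 4 * (R4.jInv z - 1728) ^ 3 * Δ z) * Δ z ^ 6 := by
    calc D R4.jInv z ^ 6 * Δ z ^ 6 = (D R4.jInv z * Δ z) ^ 6 := by ring
      _ = (c * (E₄ z ^ 2 * E₆ z)) ^ 6 := by rw [h]
      _ = c ^ 6 * ((E₄ z ^ 3) ^ 4 * (E₆ z ^ 2) ^ 3) := by ring
      _ = c ^ 6 * ((R4.jInv z * Δ z) ^ 4 * ((R4.jInv z - 1728) * Δ z) ^ 3) := by
          rw [← h4, h6]
      _ = c ^ 6 * (R4.jInv z ^ 4 * (R4.jInv z - 1728) ^ 3 * Δ z) * Δ z ^ 6 := by ring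
  exact mul_right_cancel₀ (pow_ne_zero 6 hΔ) key

/-! ### Realisation calculus -/

theorem isReal_pow {h : LaurentSeries ℂ} {f : ℍ → ℂ} (hf : IsReal h f) (n : ℕ) :
    IsReal (h ^ n) (f ^ n) := by
  induction n with
  | zero => simpa using IsReal.one
  | succ n ih =>
    rw [pow_succ, pow_succ]
    exact ih.mul hf

theorem coeffEmb_jq : coeffEmb ℂ jq = jqModC ℂ := by
  rw [← jqModC_rat, coeffEmb]
  exact ModularCurve.coeffMap_jqModC (algebraMap ℚ ℂ)

theorem coeffEmb_deltaSeries_eq : coeffEmb ℂ deltaSeries = deltaL ℂ := by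
  rw [← deltaL_rat, coeffEmb]
  exact coeffMap_deltaL (algebraMap ℚ ℂ)

theorem isReal_jqModC : IsReal (jqModC ℂ) R4.jInv := by
  have h := isReal_jInv
  rwa [coeffEmb_jq] at h

theorem isReal_deltaL : IsReal (deltaL ℂ) (Δ : ℍ → ℂ) := by
  have h := Fermat.Agent.S28.Mod.Unit.isReal_discriminant
  rwa [coeffEmb_deltaSeries_eq] at h

theorem isReal_ofNat1728 : IsReal (1728 : LaurentSeries ℂ) (fun _ : ℍ => (1728 : ℂ)) := by
  have h := IsReal.const (1728 : ℂ)
  rwa [map_ofNat] at h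

/-- The right hand side of (I3), realised. -/
theorem isReal_rhs (c : ℂ) :
    IsReal (HahnSeries.C c * (jqModC ℂ ^ 4 * (jqModC ℂ - 1728) ^ 3 * deltaL ℂ))
      (c • (R4.jInv ^ 4 * (R4.jInv - fun _ : ℍ => (1728 : ℂ)) ^ 3 * (Δ : ℍ → ℂ))) :=
  (((isReal_pow isReal_jqModC 4).mul (isReal_pow (isReal_jqModC.sub isReal_ofNat1728) 3)).mul
    isReal_deltaL).smul c

/-! ### Leading coefficients -/

theorem monicAt_pow {R : Type*} [CommRing R] {f : LaurentSeries R} {m : ℤ} (hf : MonicAt f m)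
    (n : ℕ) : MonicAt (f ^ n) ((n : ℤ) * m) := by
  induction n with
  | zero =>
    rw [pow_zero, Nat.cast_zero, zero_mul]
    exact MonicAt.one
  | succ n ih =>
    rw [pow_succ, Nat.cast_succ, add_mul, one_mul]
    exact ih.mul hf

theorem coeff_ofNat1728 {R : Type*} [CommRing R] {k : ℤ} (hk : k ≠ 0) :
    (1728 : LaurentSeries R).coeff k = 0 := by
  have h : (1728 : LaurentSeries R) = HahnSeries.C (1728 : R) := by
    rw [map_ofNat]
  rw [h, HahnSeries.C_apply, HahnSeries.coeff_single_of_ne hk]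

theorem monicAt_jqModC_sub (R : Type*) [CommRing R] : MonicAt (jqModC R - 1728) (-1) := by
  have hj := Fermat.Agent.S28.Mod.UnitZ.monicAt_jqModC R
  constructor
  · rw [HahnSeries.coeff_sub, hj.1, coeff_ofNat1728 (by norm_num), sub_zero]
  · intro k hk
    rw [HahnSeries.coeff_sub, hj.2 k hk, coeff_ofNat1728 (by omega), sub_zero]

theorem monicAt_neg_theta_jqModC (R : Type*) [CommRing R] :
    MonicAt (-theta (jqModC R)) (-1) := by
  have hj := Fermat.Agent.S28.Mod.UnitZ.monicAt_jqModC R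
  constructor
  · rw [HahnSeries.coeff_neg, theta_coeff, hj.1]
    push_cast
    ring
  · intro k hk
    rw [HahnSeries.coeff_neg, theta_coeff, hj.2 k hk, mul_zero, neg_zero]

theorem monicAt_deltaL (R : Type*) [CommRing R] : MonicAt (deltaL R) 1 :=
  Fermat.Agent.S28.Mod.UnitZ.monicAt_deltaL R

theorem monicAt_lhs (R : Type*) [CommRing R] : MonicAt (theta (jqModC R) ^ 6) (-6) := by
  have h := monicAt_pow (monicAt_neg_theta_jqModC R) 6
  have e : (-theta (jqModC R)) ^ 6 = theta (jqModC R) ^ 6 := by ring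
  rw [e] at h
  exact h

theorem monicAt_rhs (R : Type*) [CommRing R] :
    MonicAt (jqModC R ^ 4 * (jqModC R - 1728) ^ 3 * deltaL R) (-6) := by
  have h := ((monicAt_pow (Fermat.Agent.S28.Mod.UnitZ.monicAt_jqModC R) 4).mul
    (monicAt_pow (monicAt_jqModC_sub R) 3)).mul (monicAt_deltaL R)
  exact h

/-! ### (I3) -/

/-- **(I3) over `ℂ`**, from the realisation of `θ j` by `D j`. -/
theorem stI3_complex_of (hB : IsReal (theta (coeffEmb ℂ jq)) (D R4.jInv)) : StI3 ℂ := by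
  rw [coeffEmb_jq] at hB
  obtain ⟨c, hc⟩ := exists_D_jInv_pow_six
  have h1 : IsReal (theta (jqModC ℂ) ^ 6) (D R4.jInv ^ 6) := isReal_pow hB 6
  have h2 := isReal_rhs c
  have hfun : D R4.jInv ^ 6 =
      c • (R4.jInv ^ 4 * (R4.jInv - fun _ : ℍ => (1728 : ℂ)) ^ 3 * (Δ : ℍ → ℂ)) := by
    funext z
    simp only [Pi.pow_apply, Pi.smul_apply, Pi.mul_apply, Pi.sub_apply, smul_eq_mul]
    exact hc z
  rw [hfun] at h1
  have hser := h1.unique_series h2
  -- the coefficient of `q^(-6)`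
  have hcoef : (theta (jqModC ℂ) ^ 6).coeff (-6) =
      (HahnSeries.C c * (jqModC ℂ ^ 4 * (jqModC ℂ - 1728) ^ 3 * deltaL ℂ)).coeff (-6) := by
    rw [hser]
  rw [(monicAt_lhs ℂ).1, HahnSeries.C_mul_eq_smul, HahnSeries.coeff_smul, (monicAt_rhs ℂ).1,
    smul_eq_mul, mul_one] at hcoef
  rw [← hcoef, map_one, one_mul] at hser
  exact hser

/-- **(I3) over `ℤ`**, from the realisation of `θ j` by `D j`. -/
theorem stI3_int_of (hB : IsReal (theta (coeffEmb ℂ jq)) (D R4.jInv)) : StI3 ℤ :=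
  StI3.of_injective (Int.castRingHom ℂ) Int.cast_injective (stI3_complex_of hB)

end Fermat.Agent.S28.Mod.H21I3
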