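import Mathlib
import Fermat.Agent.S28.Mod.H17_QExpDeriv
import Fermat.Agent.S28.Mod.H21_I3

/-!
# S28 / MOD (helper21): (I3) unconditionally

`stI3_int : StI3 ℤ`, i.e. `(θ j)^6 = j^4 (j - 1728)^3 Δ` in `ℤ((q))`, obtained from
`stI3_int_of` and helper17's `isReal_D` (the `q`-expansion of the derivative).
-/

set_option autoImplicit false

namespace Fermat.Agent.S28.Mod.H21I3

open Fermat.Agent.S24.Real Fermat.Agent.S28.Deg.H21

/-- **(I3) over `ℂ`.** -/
theorem stI3_complex : StI3 ℂ :=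
  stI3_complex_of (Fermat.Agent.S28.Mod.QD.isReal_D isReal_jInv)

/-- **(I3) over `ℤ`.** -/
theorem stI3_int : StI3 ℤ :=
  stI3_int_of (Fermat.Agent.S28.Mod.QD.isReal_D isReal_jInv)

/-- **(I3) over every commutative ring.** -/
theorem stI3_ring (R : Type*) [CommRing R] : StI3 R := StI3.of_int stI3_int

end Fermat.Agent.S28.Mod.H21I3
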