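import Mathlib
import Fermat.Prelude.Def_ModularCurve_X0ModL
import Fermat.Prelude.Def_ModularCurve_ModularUnit

/-!
# S28, package MOD (helper12, coordinator): interface file

Exact shapes of the deliverables of the package MOD (formal modular identities at prime level `p`)
for the packages PRIME / DEG / ALG, and the transfer lemmas `coefficient ring R → S`.

Notation: `j = jqModC R`, `j_p = qExpand R p j`, `Δ = deltaModC R`, `v = Δ(q^p)/Δ(q) = vModC R p`,
`u = Δ(q)/Δ(q^p) = uModC R p`, `θ = q d/dq = thetaOp R`.  A polynomial `H : (R[X])[X]` is read as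
an element of `(R[Y])[X]`: the INNER variable is `Y` (specialised to `j` by `evJ R`, or to `j_p`
by `evJp R p`), the OUTER variable `X` is the one in which `H` is monic.

* `StMODCat R p` : `∃ Φ` monic of degree `p + 1`, `Φ(j_p ; j) = 0` and `Φ(j ; j_p) = 0`.
* `StMODAat R p a c` : `∃ H` monic of degree `p + 1`, `H(a j_p + c v ; j) = 0`.
* `StVINTat R p` : `∃ H` monic of degree `p + 1`, `H(v ; j) = 0`.
* `StI3at R` : `∃ G : R[X]` monic of degree `7`, `(θ j)^6 = G(j) Δ`.
-/

set_option autoImplicit false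

open Polynomial ModularCurve

namespace Fermat.Agent.S28.Mod

noncomputable section

variable (R : Type*) [CommRing R]

/-- `P ↦ P(j)`, `R[Y] → R((q))`. -/
def evJ : R[X] →+* LaurentSeries R := (aeval (jqModC R)).toRingHom

/-- `P ↦ P(j_p)`, `R[Y] → R((q))`. -/
def evJp (p : ℕ) [NeZero p] : R[X] →+* LaurentSeries R := (qExpand R p).comp (evJ R)

/-- `Δ = q ∏ (1 - q^n)^24` with coefficients in `R`. -/
def deltaModC : LaurentSeries R :=
  HahnSeries.single (1 : ℤ) 1 *
    HahnSeries.ofPowerSeries ℤ R (dedekindEtaUnit.map (Int.castRingHom R))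

/-- `Δ⁻¹` with coefficients in `R`. -/
def deltaInvModC : LaurentSeries R :=
  HahnSeries.single (-1 : ℤ) 1 *
    HahnSeries.ofPowerSeries ℤ R (dedekindEtaUnitInv.map (Int.castRingHom R))

/-- `v = Δ(q^p) / Δ(q) = q^(p-1) + …`. -/
def vModC (p : ℕ) [NeZero p] : LaurentSeries R := qExpand R p (deltaModC R) * deltaInvModC R

/-- `u = Δ(q) / Δ(q^p) = q^(1-p) + …`. -/
def uModC (p : ℕ) [NeZero p] : LaurentSeries R := deltaModC R * qExpand R p (deltaInvModC R)

/-- `θ = q d/dq`. -/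
def thetaOp (f : LaurentSeries R) : LaurentSeries R :=
  HahnSeries.single (1 : ℤ) (1 : R) * LaurentSeries.derivative R f

/-! ### The statements -/

/-- MOD-C over `R`: the modular equation, both relations. -/
def StMODCat (p : ℕ) [NeZero p] : Prop :=
  ∃ Φ : (R[X])[X], Φ.Monic ∧ Φ.natDegree = p + 1 ∧
    (Φ.map (evJ R)).eval (qExpand R p (jqModC R)) = 0 ∧
    (Φ.map (evJp R p)).eval (jqModC R) = 0

/-- MOD-A over `R` at `(a, c)`. -/
def StMODAat (p : ℕ) [NeZero p] (a c : ℤ) : Prop :=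
  ∃ H : (R[X])[X], H.Monic ∧ H.natDegree = p + 1 ∧
    (H.map (evJ R)).eval
      ((a : LaurentSeries R) * qExpand R p (jqModC R) + (c : LaurentSeries R) * vModC R p) = 0

/-- `v` is integral over `R[j]`, of degree `≤ p + 1`. -/
def StVINTat (p : ℕ) [NeZero p] : Prop :=
  ∃ H : (R[X])[X], H.Monic ∧ H.natDegree = p + 1 ∧ (H.map (evJ R)).eval (vModC R p) = 0

/-- (I3) over `R`: `(θ j)^6 = G(j) Δ` with `G` monic of degree `7`. -/
def StI3at : Prop :=
  ∃ G : R[X], G.Monic ∧ G.natDegree = 7 ∧ thetaOp R (jqModC R) ^ 6 = evJ R G * deltaModC R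

/-- MOD-C (over `ℤ`). -/
def StMODC (p : ℕ) [NeZero p] : Prop := StMODCat ℤ p

/-- MOD-A: over every ring in which `p` is invertible. -/
def StMODA (p : ℕ) [NeZero p] (a c : ℤ) : Prop :=
  ∀ (S : Type) [CommRing S] [Nontrivial S], IsUnit ((p : ℕ) : S) → StMODAat S p a c

/-- `v` integral over `S[j]`, for every ring in which `p` is invertible. -/
def StVINT (p : ℕ) [NeZero p] : Prop :=
  ∀ (S : Type) [CommRing S] [Nontrivial S], IsUnit ((p : ℕ) : S) → StVINTat S p

/-- (I3) (over `ℤ`). -/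
def StI3 : Prop := StI3at ℤ

/-- `v ∈ ℚ(j, j_p)` (A5). -/
def StVinF (p : ℕ) [NeZero p] : Prop := vModC ℚ p ∈ modularFunctionFieldFull p

/-- the lower bound `p + 1 ≤ [ℚ(j, j_p) : ℚ(j)]` in minimal-polynomial form. -/
def StDEGLOW (p : ℕ) [NeZero p] : Prop :=
  ∀ P : (IntermediateField.adjoin ℚ {jqModC ℚ})[X], P ≠ 0 →
    Polynomial.aeval (qExpand ℚ p (jqModC ℚ)) P = 0 → p + 1 ≤ P.natDegree

end

end Fermat.Agent.S28.Mod
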