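import Mathlib
import Fermat.Agent.S24.H6_Rho
import Fermat.Agent.S28.Deg.H21_Theta

/-!
# S28 / MOD (helper14): the `q`-expansion of the derivative

For `A : ℍ → ℂ` with a good `q`-expansion at `i∞` (`NiceAtInf`), the normalised derivative
`D A = (2 π i)⁻¹ dA/dz` is again `NiceAtInf` and its `q`-expansion is `θ = q d/dq` of the
`q`-expansion of `A`.  Consequently `IsReal h f → IsReal (θ h) (D f)`.
-/

set_option autoImplicit false

open UpperHalfPlane ModularForm Filter Topology Function
open scoped MatrixGroups ModularForm Manifold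

namespace Fermat.Agent.S28.Mod.H14D

open Fermat.Agent.S23 Fermat.Agent.S23.R5 Fermat.Agent.S24.Real
open Derivative
open Fermat.Agent.S28.Deg.H21 (theta)

/-- The function `q ↦ q F'(q)` attached to the cusp function `F` of `A`. -/
noncomputable def qDeriv (A : ℍ → ℂ) : ℂ → ℂ := fun q => q * deriv (cuspFunction 1 A) q

variable {A : ℍ → ℂ}

lemma hasDerivAt_qParam_one (w : ℂ) :
    HasDerivAt (Function.Periodic.qParam 1)
      (Function.Periodic.qParam 1 w * (2 * Real.pi * Complex.I)) w := by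
  have h1 : HasDerivAt (fun z : ℂ => 2 * Real.pi * Complex.I * z / ((1 : ℝ) : ℂ))
      (2 * Real.pi * Complex.I) w := by
    have := ((hasDerivAt_id w).const_mul (2 * Real.pi * Complex.I)).div_const ((1 : ℝ) : ℂ)
    simpa using this
  exact h1.cexp

lemma qParam_one_add_one (w : ℂ) :
    Function.Periodic.qParam 1 (w + 1) = Function.Periodic.qParam 1 w := by
  show Complex.exp (2 * Real.pi * Complex.I * (w + 1) / ((1 : ℝ) : ℂ)) =
    Complex.exp (2 * Real.pi * Complex.I * w / ((1 : ℝ) : ℂ))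
  have e : 2 * Real.pi * Complex.I * (w + 1) / ((1 : ℝ) : ℂ) =
      2 * Real.pi * Complex.I * w / ((1 : ℝ) : ℂ) + 2 * Real.pi * Complex.I := by
    simp
    ring
  rw [e]
  exact Complex.exp_periodic _

/-- Chain rule: `D A (τ) = q F'(q)` at `q = 𝕢 τ`. -/
theorem D_eq_qDeriv (hA : NiceAtInf A) (τ : ℍ) :
    D A τ = qDeriv A (Function.Periodic.qParam 1 (τ : ℂ)) := by
  have hq : ‖Function.Periodic.qParam 1 (τ : ℂ)‖ < 1 :=
    Function.Periodic.norm_qParam_lt_one one_pos τ.im_pos
  have hF : DifferentiableAt ℂ (cuspFunction 1 A) (Function.Periodic.qParam 1 (τ : ℂ)) :=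
    differentiableAt_cuspFunction one_pos hA.periodic hA.holo hA.bdd hq
  have heq : (A ∘ ofComplex) =ᶠ[𝓝 (τ : ℂ)] (cuspFunction 1 A ∘ Function.Periodic.qParam 1) := by
    have hopen : {w : ℂ | 0 < w.im} ∈ 𝓝 (τ : ℂ) :=
      (isOpen_lt continuous_const Complex.continuous_im).mem_nhds τ.im_pos
    filter_upwards [hopen] with w hw
    have := eq_cuspFunction (f := A) ⟨w, hw⟩ one_ne_zero hA.periodic
    simp only [Function.comp_apply]
    rw [ofComplex_apply_of_im_pos hw]
    exact this.symm
  have hd : HasDerivAt (cuspFunction 1 A ∘ Function.Periodic.qParam 1)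
      (deriv (cuspFunction 1 A) (Function.Periodic.qParam 1 (τ : ℂ)) *
        (Function.Periodic.qParam 1 (τ : ℂ) * (2 * Real.pi * Complex.I))) (τ : ℂ) :=
    hF.hasDerivAt.comp (τ : ℂ) (hasDerivAt_qParam_one (τ : ℂ))
  have hderiv : deriv (A ∘ ofComplex) (τ : ℂ) =
      deriv (cuspFunction 1 A) (Function.Periodic.qParam 1 (τ : ℂ)) *
        (Function.Periodic.qParam 1 (τ : ℂ) * (2 * Real.pi * Complex.I)) := by
    rw [heq.deriv_eq]
    exact hd.deriv
  show (2 * Real.pi * Complex.I)⁻¹ * deriv (A ∘ ofComplex) (τ : ℂ) = _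
  rw [hderiv, qDeriv]
  have h2pi : (2 * Real.pi * Complex.I : ℂ) ≠ 0 := by
    simp [Real.pi_ne_zero]
  field_simp

lemma analyticAt_qDeriv (hA : NiceAtInf A) : AnalyticAt ℂ (qDeriv A) 0 :=
  analyticAt_id.mul hA.analyticAt.deriv

lemma qDeriv_zero : qDeriv A 0 = 0 := by simp [qDeriv]

/-- The cusp function of `D A` is `q ↦ q F'(q)` on the unit disc. -/
theorem cuspFunction_D (hA : NiceAtInf A) {q : ℂ} (hq : ‖q‖ < 1) :
    cuspFunction 1 (D A) q = qDeriv A q := by
  have key : ∀ q : ℂ, ‖q‖ < 1 → q ≠ 0 → cuspFunction 1 (D A) q = qDeriv A q := by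
    intro q hq hq1
    have h1 := Function.Periodic.im_invQParam_pos_of_norm_lt_one one_pos hq hq1
    let τ : ℍ := ⟨Function.Periodic.invQParam 1 q, h1⟩
    have h2 := Function.Periodic.cuspFunction_eq_of_nonzero 1 (D A ∘ ofComplex) hq1
    have h3 : cuspFunction 1 (D A) q = D A τ := by
      show Function.Periodic.cuspFunction 1 (D A ∘ ofComplex) q = _
      rw [h2]
      simp only [Function.comp_apply]
      rw [ofComplex_apply_of_im_pos h1]
    rw [h3, D_eq_qDeriv hA τ]
    congr 1
    exact Function.Periodic.qParam_right_inv one_ne_zero hq1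
  rcases eq_or_ne q 0 with rfl | hq1
  · rw [qDeriv_zero]
    show Function.Periodic.cuspFunction 1 (D A ∘ ofComplex) 0 = 0
    rw [Function.Periodic.cuspFunction_zero_eq_limUnder_nhds_ne]
    apply Tendsto.limUnder_eq
    have hcont : Tendsto (qDeriv A) (𝓝[≠] 0) (𝓝 0) := by
      have := (analyticAt_qDeriv hA).continuousAt.tendsto
      rw [qDeriv_zero] at this
      exact this.mono_left nhdsWithin_le_nhds
    refine hcont.congr' ?_
    have hball : Metric.ball (0 : ℂ) 1 ∈ 𝓝[≠] (0 : ℂ) :=
      mem_nhdsWithin_of_mem_nhds (Metric.ball_mem_nhds 0 one_pos)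
    filter_upwards [hball, self_mem_nhdsWithin] with q hq hq1
    have hq' : ‖q‖ < 1 := by simpa using hq
    have := key q hq' hq1
    rw [← this]
    rfl
  · exact key q hq hq1

lemma cuspFunction_D_eventuallyEq (hA : NiceAtInf A) :
    cuspFunction 1 (D A) =ᶠ[𝓝 0] qDeriv A := by
  filter_upwards [Metric.ball_mem_nhds (0 : ℂ) one_pos] with q hq
  exact cuspFunction_D hA (by simpa using hq)

/-- `D A` is periodic, holomorphic and bounded at `i∞`. -/
theorem niceAtInf_D (hA : NiceAtInf A) : NiceAtInf (D A) := by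
  refine ⟨?_, normalizedDerivOfComplex_mdifferentiable hA.holo, ?_⟩
  · intro w
    simp only [Function.comp_apply]
    by_cases hw : 0 < w.im
    · have hw1 : 0 < (w + 1).im := by simpa using hw
      rw [ofComplex_apply_of_im_pos hw, ofComplex_apply_of_im_pos hw1,
        D_eq_qDeriv hA, D_eq_qDeriv hA]
      congr 1
      exact qParam_one_add_one w
    · have hw1 : ¬ 0 < (w + 1).im := by simpa using hw
      rw [ofComplex_apply_of_im_nonpos (not_lt.mp hw),
        ofComplex_apply_of_im_nonpos (not_lt.mp hw1)]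
  · have h1 : Tendsto (fun τ : ℍ => qDeriv A (Function.Periodic.qParam 1 (τ : ℂ))) atImInfty
        (𝓝 (qDeriv A 0)) :=
      (analyticAt_qDeriv hA).continuousAt.tendsto.comp (qParam_tendsto_atImInfty one_pos)
    have h2 : (fun τ : ℍ => qDeriv A (Function.Periodic.qParam 1 (τ : ℂ))) = D A := by
      funext τ
      exact (D_eq_qDeriv hA τ).symm
    rw [h2] at h1
    exact h1.isBigO_one ℝ

/-- The Taylor coefficients of the derivative. -/
lemma coeff_taylor0_deriv (F : ℂ → ℂ) (m : ℕ) :
    (taylor0 (deriv F)).coeff m = ((m : ℂ) + 1) * (taylor0 F).coeff (m + 1) := by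
  rw [coeff_taylor0, coeff_taylor0, iteratedDeriv_succ', Nat.factorial_succ]
  have h1 : ((m.factorial : ℕ) : ℂ) ≠ 0 := by exact_mod_cast Nat.factorial_ne_zero m
  have h2 : ((m : ℂ) + 1) ≠ 0 := by exact_mod_cast Nat.succ_ne_zero m
  push_cast
  field_simp

/-- **The `q`-expansion of `D A`**: the `m`-th coefficient is `m` times that of `A`. -/
theorem qExpansion_D_coeff (hA : NiceAtInf A) (m : ℕ) :
    (qExpansion 1 (D A)).coeff m = (m : ℂ) * (qExpansion 1 A).coeff m := by
  rw [qExpansion_eq_taylor0, taylor0_congr (cuspFunction_D_eventuallyEq hA),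
    qExpansion_eq_taylor0]
  have e : qDeriv A = (fun q : ℂ => q) * deriv (cuspFunction 1 A) := rfl
  have hid : AnalyticAt ℂ (fun q : ℂ => q) 0 := analyticAt_id
  rw [e, taylor0_mul (f := fun q : ℂ => q) hid hA.analyticAt.deriv, taylor0_id]
  cases m with
  | zero => simp
  | succ k =>
    rw [PowerSeries.coeff_succ_X_mul, coeff_taylor0_deriv]
    push_cast
    ring

/-- **The `q`-expansion of `D A`** is `θ` of the `q`-expansion of `A`. -/
theorem toL_qExpansion_D (hA : NiceAtInf A) :
    toL (qExpansion 1 (D A)) = theta (toL (qExpansion 1 A)) := by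
  ext k
  rw [Fermat.Agent.S28.Deg.H21.theta_coeff]
  rcases lt_or_ge k 0 with hk | hk
  · rw [coeff_toL_neg _ hk, coeff_toL_neg _ hk, mul_zero]
  · lift k to ℕ using hk
    rw [coeff_toL_nat, coeff_toL_nat, qExpansion_D_coeff hA]
    push_cast
    rfl

/-- **Realisation of the derivative**: if `h` is realised by `f` then `θ h` is realised by
`D f`. -/
theorem isReal_D {h : LaurentSeries ℂ} {f : ℍ → ℂ} (hf : IsReal h f) :
    IsReal (theta h) (D f) := by
  have hfhol := hf.holo
  obtain ⟨A, B, hA, hB, hB0, hfAB, hq⟩ := hf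
  have hDA := niceAtInf_D hA
  have hDB := niceAtInf_D hB
  have hfun : f * B = A := by
    funext z
    exact hfAB z
  have hD : D f * B + f * D B = D A := by
    rw [← normalizedDerivOfComplex_mul f B hfhol hB.holo, hfun]
  refine ⟨D A * B - A * D B, B * B, (hDA.mul hB).sub (hA.mul hDB), hB.mul hB,
    fun z => mul_ne_zero (hB0 z) (hB0 z), fun z => ?_, ?_⟩
  · have h1 := congrFun hD z
    have h2 := hfAB z
    simp only [Pi.add_apply, Pi.mul_apply, Pi.sub_apply] at h1 ⊢
    rw [← h1, ← h2]
    ring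
  · rw [qExpansion_sub (hDA.mul hB).analyticAt (hA.mul hDB).analyticAt,
      qExpansion_mul hDA.analyticAt hB.analyticAt, qExpansion_mul hA.analyticAt hDB.analyticAt,
      qExpansion_mul hB.analyticAt hB.analyticAt]
    simp only [map_sub, map_mul]
    rw [toL_qExpansion_D hA, toL_qExpansion_D hB, hq, Fermat.Agent.S28.Deg.H21.theta_mul]
    ring

end Fermat.Agent.S28.Mod.H14D
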