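import Fermat.Agent.S28.Mod.H14_UnitReal

/-!
# S28 / MOD (helper14): the modular unit, part 2

* `isModReal_uFun` : `u = Δ(z) / Δ(p z)` is `Γ₀(p)`-invariant of moderate growth and realises
  the formal series `uSer p`;
* the packaged statements for `g = a j_p + c v` and its translate `a j + c p⁻¹² u` by
  `z ↦ -1 / (p z)`.
-/

set_option autoImplicit false

open UpperHalfPlane ModularForm EisensteinSeries ModularFormClass Filter Topology
open CongruenceSubgroup
open scoped MatrixGroups ModularForm Manifold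

namespace Fermat.Agent.S28.Mod.Unit

open Fermat.Agent.S23 Fermat.Agent.S23.R5 Fermat.Agent.S23.R4 Fermat.Agent.S24.Real

/-- Explicit form of the translates of `u`: `u (γ z) = D¹² Δ(z) / Δ((A z + B) / D)`. -/
theorem exists_uFun_smul_eq (p : ℕ) [NeZero p] (γ : SL(2, ℤ)) :
    ∃ (A D : ℕ) (hA : 0 < A) (hD : 0 < D) (B : ℤ), A * D = p ∧
      (A = p → (p : ℤ) ∣ γ 1 0) ∧
      ∀ z : ℍ, uFun p (γ • z) =
        (D : ℂ) ^ 12 * ModularForm.discriminant z /
          ModularForm.discriminant (affH A D hA hD B z) := by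
  obtain ⟨A, D, hA, hD, B, hAD, hAN, hz⟩ := exists_vFun_smul_eq p γ
  refine ⟨A, D, hA, hD, B, hAD, hAN, fun z => ?_⟩
  rw [uFun_eq_inv, hz z, inv_div]
  have hD0 : (D : ℂ) ≠ 0 := by exact_mod_cast hD.ne'
  have h1 := discriminant_ne_zero z
  have h2 := discriminant_ne_zero (affH A D hA hD B z)
  field_simp

theorem modGrowth_uFun (p : ℕ) [NeZero p] : ModGrowth (uFun p) := by
  intro γ
  obtain ⟨A, D, hA, hD, B, hAD, -, hz⟩ := exists_uFun_smul_eq p γ
  obtain ⟨A₀, hA₀, hbd⟩ := norm_discriminant_bounds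
  refine ⟨p, ?_⟩
  rw [UpperHalfPlane.isBoundedAtImInfty_iff]
  have hD' : (1 : ℝ) ≤ D := by exact_mod_cast hD
  have hA' : (1 : ℝ) ≤ A := by exact_mod_cast hA
  have hDpos : (0 : ℝ) < D := by linarith
  have hADr : (A : ℝ) * D = p := by exact_mod_cast hAD
  have hAp : (A : ℝ) ≤ p := by nlinarith
  refine ⟨(D : ℝ) ^ 12 * (2 * 2 * 2 ^ p), A₀ * D, fun z hzim => ?_⟩
  have hzpos := z.im_pos
  have hA0D : A₀ ≤ z.im := by
    calc A₀ ≤ A₀ * D := by nlinarith
      _ ≤ z.im := hzim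
  have him : (affH A D hA hD B z).im = A * z.im / D := im_affH A D hA hD B z
  have hge : A₀ ≤ (affH A D hA hD B z).im := by
    rw [him, le_div_iff₀ hDpos]
    calc A₀ * D ≤ z.im := hzim
      _ ≤ A * z.im := by nlinarith
  have h1 := (hbd _ hge).1
  rw [him] at h1
  have h2 := (hbd z hA0D).2
  rw [hz z, norm_mul, norm_div, norm_mul, norm_pow, norm_pow]
  have hDn : ‖(D : ℂ)‖ = D := by simp
  rw [hDn]
  set E : ℝ := Real.exp (-(2 * Real.pi * z.im)) with hE
  set F : ℝ := Real.exp (-(2 * Real.pi * (A * z.im / D))) with hF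
  have hEpos : 0 < E := Real.exp_pos _
  have hFpos : 0 < F := Real.exp_pos _
  have hnΔ : 0 < ‖ModularForm.discriminant (affH A D hA hD B z)‖ :=
    norm_pos_iff.mpr (discriminant_ne_zero _)
  have hpi := Real.pi_pos
  -- `E ^ p ≤ F`
  have h3a : A * z.im / D ≤ p * z.im := by
    have h5 : (A : ℝ) * z.im ≤ p * z.im := mul_le_mul_of_nonneg_right hAp hzpos.le
    have h6 : (A : ℝ) * z.im / D ≤ A * z.im :=
      div_le_self (mul_nonneg (by linarith) hzpos.le) hD'
    exact h6.trans h5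
  have hEF : E ^ p ≤ F := by
    rw [hE, hF, ← Real.exp_nat_mul]
    apply Real.exp_le_exp.mpr
    have h7 : 2 * Real.pi * (A * z.im / D) ≤ 2 * Real.pi * (p * z.im) :=
      mul_le_mul_of_nonneg_left h3a (by positivity)
    linarith
  have hE1 : E ≤ 1 := by
    rw [hE, Real.exp_le_one_iff]
    have : 0 ≤ 2 * Real.pi * z.im := by positivity
    linarith
  have h3 : ‖ModularForm.discriminant z‖ ^ p ≤ 2 ^ p * E ^ p := by
    rw [← mul_pow]
    exact pow_le_pow_left₀ (norm_nonneg _) h2 p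
  have h4 : ‖ModularForm.discriminant z‖ ≤ 2 := by linarith
  have hD12 : (0 : ℝ) ≤ (D : ℝ) ^ 12 := by positivity
  have h8 : ‖ModularForm.discriminant z‖ ^ p ≤ 2 ^ p * F :=
    h3.trans (mul_le_mul_of_nonneg_left hEF (by positivity))
  have h9 : ‖ModularForm.discriminant z‖ * ‖ModularForm.discriminant z‖ ^ p ≤
      2 * (2 ^ p * F) :=
    mul_le_mul h4 h8 (pow_nonneg (norm_nonneg _) p) (by norm_num)
  rw [div_mul_eq_mul_div, div_le_iff₀ hnΔ]
  calc (D : ℝ) ^ 12 * ‖ModularForm.discriminant z‖ * ‖ModularForm.discriminant z‖ ^ p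
      = (D : ℝ) ^ 12 * (‖ModularForm.discriminant z‖ * ‖ModularForm.discriminant z‖ ^ p) := by
        ring
    _ ≤ (D : ℝ) ^ 12 * (2 * (2 ^ p * F)) := mul_le_mul_of_nonneg_left h9 hD12
    _ = (D : ℝ) ^ 12 * (2 * 2 * 2 ^ p) * (F / 2) := by ring
    _ ≤ (D : ℝ) ^ 12 * (2 * 2 * 2 ^ p) * ‖ModularForm.discriminant (affH A D hA hD B z)‖ :=
        mul_le_mul_of_nonneg_left h1 (by positivity)

/-- **The modular unit `u = Δ(z) / Δ(p z)`**. -/
theorem isModReal_uFun (p : ℕ) [NeZero p] : IsModReal p (uSer p) (uFun p) :=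
  ⟨isReal_uFun p, gamma0Inv_uFun p, modGrowth_uFun p⟩

/-! ### The functions `g = a j_p + c v` and `g° = a j + c p⁻¹² u` -/

/-- `g = a j_p + c v`. -/
noncomputable def gFun (p : ℕ) [NeZero p] (a c : ℂ) : ℍ → ℂ :=
  fun z => a * jN p z + c * vFun p z

/-- The formal series of `g`. -/
noncomputable def gSer (p : ℕ) [NeZero p] (a c : ℂ) : LaurentSeries ℂ :=
  HahnSeries.C a * ModularCurve.coeffEmb ℂ (ModularCurve.qExpand ℚ p ModularCurve.jq) +
    HahnSeries.C c * vSer p

/-- The translate `g° (z) = g (-1 / (p z)) = a j + c p⁻¹² u`. -/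
noncomputable def gFunS (p : ℕ) [NeZero p] (a c : ℂ) : ℍ → ℂ :=
  fun z => a * jInv z + c * ((p : ℂ)⁻¹) ^ 12 * uFun p z

/-- The formal series of `g°`. -/
noncomputable def gSerS (p : ℕ) [NeZero p] (a c : ℂ) : LaurentSeries ℂ :=
  HahnSeries.C a * ModularCurve.coeffEmb ℂ ModularCurve.jq +
    HahnSeries.C (c * ((p : ℂ)⁻¹) ^ 12) * uSer p

lemma isModReal_smul {N : ℕ} {h : LaurentSeries ℂ} {f : ℍ → ℂ} (c : ℂ)
    (hf : IsModReal N h f) : IsModReal N (HahnSeries.C c * h) (fun z => c * f z) := by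
  have := (IsModReal.const (N := N) c).mul hf
  have e1 : algebraMap ℂ (LaurentSeries ℂ) c = HahnSeries.C c := by
    rw [ModularCurve.algebraMap_laurentSeries_eq_single]; rfl
  have e2 : (fun _ : ℍ => c) * f = fun z => c * f z := by funext z; simp
  rwa [e1, e2] at this

theorem isModReal_gFun (p : ℕ) [NeZero p] (a c : ℂ) :
    IsModReal p (gSer p a c) (gFun p a c) :=
  (isModReal_smul a (isModReal_jN p p dvd_rfl)).add (isModReal_smul c (isModReal_vFun p))

theorem isModReal_jInv (N : ℕ) : IsModReal N (ModularCurve.coeffEmb ℂ ModularCurve.jq) jInv := by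
  have h := isModReal_jN N 1 (one_dvd N)
  have e1 : ModularCurve.qExpand ℚ 1 ModularCurve.jq = ModularCurve.jq :=
    ModularCurve.qExpand_one_apply _
  have e2 : jN 1 = jInv := by
    funext z
    show jInv (scaleH 1 z) = jInv z
    congr 1
    apply UpperHalfPlane.ext
    rw [coe_scaleH]
    simp
  rwa [e1, e2] at h

theorem isModReal_gFunS (p : ℕ) [NeZero p] (a c : ℂ) :
    IsModReal p (gSerS p a c) (gFunS p a c) := by
  have h := (isModReal_smul a (isModReal_jInv p)).add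
    (isModReal_smul (c * ((p : ℂ)⁻¹) ^ 12) (isModReal_uFun p))
  exact h

/-- `g (-1 / (p z)) = g° (z)`. -/
theorem gFun_S_scale (p : ℕ) [NeZero p] (a c : ℂ) (z : ℍ) :
    gFun p a c (ModularGroup.S • scaleN p z) = gFunS p a c z := by
  show a * jN p (ModularGroup.S • scaleN p z) + c * vFun p (ModularGroup.S • scaleN p z) =
    a * jInv z + c * ((p : ℂ)⁻¹) ^ 12 * uFun p z
  rw [jN_S_scale, vFun_S_scale]
  ring

/-- Transport of a polynomial relation `∑ Pᵢ(j) gⁱ = 0` along `z ↦ -1 / (p z)`: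
it becomes `∑ Pᵢ(j_p) (g°)ⁱ = 0`. -/
theorem relation_S_scale (p : ℕ) [NeZero p] (a c : ℂ) (H : Polynomial (Polynomial ℂ))
    (hH : ∀ z : ℍ, (H.map (Polynomial.evalRingHom (jInv z))).eval (gFun p a c z) = 0) (z : ℍ) :
    (H.map (Polynomial.evalRingHom (jN p z))).eval (gFunS p a c z) = 0 := by
  have := hH (ModularGroup.S • scaleN p z)
  rwa [jInv_S_scale, gFun_S_scale] at this

end Fermat.Agent.S28.Mod.Unit
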