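import Mathlib

/-!
# S28 / MOD (A5): a primitive element argument

If `x + c • y` is a root of a monic polynomial of degree `≤ n` over `K` for every natural number
`c`, and `x` has degree `≥ n` over `K`, then `y ∈ K(x)` (characteristic `0`).

Used with `K = ℚ(j)`, `x = j_p`, `y = v = Δ(q^p)/Δ(q)`, `n = p + 1`: the modular unit `v` lies in
the function field `ℚ(j, j_p)` of `X₀(p)`.
-/

set_option autoImplicit false

namespace Fermat.Agent.S28.Mod.H17

open Polynomial IntermediateField

variable {K E : Type*} [Field K] [Field E] [Algebra K E]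

/-- The degree of the minimal polynomial is at most the degree of any monic polynomial killing
the element. -/
theorem h17_natDegree_minpoly_le {z : E} {P : K[X]} (hP : P.Monic) (hz : aeval z P = 0) :
    (minpoly K z).natDegree ≤ P.natDegree :=
  natDegree_le_natDegree (minpoly.min K z hP hz)

/-- **Primitive element argument (A5).** -/
theorem mem_adjoin_of_monic_relations [CharZero K] (x y : E) (n : ℕ)
    (hx : n ≤ (minpoly K x).natDegree)
    (h : ∀ c : ℕ, ∃ P : K[X], P.Monic ∧ P.natDegree ≤ n ∧ aeval (x + (c : E) * y) P = 0) :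
    y ∈ K⟮x⟯ := by
  classical
  have : CharZero E := charZero_of_injective_algebraMap (algebraMap K E).injective
  -- integrality
  have hθ : ∀ c : ℕ, IsIntegral K (x + (c : E) * y) := fun c => by
    obtain ⟨P, hP, -, hroot⟩ := h c
    exact ⟨P, hP, by rwa [← aeval_def]⟩
  have hxi : IsIntegral K x := by simpa using hθ 0
  have hyi : IsIntegral K y := by
    have h1 := (hθ 1).sub hxi
    simpa using h1
  -- the field `L = K(x, y)`
  set L : IntermediateField K E := K⟮x, y⟯ with hL
  have hxL : x ∈ L := subset_adjoin K _ (Set.mem_insert _ _)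
  have hyL : y ∈ L := subset_adjoin K _ (Set.mem_insert_of_mem _ rfl)
  have : FiniteDimensional K L := finiteDimensional_adjoin_pair hxi hyi
  have : Finite (IntermediateField K L) :=
    Field.finite_intermediateField_of_exists_primitive_element K L
      (Field.exists_primitive_element K L)
  have hθL : ∀ c : ℕ, x + (c : E) * y ∈ L := fun c =>
    L.add_mem hxL (L.mul_mem (_root_.natCast_mem L c) hyL)
  -- pigeonhole
  obtain ⟨c, c', hne, heq⟩ := Finite.exists_ne_map_eq_of_infinite
    (fun c : ℕ => K⟮(⟨x + (c : E) * y, hθL c⟩ : L)⟯)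
  have heq' : K⟮x + (c : E) * y⟯ = K⟮x + (c' : E) * y⟯ := by
    have := congrArg IntermediateField.lift heq
    simpa only [lift_adjoin_simple] using this
  set M : IntermediateField K E := K⟮x + (c : E) * y⟯ with hM
  have h1 : x + (c : E) * y ∈ M := mem_adjoin_simple_self K _
  have h2 : x + (c' : E) * y ∈ M := by rw [heq']; exact mem_adjoin_simple_self K _
  have hcc : ((c : E) - (c' : E)) ≠ 0 := by
    rw [sub_ne_zero]
    exact_mod_cast hne
  have hyM : y ∈ M := by
    have h3 : ((c : E) - (c' : E)) * y ∈ M := by
      have := M.sub_mem h1 h2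
      have e : x + (c : E) * y - (x + (c' : E) * y) = ((c : E) - (c' : E)) * y := by ring
      rwa [e] at this
    have h4 : ((c : E) - (c' : E))⁻¹ ∈ M :=
      M.inv_mem (M.sub_mem (_root_.natCast_mem M c) (_root_.natCast_mem M c'))
    have := M.mul_mem h4 h3
    rwa [← mul_assoc, inv_mul_cancel₀ hcc, one_mul] at this
  have hxM : x ∈ M := by
    have := M.sub_mem h1 (M.mul_mem (_root_.natCast_mem M c) hyM)
    simpa using this
  have hLM : L ≤ M := by
    rw [hL, adjoin_le_iff]
    rintro z (rfl | rfl)
    · exact hxM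
    · exact hyM
  -- degrees
  obtain ⟨P, hP, hPn, hroot⟩ := h c
  have hMdeg : Module.finrank K M ≤ n := by
    rw [hM, adjoin.finrank (hθ c)]
    exact (h17_natDegree_minpoly_le hP hroot).trans hPn
  have : FiniteDimensional K M := adjoin.finiteDimensional (hθ c)
  have hxLle : K⟮x⟯ ≤ L := by
    rw [adjoin_simple_le_iff]; exact hxL
  have hxdeg : Module.finrank K K⟮x⟯ = (minpoly K x).natDegree := adjoin.finrank hxi
  have hle1 : Module.finrank K L ≤ Module.finrank K M := finrank_le_of_le_right hLM
  have hfin : Module.finrank K L ≤ Module.finrank K K⟮x⟯ := by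
    rw [hxdeg]; exact (hle1.trans hMdeg).trans hx
  have hEq : K⟮x⟯ = L := eq_of_le_of_finrank_le hxLle hfin
  rw [hEq]
  exact hyL

end Fermat.Agent.S28.Mod.H17
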