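import Mathlib
import Fermat.Prelude.Def_ModularCurve_X0
import Fermat.Prelude.Def_ModularCurve_LaurentCoeff
import Fermat.Prelude.Thm_ModularCurve_coeffMap_qExpand

/-!
# S28, package MOD, leaf MOD-FORM (helper22): the formal `p`-th root of `q`

Write `φ = qExpand R p : R((q)) → R((t))`, `f(q) ↦ f(t ^ p)`.  Along `φ` the ring `R((t))` is free
of rank `p` over `R((q))` with basis `1, t, …, t ^ (p - 1)`.

* `comp p i f` : the `i`-th component of `f`, `decomposition`, `comp_unique`;
* `mulMat p s` : the matrix of multiplication by `s`, `chi p s` its characteristic polynomial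
  (monic of degree `p`, coefficients in `R((q))`);
* `cayley_hamilton` : `((chi p s).map φ).eval s = 0`;
* `chi_map` : compatibility with a change of the coefficient ring;
* over a field, for `s` of order prime to `p`: `dvd_of_eval_eq_zero` (minimality of `chi p s`)
  and `eq_mul_chi` (a monic polynomial of degree `p + 1` killing `s` and some `a ∈ k((q))` is
  `(X - Polynomial.C a) * chi p s`).
-/

set_option autoImplicit false

open HahnSeries Polynomial ModularCurve

namespace Fermat.Agent.S28.Mod.Form

noncomputable section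

variable {R : Type*} [CommRing R] (p : ℕ) [NeZero p]

/-- The formal variable. -/
def tt (R : Type*) [CommRing R] (i : ℕ) : LaurentSeries R := HahnSeries.single (i : ℤ) 1

theorem tt_zero : tt R 0 = 1 := rfl

theorem tt_add (i j : ℕ) : tt R (i + j) = tt R i * tt R j := by
  unfold tt
  rw [HahnSeries.single_mul_single, one_mul]
  push_cast
  rfl

theorem coeff_tt_mul (i : ℕ) (f : LaurentSeries R) (n : ℤ) :
    (tt R i * f).coeff n = f.coeff (n - i) := by
  unfold tt
  rw [HahnSeries.coeff_single_mul, one_mul]

theorem pos_p : (0 : ℤ) < (p : ℤ) := by exact_mod_cast Nat.pos_of_ne_zero (NeZero.ne p)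

theorem comp_bddBelow (i : ℕ) (f : LaurentSeries R) :
    BddBelow (Function.support fun k : ℤ => f.coeff ((p : ℤ) * k + i)) := by
  by_cases hf : f = 0
  · subst hf
    refine ⟨0, fun k hk => ?_⟩
    simp at hk
  · refine ⟨min (f.order - i) 0, fun k hk => ?_⟩
    have hk' : f.coeff ((p : ℤ) * k + i) ≠ 0 := hk
    have h1 : f.order ≤ (p : ℤ) * k + i := HahnSeries.order_le_of_coeff_ne_zero hk'
    have hp := pos_p p
    rcases le_or_gt 0 k with h0 | h0
    · exact le_trans (min_le_right _ _) h0
    · refine le_trans (min_le_left _ _) ?_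
      have : (p : ℤ) * k ≤ k := by nlinarith
      linarith

/-- The `i`-th component of a Laurent series in `t` with respect to `q = t ^ p`. -/
def comp (i : ℕ) (f : LaurentSeries R) : LaurentSeries R :=
  HahnSeries.ofSuppBddBelow (fun k : ℤ => f.coeff ((p : ℤ) * k + i)) (comp_bddBelow p i f)

@[simp]
theorem comp_coeff (i : ℕ) (f : LaurentSeries R) (k : ℤ) :
    (comp p i f).coeff k = f.coeff ((p : ℤ) * k + i) := rfl

theorem comp_add (i : ℕ) (f g : LaurentSeries R) :
    comp p i (f + g) = comp p i f + comp p i g := by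
  ext k; simp

theorem comp_zero (i : ℕ) : comp p i (0 : LaurentSeries R) = 0 := by
  ext k; simp

/-- The coefficients of `t ^ i * φ g`. -/
theorem coeff_tt_mul_qExpand (i : ℕ) (hi : i < p) (g : LaurentSeries R) (k : ℤ) (j : ℕ)
    (hj : j < p) :
    (tt R i * qExpand R p g).coeff ((p : ℤ) * k + j) = if j = i then g.coeff k else 0 := by
  rw [coeff_tt_mul]
  split_ifs with h
  · subst h
    rw [add_sub_cancel_right, qExpand_coeff_mul]
  · refine qExpand_coeff_of_not_dvd p g ?_
    rintro ⟨c, hc⟩
    have h1 : ((j : ℤ) - i) = (p : ℤ) * (c - k) := by linarith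
    have h2 : (p : ℤ) ∣ (j : ℤ) - i := ⟨c - k, h1⟩
    have h3 : |(j : ℤ) - i| < p := by
      rw [abs_lt]
      constructor <;> omega
    have h4 := Int.eq_zero_of_abs_lt_dvd h2 h3
    omega

/-- **Decomposition.** Every Laurent series in `t` is `∑_{i < p} t ^ i * φ (fᵢ)`. -/
theorem decomposition (f : LaurentSeries R) :
    f = ∑ i ∈ Finset.range p, tt R i * qExpand R p (comp p i f) := by
  ext n
  have hp := pos_p p
  obtain ⟨k, j, hj, rfl⟩ : ∃ (k : ℤ) (j : ℕ), j < p ∧ n = (p : ℤ) * k + j := by
    refine ⟨n / p, (n % p).toNat, ?_, ?_⟩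
    · have h1 := Int.emod_lt_of_pos n hp
      have h2 := Int.emod_nonneg n hp.ne'
      omega
    · have h2 := Int.emod_nonneg n hp.ne'
      rw [Int.toNat_of_nonneg h2]
      exact (Int.mul_ediv_add_emod n p).symm
  have hsum : (∑ i ∈ Finset.range p, tt R i * qExpand R p (comp p i f)).coeff ((p : ℤ) * k + j)
      = ∑ i ∈ Finset.range p, (tt R i * qExpand R p (comp p i f)).coeff ((p : ℤ) * k + j) := by
    exact map_sum (HahnSeries.coeff.addMonoidHom ((p : ℤ) * k + j)) _ _
  rw [hsum, Finset.sum_eq_single j]
  · rw [coeff_tt_mul_qExpand p j hj _ k j hj, if_pos rfl, comp_coeff]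
  · intro i hi hij
    rw [coeff_tt_mul_qExpand p i (Finset.mem_range.mp hi) _ k j hj, if_neg (Ne.symm hij)]
  · intro h
    exact absurd (Finset.mem_range.mpr hj) h

/-- The components of `∑ t ^ i * φ (gᵢ)` are the `gᵢ`. -/
theorem comp_sum (g : ℕ → LaurentSeries R) (j : ℕ) (hj : j < p) :
    comp p j (∑ i ∈ Finset.range p, tt R i * qExpand R p (g i)) = g j := by
  ext k
  rw [comp_coeff]
  have hsum : (∑ i ∈ Finset.range p, tt R i * qExpand R p (g i)).coeff ((p : ℤ) * k + j)
      = ∑ i ∈ Finset.range p, (tt R i * qExpand R p (g i)).coeff ((p : ℤ) * k + j) := by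
    exact map_sum (HahnSeries.coeff.addMonoidHom ((p : ℤ) * k + j)) _ _
  rw [hsum, Finset.sum_eq_single j]
  · rw [coeff_tt_mul_qExpand p j hj _ k j hj, if_pos rfl]
  · intro i hi hij
    rw [coeff_tt_mul_qExpand p i (Finset.mem_range.mp hi) _ k j hj, if_neg (Ne.symm hij)]
  · intro h
    exact absurd (Finset.mem_range.mpr hj) h

/-- **Uniqueness.** -/
theorem comp_unique (g : ℕ → LaurentSeries R)
    (h : ∑ i ∈ Finset.range p, tt R i * qExpand R p (g i) = 0) (j : ℕ) (hj : j < p) :
    g j = 0 := by
  rw [← comp_sum p g j hj, h, comp_zero]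

/-! ### The matrix of multiplication by `s` and its characteristic polynomial -/

/-- The matrix of multiplication by `s` in the basis `1, t, …, t ^ (p - 1)` of `R((t))` over
`R((q))`. -/
def mulMat (s : LaurentSeries R) : Matrix (Fin p) (Fin p) (LaurentSeries R) :=
  Matrix.of fun i j => comp p (i : ℕ) (s * tt R (j : ℕ))

theorem mulMat_apply (s : LaurentSeries R) (i j : Fin p) :
    mulMat p s i j = comp p (i : ℕ) (s * tt R (j : ℕ)) := rfl

/-- The characteristic polynomial of multiplication by `s`, with coefficients in `R((q))`. -/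
def chi (s : LaurentSeries R) : (LaurentSeries R)[X] := (mulMat p s).charpoly

theorem chi_monic (s : LaurentSeries R) : (chi p s).Monic := Matrix.charpoly_monic _

theorem chi_natDegree [Nontrivial R] (s : LaurentSeries R) : (chi p s).natDegree = p := by
  unfold chi
  rw [Matrix.charpoly_natDegree_eq_dim, Fintype.card_fin]

theorem mul_tt_eq (s : LaurentSeries R) (j : Fin p) :
    s * tt R (j : ℕ) = ∑ i : Fin p, tt R (i : ℕ) * qExpand R p (mulMat p s i j) := by
  conv_lhs => rw [decomposition p (s * tt R (j : ℕ))]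
  rw [Finset.sum_range]
  rfl

/-- **Cayley–Hamilton** for the multiplication by `s`: `s` is a root of its characteristic
polynomial (coefficients transported along `φ = qExpand R p`). -/
theorem cayley_hamilton (s : LaurentSeries R) :
    ((chi p s).map (qExpand R p)).eval s = 0 := by
  classical
  set N : Matrix (Fin p) (Fin p) (LaurentSeries R) := (mulMat p s).map (qExpand R p) with hN
  have h1 : (chi p s).map (qExpand R p) = N.charpoly := by
    unfold chi
    rw [hN, Matrix.charpoly_map]
  rw [h1, Matrix.charpoly]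
  have h2 : eval s (Matrix.charmatrix N).det
      = ((Matrix.charmatrix N).map (evalRingHom s)).det := by
    exact (RingHom.map_det (evalRingHom s) (Matrix.charmatrix N))
  rw [h2]
  set B : Matrix (Fin p) (Fin p) (LaurentSeries R) :=
    (Matrix.charmatrix N).map (evalRingHom s) with hB
  have hBij : ∀ i j, B i j = (if i = j then s else 0) - qExpand R p (mulMat p s i j) := by
    intro i j
    rw [hB, Matrix.map_apply]
    by_cases hij : i = j
    · subst hij
      rw [Matrix.charmatrix_apply_eq, if_pos rfl, hN, Matrix.map_apply]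
      simp
    · rw [Matrix.charmatrix_apply_ne _ _ _ hij, if_neg hij, hN, Matrix.map_apply]
      simp
  let T : Fin p → LaurentSeries R := fun i => tt R (i : ℕ)
  have hTB : Matrix.vecMul T B = 0 := by
    funext j
    rw [Matrix.vecMul, dotProduct]
    simp only [hBij, Pi.zero_apply]
    have : ∀ i : Fin p, T i * ((if i = j then s else 0) - qExpand R p (mulMat p s i j))
        = (if i = j then T i * s else 0) - tt R (i : ℕ) * qExpand R p (mulMat p s i j) := by
      intro i
      split_ifs <;> simp [T, mul_sub]
    rw [Finset.sum_congr rfl (fun i _ => this i), Finset.sum_sub_distrib,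
      Finset.sum_ite_eq' Finset.univ j, if_pos (Finset.mem_univ j), ← mul_tt_eq, mul_comm]
    exact sub_self _
  have h3 : Matrix.vecMul T (B * B.adjugate) = 0 := by
    rw [← Matrix.vecMul_vecMul, hTB, Matrix.zero_vecMul]
  rw [Matrix.mul_adjugate, Matrix.vecMul_smul, Matrix.vecMul_one] at h3
  have h4 := congrFun h3 ⟨0, Nat.pos_of_ne_zero (NeZero.ne p)⟩
  simpa [T, tt_zero] using h4

/-- The second relation of `MOD-C` in formal shape: `s` is a root of `(X - Polynomial.C b) * chi p s`
(coefficients transported along `φ`), whatever `b` is. -/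
theorem eval_mul_chi (s b : LaurentSeries R) :
    (((X - Polynomial.C b) * chi p s).map (qExpand R p)).eval s = 0 := by
  rw [Polynomial.map_mul, eval_mul, cayley_hamilton, mul_zero]

/-! ### Change of the coefficient ring -/

section BaseChange

variable {R' : Type*} [CommRing R'] (f : R →+* R')

theorem coeffMap_tt (i : ℕ) : coeffMap f (tt R i) = tt R' i := by
  unfold tt
  rw [coeffMap_single, map_one]

theorem comp_coeffMap (i : ℕ) (g : LaurentSeries R) :
    comp p i (coeffMap f g) = coeffMap f (comp p i g) := by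
  ext k
  simp

theorem mulMat_coeffMap (s : LaurentSeries R) :
    mulMat p (coeffMap f s) = (mulMat p s).map (coeffMap f) := by
  ext i j
  rw [Matrix.map_apply, mulMat_apply, mulMat_apply, ← comp_coeffMap, map_mul, coeffMap_tt]

/-- **Base change.** The characteristic polynomial commutes with a change of the coefficient
ring; in particular, for `s` with coefficients in a subring, the coefficients of `chi p s` are
Laurent series with coefficients in that subring. -/
theorem chi_coeffMap (s : LaurentSeries R) :
    chi p (coeffMap f s) = (chi p s).map (coeffMap f) := by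
  unfold chi
  rw [mulMat_coeffMap, Matrix.charpoly_map]

end BaseChange

/-! ### Minimality over a field -/

section Field

variable {k : Type*} [Field k]

theorem order_qExpand {c : LaurentSeries k} (hc : c ≠ 0) :
    (qExpand k p c).order = (p : ℤ) * c.order := by
  have hne : qExpand k p c ≠ 0 := fun h => hc (qExpand_injective p (h.trans (map_zero _).symm))
  refine le_antisymm (HahnSeries.order_le_of_coeff_ne_zero ?_) ?_
  · rw [qExpand_coeff_mul]
    exact fun h => hc (HahnSeries.coeff_order_eq_zero.mp h)
  · rw [HahnSeries.le_order_iff_forall hne]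
    intro n hn
    by_cases hd : (p : ℤ) ∣ n
    · obtain ⟨m, rfl⟩ := hd
      rw [qExpand_coeff_mul]
      exact HahnSeries.coeff_eq_zero_of_lt_order (lt_of_mul_lt_mul_left hn (pos_p p).le)
    · exact qExpand_coeff_of_not_dvd p c hd

/-- The order of a term `φ c * s ^ i`. -/
theorem order_term {s c : LaurentSeries k} (hs : s ≠ 0) (hc : c ≠ 0) (i : ℕ) :
    (qExpand k p c * s ^ i).order = (p : ℤ) * c.order + i * s.order := by
  have hne : qExpand k p c ≠ 0 := fun h => hc (qExpand_injective p (h.trans (map_zero _).symm))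
  rw [HahnSeries.order_mul hne (pow_ne_zero _ hs), order_qExpand p hc, HahnSeries.order_pow,
    nsmul_eq_mul]

/-- **Linear independence of `1, s, …, s ^ (p - 1)` over `φ (k((q)))`** when the order of `s` is
prime to `p`: a nonzero polynomial of degree `< p` with coefficients in `k((q))` does not
vanish at `s`. -/
theorem eval_ne_zero_of_natDegree_lt {s : LaurentSeries k} (hs : s ≠ 0)
    (hcop : Int.gcd s.order p = 1) {Q : (LaurentSeries k)[X]} (hQ : Q ≠ 0)
    (hdeg : Q.natDegree < p) : (Q.map (qExpand k p)).eval s ≠ 0 := by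
  classical
  rw [eval_map, eval₂_eq_sum, Polynomial.sum]
  set o : ℕ → ℤ := fun i => (p : ℤ) * (Q.coeff i).order + i * s.order with ho
  have hsupp : Q.support.Nonempty := by
    rwa [Polynomial.nonempty_support_iff]
  have hlt : ∀ i ∈ Q.support, i < p := fun i hi =>
    lt_of_le_of_lt (le_natDegree_of_mem_supp i hi) hdeg
  have hinj : ∀ i ∈ Q.support, ∀ j ∈ Q.support, o i = o j → i = j := by
    intro i hi j hj hij
    simp only [ho] at hij
    have h1 : ((i : ℤ) - j) * s.order = (p : ℤ) * ((Q.coeff j).order - (Q.coeff i).order) := by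
      linarith
    have h2 : (p : ℤ) ∣ ((i : ℤ) - j) * s.order := ⟨_, h1⟩
    have hcop' : IsCoprime (p : ℤ) s.order := by
      rw [Int.isCoprime_iff_gcd_eq_one, Int.gcd_comm]
      exact hcop
    have h3 : (p : ℤ) ∣ (i : ℤ) - j := hcop'.dvd_of_dvd_mul_right h2
    have h4 : |(i : ℤ) - j| < p := by
      have := hlt i hi
      have := hlt j hj
      rw [abs_lt]
      constructor <;> omega
    have h5 := Int.eq_zero_of_abs_lt_dvd h3 h4
    omega
  obtain ⟨i₀, hi₀, hmin⟩ := Finset.exists_min_image Q.support o hsupp
  have hterm : ∀ i ∈ Q.support, (qExpand k p (Q.coeff i) * s ^ i).order = o i := fun i hi =>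
    order_term p hs (Polynomial.mem_support_iff.mp hi) i
  have hne : ∀ i ∈ Q.support, qExpand k p (Q.coeff i) * s ^ i ≠ 0 := by
    intro i hi
    have hc : Q.coeff i ≠ 0 := Polynomial.mem_support_iff.mp hi
    exact mul_ne_zero (fun h => hc (qExpand_injective p (h.trans (map_zero _).symm)))
      (pow_ne_zero _ hs)
  intro hzero
  have hcoeff := congrArg (fun x : LaurentSeries k => x.coeff (o i₀)) hzero
  simp only [HahnSeries.coeff_zero] at hcoeff
  have hsum : (∑ i ∈ Q.support, qExpand k p (Q.coeff i) * s ^ i).coeff (o i₀)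
      = ∑ i ∈ Q.support, (qExpand k p (Q.coeff i) * s ^ i).coeff (o i₀) :=
    map_sum (HahnSeries.coeff.addMonoidHom (o i₀)) _ _
  rw [hsum, Finset.sum_eq_single i₀] at hcoeff
  · rw [← hterm i₀ hi₀] at hcoeff
    exact hne i₀ hi₀ (HahnSeries.coeff_order_eq_zero.mp hcoeff)
  · intro i hi hii
    refine HahnSeries.coeff_eq_zero_of_lt_order ?_
    rw [hterm i hi]
    exact lt_of_le_of_ne (hmin i hi) (fun h => hii (hinj i hi i₀ hi₀ h.symm))
  · intro h
    exact absurd hi₀ h

/-- **Minimality.** Over a field, if the order of `s` is prime to `p`, every polynomial with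
coefficients in `k((q))` which kills `s` is divisible by `chi p s`. -/
theorem chi_dvd_of_eval_eq_zero {s : LaurentSeries k} (hs : s ≠ 0)
    (hcop : Int.gcd s.order p = 1) {H : (LaurentSeries k)[X]}
    (hH : (H.map (qExpand k p)).eval s = 0) : chi p s ∣ H := by
  have hmonic := chi_monic p s
  rw [← Polynomial.modByMonic_eq_zero_iff_dvd hmonic]
  by_contra hrem
  have hdeg : (H %ₘ chi p s).natDegree < p := by
    have h1 : chi p s ≠ 1 := by
      intro h
      have := chi_natDegree p s
      rw [h, natDegree_one] at this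
      exact NeZero.ne p this.symm
    have := Polynomial.natDegree_modByMonic_lt H hmonic h1
    rwa [chi_natDegree] at this
  apply eval_ne_zero_of_natDegree_lt p hs hcop hrem hdeg
  have h2 : H = H %ₘ chi p s + chi p s * (H /ₘ chi p s) :=
    (Polynomial.modByMonic_add_div H (chi p s)).symm
  have h3 := hH
  rw [h2, Polynomial.map_add, Polynomial.map_mul, eval_add, eval_mul, cayley_hamilton,
    zero_mul, add_zero] at h3
  exact h3

/-- `chi p s` has no root in `k((q))` (for `p ≥ 2` and `s` of order prime to `p`). -/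
theorem chi_eval_ne_zero (hp2 : 2 ≤ p) {s : LaurentSeries k} (hs : s ≠ 0)
    (hcop : Int.gcd s.order p = 1) (a : LaurentSeries k) : (chi p s).eval a ≠ 0 := by
  intro ha
  obtain ⟨Q, hQ⟩ := Polynomial.dvd_iff_isRoot.mpr ha
  have hQ0 : Q ≠ 0 := by
    rintro rfl
    rw [mul_zero] at hQ
    exact (chi_monic p s).ne_zero hQ
  have hdegQ : Q.natDegree < p := by
    have h1 := congrArg Polynomial.natDegree hQ
    rw [chi_natDegree, Polynomial.natDegree_mul (Polynomial.X_sub_C_ne_zero a) hQ0,
      Polynomial.natDegree_X_sub_C] at h1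
    omega
  have hCH := cayley_hamilton p s
  rw [hQ, Polynomial.map_mul, eval_mul] at hCH
  rcases mul_eq_zero.mp hCH with h | h
  · have hX : (X - Polynomial.C a : (LaurentSeries k)[X]) ≠ 0 := Polynomial.X_sub_C_ne_zero a
    have hdX : (X - Polynomial.C a : (LaurentSeries k)[X]).natDegree < p := by
      rw [Polynomial.natDegree_X_sub_C]
      omega
    exact eval_ne_zero_of_natDegree_lt p hs hcop hX hdX h
  · exact eval_ne_zero_of_natDegree_lt p hs hcop hQ0 hdegQ h

/-- **Identification of the modular polynomial.** Over a field, let `s ∈ k((t))` have order prime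
to `p ≥ 2`.  A monic polynomial `H` of degree `p + 1` with coefficients in `k((q))` which kills
`s` (coefficients transported along `φ`) and some `a ∈ k((q))` equals `(X - Polynomial.C a) * chi p s`. -/
theorem eq_mul_chi (hp2 : 2 ≤ p) {s : LaurentSeries k} (hs : s ≠ 0)
    (hcop : Int.gcd s.order p = 1) {H : (LaurentSeries k)[X]} (hmonic : H.Monic)
    (hdeg : H.natDegree = p + 1) (hHs : (H.map (qExpand k p)).eval s = 0)
    (a : LaurentSeries k) (hHa : H.eval a = 0) : H = (X - Polynomial.C a) * chi p s := by
  obtain ⟨Q, hQ⟩ := chi_dvd_of_eval_eq_zero p hs hcop hHs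
  have hchi := chi_monic p s
  have hQmonic : Q.Monic := by
    have h1 : (chi p s * Q).Monic := hQ ▸ hmonic
    exact hchi.of_mul_monic_left h1
  have hQdeg : Q.natDegree = 1 := by
    have h1 := congrArg Polynomial.natDegree hQ
    rw [hdeg, hchi.natDegree_mul hQmonic, chi_natDegree] at h1
    omega
  have hQa : Q.eval a = 0 := by
    have h1 := hHa
    rw [hQ, eval_mul] at h1
    exact (mul_eq_zero.mp h1).resolve_left (chi_eval_ne_zero p hp2 hs hcop a)
  have hQeq : Q = X - Polynomial.C a := by
    obtain ⟨Q', hQ'⟩ := Polynomial.dvd_iff_isRoot.mpr hQa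
    have hQ'0 : Q' ≠ 0 := by
      rintro rfl
      rw [mul_zero] at hQ'
      exact hQmonic.ne_zero hQ'
    have hQ'deg : Q'.natDegree = 0 := by
      have h1 := congrArg Polynomial.natDegree hQ'
      rw [hQdeg, Polynomial.natDegree_mul (Polynomial.X_sub_C_ne_zero a) hQ'0,
        Polynomial.natDegree_X_sub_C] at h1
      omega
    have hQ'monic : Q'.Monic := by
      have h1 : ((X - Polynomial.C a) * Q').Monic := hQ' ▸ hQmonic
      exact (Polynomial.monic_X_sub_C a).of_mul_monic_left h1
    have hQ'1 : Q' = 1 := Polynomial.eq_one_of_monic_natDegree_zero hQ'monic hQ'deg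
    rw [hQ', hQ'1, mul_one]
  rw [hQ, hQeq, mul_comm]

/-- The candidate modular polynomial over the small ring: `(X - C a₀) * chi p s₀`. -/
def candidate {R₀ : Type*} [CommRing R₀] (a₀ s₀ : LaurentSeries R₀) : (LaurentSeries R₀)[X] :=
  (X - Polynomial.C a₀) * chi p s₀

theorem candidate_monic {R₀ : Type*} [CommRing R₀] (a₀ s₀ : LaurentSeries R₀) :
    (candidate p a₀ s₀).Monic :=
  (Polynomial.monic_X_sub_C a₀).mul (chi_monic p s₀)

theorem candidate_natDegree {R₀ : Type*} [CommRing R₀] [Nontrivial R₀]
    (a₀ s₀ : LaurentSeries R₀) : (candidate p a₀ s₀).natDegree = p + 1 := by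
  unfold candidate
  rw [(Polynomial.monic_X_sub_C a₀).natDegree_mul (chi_monic p s₀),
    Polynomial.natDegree_X_sub_C, chi_natDegree, add_comm]

/-- the candidate kills `a₀`. -/
theorem candidate_eval_left {R₀ : Type*} [CommRing R₀] (a₀ s₀ : LaurentSeries R₀) :
    (candidate p a₀ s₀).eval a₀ = 0 := by
  unfold candidate
  rw [eval_mul, eval_sub, eval_X, eval_C, sub_self, zero_mul]

/-- the candidate kills `s₀` (Cayley–Hamilton). -/
theorem candidate_eval_right {R₀ : Type*} [CommRing R₀] (a₀ s₀ : LaurentSeries R₀) :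
    ((candidate p a₀ s₀).map (qExpand R₀ p)).eval s₀ = 0 :=
  eval_mul_chi p s₀ a₀

/-- **Integrality transfer (A1).** Let `f : R₀ →+* k` be a ring homomorphism into a field,
`a₀, s₀` Laurent series over `R₀` and `a, s` their images over `k`, the order of `s` prime to
`p ≥ 2`.  Every monic polynomial `H` of degree `p + 1` over `k((q))` which kills `a` and `s` is the
image of the candidate `(X - C a₀) * chi p s₀`; in particular all its coefficients are images of
Laurent series with coefficients in `R₀`. -/
theorem eq_map_candidate (hp2 : 2 ≤ p) {R₀ : Type*} [CommRing R₀] (f : R₀ →+* k)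
    (a₀ s₀ : LaurentSeries R₀) (hs : coeffMap f s₀ ≠ 0)
    (hcop : Int.gcd (coeffMap f s₀).order p = 1) {H : (LaurentSeries k)[X]} (hmonic : H.Monic)
    (hdeg : H.natDegree = p + 1)
    (hHs : (H.map (qExpand k p)).eval (coeffMap f s₀) = 0)
    (hHa : H.eval (coeffMap f a₀) = 0) :
    H = (candidate p a₀ s₀).map (coeffMap f) := by
  rw [eq_mul_chi p hp2 hs hcop hmonic hdeg hHs (coeffMap f a₀) hHa]
  unfold candidate
  rw [Polynomial.map_mul, Polynomial.map_sub, Polynomial.map_X, Polynomial.map_C, chi_coeffMap]

/-- Coefficientwise form of `eq_map_candidate`. -/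
theorem coeff_mem_range (hp2 : 2 ≤ p) {R₀ : Type*} [CommRing R₀] (f : R₀ →+* k)
    (a₀ s₀ : LaurentSeries R₀) (hs : coeffMap f s₀ ≠ 0)
    (hcop : Int.gcd (coeffMap f s₀).order p = 1) {H : (LaurentSeries k)[X]} (hmonic : H.Monic)
    (hdeg : H.natDegree = p + 1)
    (hHs : (H.map (qExpand k p)).eval (coeffMap f s₀) = 0)
    (hHa : H.eval (coeffMap f a₀) = 0) (i : ℕ) :
    H.coeff i = coeffMap f ((candidate p a₀ s₀).coeff i) := by
  rw [eq_map_candidate p hp2 f a₀ s₀ hs hcop hmonic hdeg hHs hHa, Polynomial.coeff_map]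

/-- The order of the image of a series under an injective change of coefficients. -/
theorem order_coeffMap {R₀ : Type*} [CommRing R₀] (f : R₀ →+* k) (hf : Function.Injective f)
    (x : LaurentSeries R₀) : (coeffMap f x).order = x.order := by
  by_cases hx : x = 0
  · subst hx
    simp
  have hne : coeffMap f x ≠ 0 := by
    intro h
    apply hx
    ext n
    have := congrArg (fun y : LaurentSeries k => y.coeff n) h
    simp only [coeffMap_coeff, HahnSeries.coeff_zero] at this
    rw [HahnSeries.coeff_zero]
    exact hf (this.trans (map_zero f).symm)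
  refine le_antisymm (HahnSeries.order_le_of_coeff_ne_zero ?_) ?_
  · rw [coeffMap_coeff]
    intro h
    exact hx (HahnSeries.coeff_order_eq_zero.mp (hf (h.trans (map_zero f).symm)))
  · rw [HahnSeries.le_order_iff_forall hne]
    intro n hn
    rw [coeffMap_coeff, HahnSeries.coeff_eq_zero_of_lt_order hn, map_zero]

end Field

end

end Fermat.Agent.S28.Mod.Form
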