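import Fermat.Agent.S28.Mod.H14_PolyJ
import Fermat.Agent.S28.Mod.H22_UnitZ
import Fermat.Agent.S28.Deg.H20_ExclW
import Fermat.Agent.S28.Deg.H8_ExclWeak

/-!
# S28 / MOD (helper22): formal descent for the identity (I3)

The analytic side proves, over `ℂ`, an identity `(θ j)^6 = G(j) Δ` for SOME polynomial
`G ∈ ℂ[X]` (`θ = q d/dq`).  This file shows that nothing has to be known about `G`:

* `(θ j)^6 Δ⁻¹ = q⁻⁷ (1 + …)` has integer coefficients, so `G` comes from `ℤ[X]`
  (triangular argument `PolyJ`), and is monic of degree `7`;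
* hence the weak form of (I3) over `ℤ` (`H20.StI3w ℤ`, `H8.StI3wMonic ℤ`) and over every
  commutative ring.

Everything is stated for an arbitrary injective ring homomorphism `φ : R →+* S`.
-/

set_option autoImplicit false

noncomputable section

open HahnSeries ModularCurve Polynomial

namespace Fermat.Agent.S28.Mod.I3D

open Fermat.Agent.S28.Mod.UnitZ
open Fermat.Agent.S28.Deg.H21 (theta theta_coeff coeffMap_theta)

section Formal

variable (R : Type*) [CommRing R]

/-- the two copies of `Δ` agree. -/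
theorem deltaL_eq : Fermat.Agent.S28.Mod.UnitZ.deltaL R = Fermat.Agent.S28.Deg.H21.deltaL R :=
  rfl

variable {R} in
theorem monicAt_pow {f : LaurentSeries R} {m : ℤ} (hf : MonicAt f m) (n : ℕ) :
    MonicAt (f ^ n) ((n : ℤ) * m) := by
  induction n with
  | zero =>
    rw [pow_zero, Nat.cast_zero, zero_mul]
    exact MonicAt.one
  | succ n ih =>
    rw [pow_succ]
    have h := ih.mul hf
    have e : ((n : ℤ) * m + m) = ((n + 1 : ℕ) : ℤ) * m := by push_cast; ring
    rwa [e] at h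

/-- `-θ j = q⁻¹ + …`. -/
theorem monicAt_neg_theta_jqModC : MonicAt (-(theta (jqModC R))) (-1) := by
  have hj := monicAt_jqModC R
  refine ⟨?_, fun k hk => ?_⟩
  · rw [HahnSeries.coeff_neg, theta_coeff, hj.1]
    push_cast
    ring
  · rw [HahnSeries.coeff_neg, theta_coeff, hj.2 k hk, mul_zero, neg_zero]

/-- `(θ j)^6 = q⁻⁶ + …`. -/
theorem monicAt_theta_pow_six : MonicAt (theta (jqModC R) ^ 6) (-6) := by
  have h := monicAt_pow (monicAt_neg_theta_jqModC R) 6
  have e : (-(theta (jqModC R))) ^ 6 = theta (jqModC R) ^ 6 := by ring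
  rw [e] at h
  exact h

/-- the series `(θ j)^6 Δ⁻¹`. -/
def quot : LaurentSeries R := theta (jqModC R) ^ 6 * deltaInvL R

/-- `(θ j)^6 Δ⁻¹ = q⁻⁷ + …`. -/
theorem monicAt_quot : MonicAt (quot R) (-7) :=
  (monicAt_theta_pow_six R).mul (monicAt_deltaInvL R)

theorem quot_mul_deltaL : quot R * Fermat.Agent.S28.Deg.H21.deltaL R = theta (jqModC R) ^ 6 := by
  rw [← deltaL_eq, quot, mul_assoc, deltaInvL_mul_deltaL, mul_one]

variable {R} in
theorem coeffMap_quot {S : Type*} [CommRing S] (φ : R →+* S) :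
    coeffMap φ (quot R) = quot S := by
  rw [quot, quot, map_mul, map_pow, coeffMap_theta, Fermat.Agent.S28.Mod.UnitZ.coeffMap_jqModC,
    coeffMap_deltaInvL]

variable {R} in
/-- an identity `(θ j)^6 = x Δ` determines `x`. -/
theorem eq_quot_of_eq_mul {x : LaurentSeries R}
    (h : theta (jqModC R) ^ 6 = x * Fermat.Agent.S28.Deg.H21.deltaL R) : x = quot R := by
  rw [quot, h, ← deltaL_eq, mul_assoc, deltaL_mul_deltaInvL, mul_one]

end Formal

section Degree

variable {R : Type*} [CommRing R] [Nontrivial R]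

/-- a polynomial `P` with `P(j) = q⁻ᵈ + …` is monic of degree `d`. -/
theorem monic_of_monicAt_aeval {P : R[X]} {d : ℕ}
    (h : MonicAt (aeval (jqModC R) P) (-(d : ℤ))) : P.Monic ∧ P.natDegree = d := by
  have hle : P.natDegree ≤ d := by
    by_contra hlt
    rw [not_le] at hlt
    have h1 := Fermat.Agent.S28.Mod.PolyJ.coeff_aeval_jqModC P P.natDegree le_rfl
    rw [h.2 _ (by omega)] at h1
    have hP0 : P = 0 := leadingCoeff_eq_zero.mp h1.symm
    rw [hP0, natDegree_zero] at hlt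
    omega
  have h2 := Fermat.Agent.S28.Mod.PolyJ.coeff_aeval_jqModC P d hle
  rw [h.1] at h2
  have hge : d ≤ P.natDegree := by
    by_contra hlt
    rw [not_le] at hlt
    rw [coeff_eq_zero_of_natDegree_lt hlt] at h2
    exact one_ne_zero h2
  have hd : P.natDegree = d := le_antisymm hle hge
  refine ⟨?_, hd⟩
  rw [Monic, Polynomial.leadingCoeff, hd, ← h2]

end Degree

/-- `eval₂ C = aeval` for the HahnSeries algebra structure. -/
theorem eval₂_C_eq_aeval' {A : Type*} [CommRing A] (P : A[X]) :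
    P.eval₂ (HahnSeries.C : A →+* LaurentSeries A) (jqModC A) = aeval (jqModC A) P := by
  rw [aeval_def]
  congr 1
  ext r : 1
  rw [Fermat.Agent.S28.Mod.PolyJ.algebraMap_eq_single]
  rfl

section Descent

variable {R S : Type*} [CommRing R] [CommRing S] [Nontrivial R]

/-- **Formal descent for (I3).**  If `(θ j)^6 = G(j) Δ` over `S` for some polynomial `G ∈ S[X]`
and `φ : R →+* S` is injective, then `G` comes from a MONIC polynomial `G₀ ∈ R[X]` of degree `7`
satisfying the same identity over `R`. -/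
theorem exists_monic_of_aeval (φ : R →+* S) (hφ : Function.Injective φ) (G : S[X])
    (h : theta (jqModC S) ^ 6 = aeval (jqModC S) G * Fermat.Agent.S28.Deg.H21.deltaL S) :
    ∃ G₀ : R[X], G₀.Monic ∧ G₀.natDegree = 7 ∧ G₀.map φ = G ∧
      aeval (jqModC R) G₀ = quot R ∧
      theta (jqModC R) ^ 6 = aeval (jqModC R) G₀ * Fermat.Agent.S28.Deg.H21.deltaL R := by
  have h1 : aeval (jqModC S) G = coeffMap φ (quot R) := by
    rw [coeffMap_quot]
    exact eq_quot_of_eq_mul h
  obtain ⟨G₀, hG₀, hG₀'⟩ :=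
    Fermat.Agent.S28.Mod.PolyJ.exists_map_eq_of_aeval_eq' φ hφ G (quot R) h1
  have hm : MonicAt (aeval (jqModC R) G₀) (-((7 : ℕ) : ℤ)) := by
    rw [hG₀']
    exact monicAt_quot R
  obtain ⟨hmon, hdeg⟩ := monic_of_monicAt_aeval hm
  exact ⟨G₀, hmon, hdeg, hG₀, hG₀', by rw [hG₀', quot_mul_deltaL]⟩

/-- the same with the evaluation written as `eval₂ HahnSeries.C` on both sides. -/
theorem exists_monic_of_eval₂ (φ : R →+* S) (hφ : Function.Injective φ) (G : S[X])
    (h : theta (jqModC S) ^ 6 =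
      G.eval₂ (HahnSeries.C : S →+* LaurentSeries S) (jqModC S) *
        Fermat.Agent.S28.Deg.H21.deltaL S) :
    ∃ G₀ : R[X], G₀.Monic ∧ G₀.natDegree = 7 ∧ G₀.map φ = G ∧
      theta (jqModC R) ^ 6 =
        G₀.eval₂ (HahnSeries.C : R →+* LaurentSeries R) (jqModC R) *
          Fermat.Agent.S28.Deg.H21.deltaL R := by
  rw [eval₂_C_eq_aeval'] at h
  obtain ⟨G₀, hmon, hdeg, hmap, -, hid⟩ := exists_monic_of_aeval φ hφ G h
  exact ⟨G₀, hmon, hdeg, hmap, by rw [eval₂_C_eq_aeval']; exact hid⟩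

end Descent

section Deliverables

open Fermat.Agent.S28.Deg

/-- **(M2) from the complex identity, no hypothesis on `G`.** -/
theorem stI3w_int_of_complex (G : ℂ[X])
    (h : theta (jqModC ℂ) ^ 6 = aeval (jqModC ℂ) G * H21.deltaL ℂ) : H20.StI3w ℤ := by
  obtain ⟨G₀, hmon, -, -, hq, -⟩ :=
    exists_monic_of_aeval (Int.castRingHom ℂ) Int.cast_injective G h
  refine ⟨G₀, hmon, ?_⟩
  rw [eval₂_C_eq_aeval', hq, quot_mul_deltaL]

/-- the same from an identity over `ℚ`. -/
theorem stI3w_int_of_rat (G : ℚ[X])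
    (h : theta (jqModC ℚ) ^ 6 = aeval (jqModC ℚ) G * H21.deltaL ℚ) : H20.StI3w ℤ := by
  obtain ⟨G₀, hmon, -, -, hq, -⟩ :=
    exists_monic_of_aeval (Int.castRingHom ℚ) Int.cast_injective G h
  refine ⟨G₀, hmon, ?_⟩
  rw [eval₂_C_eq_aeval', hq, quot_mul_deltaL]

/-- general form: from an identity over any ring `S` into which `ℤ` injects (char. zero). -/
theorem stI3w_int_of_charZero {S : Type*} [CommRing S] [CharZero S] (G : S[X])
    (h : theta (jqModC S) ^ 6 = aeval (jqModC S) G * H21.deltaL S) : H20.StI3w ℤ := by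
  obtain ⟨G₀, hmon, -, -, hq, -⟩ :=
    exists_monic_of_aeval (Int.castRingHom S) Int.cast_injective G h
  refine ⟨G₀, hmon, ?_⟩
  rw [eval₂_C_eq_aeval', hq, quot_mul_deltaL]

/-- helper8's shape. -/
theorem stI3wMonic_int_of_complex (G : ℂ[X])
    (h : theta (jqModC ℂ) ^ 6 = aeval (jqModC ℂ) G * H21.deltaL ℂ) : H8.StI3wMonic ℤ :=
  stI3w_int_of_complex G h

/-- weak (I3) over every commutative ring, with the degree. -/
theorem exists_monic_int_of_complex (G : ℂ[X])
    (h : theta (jqModC ℂ) ^ 6 = aeval (jqModC ℂ) G * H21.deltaL ℂ) :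
    ∃ G₀ : ℤ[X], G₀.Monic ∧ G₀.natDegree = 7 ∧ G₀.map (Int.castRingHom ℂ) = G ∧
      ∀ (A : Type) [CommRing A], theta (jqModC A) ^ 6 =
        (G₀.map (Int.castRingHom A)).eval₂ (HahnSeries.C : A →+* LaurentSeries A) (jqModC A) *
          H21.deltaL A := by
  obtain ⟨G₀, hmon, hdeg, hmap, hq, -⟩ :=
    exists_monic_of_aeval (Int.castRingHom ℂ) Int.cast_injective G h
  refine ⟨G₀, hmon, hdeg, hmap, fun A _ => ?_⟩
  have h0 : theta (jqModC ℤ) ^ 6 =
      G₀.eval₂ (HahnSeries.C : ℤ →+* LaurentSeries ℤ) (jqModC ℤ) * H21.deltaL ℤ := by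
    rw [eval₂_C_eq_aeval', hq, quot_mul_deltaL]
  have h' := congrArg (coeffMap (Int.castRingHom A)) h0
  rw [map_pow, coeffMap_theta, Fermat.Agent.S28.Mod.UnitZ.coeffMap_jqModC, map_mul,
    H20.coeffMap_eval₂_C, Fermat.Agent.S28.Mod.UnitZ.coeffMap_jqModC, H21.coeffMap_deltaL] at h'
  exact h'

end Deliverables

end Fermat.Agent.S28.Mod.I3D
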