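import Fermat.Agent.S28.Mod.H7_CharpolyCore
import Fermat.Agent.S28.Mod.H14_PolyJ

/-!
# S28 / MOD (helper7): final assembly of the modular equations

From the analytic input (two identities in `S((q))`, `S` a field, for some monic polynomial
`H ∈ S[Y][X]` of degree `p + 1`), the algebraic core (`H7_CharpolyCore`) and the triangular
argument (`H14_PolyJ`) we get a monic polynomial `H' ∈ R[Y][X]` of degree `p + 1` with the same
two identities in `R((q))`.
-/

set_option autoImplicit false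

namespace Fermat.Agent.S28.Mod.H7

open ModularCurve Polynomial

noncomputable section

section Generic

variable {R S : Type*} [CommRing R] [Field S] (φ : R →+* S) (p : ℕ) [NeZero p]

/-- `qExpand p` after `Y ↦ j` is `Y ↦ j_p`. -/
lemma h7_qExpand_comp_aeval (A : Type*) [CommRing A] (x : LaurentSeries A) :
    (qExpand A p).comp (aeval (R := A) x).toRingHom =
      (aeval (R := A) (qExpand A p x)).toRingHom := by
  refine Polynomial.ringHom_ext (fun a => ?_) ?_
  · simp only [RingHom.comp_apply, AlgHom.toRingHom_eq_coe, RingHom.coe_coe, aeval_C]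
    rw [PolyJ.algebraMap_eq_single, qExpand_single, mul_zero]
  · simp only [RingHom.comp_apply, AlgHom.toRingHom_eq_coe, RingHom.coe_coe, aeval_X]

/-- **MOD, generic final assembly.** -/
theorem h7_modfin (hφ : Function.Injective φ) (hp : p.Prime) (s r : LaurentSeries R)
    (hs : ¬ (p : ℤ) ∣ (coeffMap φ s).order)
    (H : (S[X])[X]) (hH : H.Monic) (hdeg : H.natDegree = p + 1)
    (hI : (H.map (aeval (jqModC S)).toRingHom).eval (coeffMap φ r) = 0)
    (hII : (H.map (aeval (qExpand S p (jqModC S))).toRingHom).eval (coeffMap φ s) = 0) :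
    ∃ H' : (R[X])[X], H'.Monic ∧ H'.natDegree = p + 1 ∧
      H'.map (Polynomial.mapRingHom φ) = H ∧
      H'.map (aeval (jqModC R)).toRingHom = h7_G p s r ∧
      (H'.map (aeval (jqModC R)).toRingHom).eval r = 0 ∧
      (H'.map (aeval (qExpand R p (jqModC R))).toRingHom).eval s = 0 := by
  set H₀ : (LaurentSeries S)[X] := H.map (aeval (jqModC S)).toRingHom with hH₀
  have hH₀m : H₀.Monic := hH.map _
  have hH₀deg : H₀.natDegree = p + 1 := by rw [hH₀, hH.natDegree_map, hdeg]
  have hII' : (H₀.map (qExpand S p)).eval (coeffMap φ s) = 0 := by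
    rw [hH₀, Polynomial.map_map, h7_qExpand_comp_aeval]
    exact hII
  have hcore := h7_core φ p hp s r hs H₀ hH₀m hH₀deg hII' hI
  obtain ⟨H', hH'1, hH'2⟩ := PolyJ.exists_map_eq_of_map_aeval_eq' φ hφ H (h7_G p s r) hcore
  have hmonic : H'.Monic := PolyJ.monic_of_map_mapRingHom φ hφ (by rw [hH'1]; exact hH)
  have hnat : H'.natDegree = p + 1 := by
    rw [← PolyJ.natDegree_map_mapRingHom φ hφ H', hH'1, hdeg]
  refine ⟨H', hmonic, hnat, hH'1, hH'2, ?_, ?_⟩
  · rw [hH'2]
    exact h7_G_eval_r p s r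
  · rw [← h7_qExpand_comp_aeval, ← Polynomial.map_map, hH'2]
    exact h7_G_eval_s p s r

end Generic

section Family

/-- The polynomial `∑_{i ≤ n} P_i X^(n - i)` attached to a family `P` with `P 0 = 1`. -/
def h7_polyOfFamily {A : Type*} [CommRing A] (n : ℕ) (P : ℕ → A) : A[X] :=
  X ^ n + ∑ i : Fin n, C (P (n - i)) * X ^ (i : ℕ)

theorem h7_polyOfFamily_monic {A : Type*} [CommRing A] [Nontrivial A] (n : ℕ) (P : ℕ → A) :
    (h7_polyOfFamily n P).Monic :=
  Polynomial.monic_X_pow_add (Polynomial.degree_sum_fin_lt _)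

theorem h7_polyOfFamily_natDegree {A : Type*} [CommRing A] [Nontrivial A] (n : ℕ) (P : ℕ → A) :
    (h7_polyOfFamily n P).natDegree = n := by
  have h1 : (∑ i : Fin n, C (P (n - i)) * X ^ (i : ℕ) : A[X]).degree < (n : WithBot ℕ) :=
    Polynomial.degree_sum_fin_lt _
  have h2 : (X ^ n : A[X]).degree = n := Polynomial.degree_X_pow n
  rw [h7_polyOfFamily]
  apply Polynomial.natDegree_eq_of_degree_eq_some
  rw [Polynomial.degree_add_eq_left_of_degree_lt (by rw [h2]; exact h1), h2]

theorem h7_polyOfFamily_eval {A B : Type*} [CommRing A] [CommRing B] (n : ℕ) (P : ℕ → A)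
    (hP0 : P 0 = 1) (f : A →+* B) (y : B) :
    ((h7_polyOfFamily n P).map f).eval y = ∑ i ∈ Finset.range (n + 1), f (P i) * y ^ (n - i) := by
  rw [h7_polyOfFamily, Finset.sum_range_succ', hP0, map_one, one_mul, Nat.sub_zero,
    Polynomial.map_add, Polynomial.eval_add, Polynomial.map_pow, Polynomial.map_X,
    Polynomial.eval_pow, Polynomial.eval_X, add_comm]
  congr 1
  rw [Polynomial.map_sum, Polynomial.eval_finsetSum, ← Finset.sum_range_reflect,
    Finset.sum_range]
  refine Finset.sum_congr rfl fun i _ => ?_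
  have hi := i.2
  have e1 : n - 1 - (i : ℕ) + 1 = n - i := by omega
  have e2 : n - (n - (i : ℕ)) = i := by omega
  rw [Polynomial.map_mul, Polynomial.map_C, Polynomial.map_pow, Polynomial.map_X,
    Polynomial.eval_mul, Polynomial.eval_C, Polynomial.eval_pow, Polynomial.eval_X, e1, e2]

end Family

section Transfer

variable {R S : Type*} [CommRing R] [CommRing S] (ψ : R →+* S) (p : ℕ) [NeZero p]

lemma h7_order_jqModC (K : Type*) [Field K] : (jqModC K).order = -1 := by
  have h1 : (jqModC K).coeff (-1) ≠ 0 := by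
    rw [coeff_jqModC_neg_one]; exact one_ne_zero
  have hne : jqModC K ≠ 0 := HahnSeries.ne_zero_of_coeff_ne_zero h1
  refine le_antisymm (HahnSeries.order_le_of_coeff_ne_zero h1) ?_
  by_contra hlt
  rw [not_le] at hlt
  exact h7_coeff_order_ne_zero hne (coeff_jqModC_of_lt K hlt)

/-- `coeffMap ψ ∘ (Y ↦ j) = (Y ↦ j) ∘ map ψ`. -/
lemma h7_coeffMap_comp_aeval :
    (coeffMap ψ).comp (aeval (R := R) (jqModC R)).toRingHom =
      ((aeval (R := S) (jqModC S)).toRingHom).comp (Polynomial.mapRingHom ψ) :=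
  RingHom.ext fun P => PolyJ.coeffMap_aeval_jqModC ψ P

/-- `coeffMap ψ ∘ (Y ↦ j_p) = (Y ↦ j_p) ∘ map ψ`. -/
lemma h7_coeffMap_comp_aeval_qExpand :
    (coeffMap ψ).comp (aeval (R := R) (qExpand R p (jqModC R))).toRingHom =
      ((aeval (R := S) (qExpand S p (jqModC S))).toRingHom).comp (Polynomial.mapRingHom ψ) := by
  rw [← h7_qExpand_comp_aeval, ← h7_qExpand_comp_aeval]
  refine RingHom.ext fun P => ?_
  simp only [RingHom.comp_apply]
  rw [coeffMap_qExpand]
  congr 1
  exact PolyJ.coeffMap_aeval_jqModC ψ P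

/-- Transfer of the first identity along `ψ : R → S`. -/
theorem h7_transfer_I (H' : (R[X])[X]) (r : LaurentSeries R)
    (h : (H'.map (aeval (jqModC R)).toRingHom).eval r = 0) :
    ((H'.map (Polynomial.mapRingHom ψ)).map (aeval (jqModC S)).toRingHom).eval (coeffMap ψ r)
      = 0 := by
  have h1 := congrArg (coeffMap ψ) h
  rw [map_zero, ← Polynomial.eval₂_hom, ← Polynomial.eval_map, Polynomial.map_map,
    h7_coeffMap_comp_aeval, ← Polynomial.map_map] at h1
  exact h1

/-- Transfer of the second identity along `ψ : R → S`. -/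
theorem h7_transfer_II (H' : (R[X])[X]) (s : LaurentSeries R)
    (h : (H'.map (aeval (qExpand R p (jqModC R))).toRingHom).eval s = 0) :
    ((H'.map (Polynomial.mapRingHom ψ)).map
      (aeval (qExpand S p (jqModC S))).toRingHom).eval (coeffMap ψ s) = 0 := by
  have h1 := congrArg (coeffMap ψ) h
  rw [map_zero, ← Polynomial.eval₂_hom, ← Polynomial.eval_map, Polynomial.map_map,
    h7_coeffMap_comp_aeval_qExpand, ← Polynomial.map_map] at h1
  exact h1

end Transfer

section ModC

variable (p : ℕ) [NeZero p]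

/-- **Analytic input** for the pair `(g, gS)` of series over `ℂ`: some monic polynomial of degree
`p + 1` over `ℂ[Y]` kills `g` (with `Y ↦ j`) and `gS` (with `Y ↦ j_p`). -/
def StAN (g gS : LaurentSeries ℂ) : Prop :=
  ∃ H : (ℂ[X])[X], H.Monic ∧ H.natDegree = p + 1 ∧
    (H.map (aeval (jqModC ℂ)).toRingHom).eval g = 0 ∧
    (H.map (aeval (qExpand ℂ p (jqModC ℂ))).toRingHom).eval gS = 0

/-- The analytic input from a family of coefficients `P i ∈ ℂ[Y]`, `P 0 = 1`. -/
theorem StAN.of_family {g gS : LaurentSeries ℂ} (P : ℕ → ℂ[X]) (hP0 : P 0 = 1)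
    (hI : ∑ i ∈ Finset.range (p + 1 + 1), aeval (jqModC ℂ) (P i) * g ^ (p + 1 - i) = 0)
    (hII : ∑ i ∈ Finset.range (p + 1 + 1),
      aeval (qExpand ℂ p (jqModC ℂ)) (P i) * gS ^ (p + 1 - i) = 0) :
    StAN p g gS := by
  refine ⟨h7_polyOfFamily (p + 1) P, h7_polyOfFamily_monic _ _, h7_polyOfFamily_natDegree _ _,
    ?_, ?_⟩
  · rw [h7_polyOfFamily_eval (p + 1) P hP0]
    exact hI
  · rw [h7_polyOfFamily_eval (p + 1) P hP0]
    exact hII

/-- **MOD-C**: the modular equation of prime level `p` over `ℤ`, as identities in `ℤ((q))`: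
`Φ(j_p; j) = 0` and `Φ(j; j_p) = 0` (the outer variable of `Φ` is the root variable). -/
def StMODC : Prop :=
  ∃ Φ : (ℤ[X])[X], Φ.Monic ∧ Φ.natDegree = p + 1 ∧
    (Φ.map (aeval (jqModC ℤ)).toRingHom).eval (qExpand ℤ p (jqModC ℤ)) = 0 ∧
    (Φ.map (aeval (qExpand ℤ p (jqModC ℤ))).toRingHom).eval (jqModC ℤ) = 0

/-- **MOD-C from the analytic input** for `g = j_p`, `gS = j`. -/
theorem stMODC_of_AN (hp : p.Prime) (h : StAN p (qExpand ℂ p (jqModC ℂ)) (jqModC ℂ)) :
    StMODC p := by
  obtain ⟨H, hH, hdeg, hI, hII⟩ := h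
  have hφ : Function.Injective (Int.castRingHom ℂ) := Int.cast_injective
  have hs : ¬ (p : ℤ) ∣ (coeffMap (Int.castRingHom ℂ) (jqModC ℤ)).order := by
    rw [coeffMap_jqModC, h7_order_jqModC, Int.dvd_neg]
    intro hdvd
    have := Int.eq_one_of_dvd_one (by positivity) hdvd
    have hp1 := hp.one_lt
    omega
  obtain ⟨H', hm, hd, -, -, h1, h2⟩ := h7_modfin (Int.castRingHom ℂ) p hφ hp (jqModC ℤ)
    (qExpand ℤ p (jqModC ℤ)) hs H hH hdeg
    (by rw [coeffMap_qExpand, coeffMap_jqModC]; exact hI)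
    (by rw [coeffMap_jqModC]; exact hII)
  exact ⟨H', hm, hd, h1, h2⟩

/-- **MOD-C over any commutative ring** `k` (e.g. `k = ZMod ℓ`): the reduction of `Φ`. -/
theorem StMODC.ring (h : StMODC p) (k : Type*) [CommRing k] [Nontrivial k] :
    ∃ Φ : (k[X])[X], Φ.Monic ∧ Φ.natDegree = p + 1 ∧
      (Φ.map (aeval (jqModC k)).toRingHom).eval (qExpand k p (jqModC k)) = 0 ∧
      (Φ.map (aeval (qExpand k p (jqModC k))).toRingHom).eval (jqModC k) = 0 := by
  obtain ⟨Φ, hm, hd, h1, h2⟩ := h
  refine ⟨Φ.map (Polynomial.mapRingHom (Int.castRingHom k)), hm.map _, ?_, ?_, ?_⟩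
  · rw [hm.natDegree_map, hd]
  · have := h7_transfer_I (Int.castRingHom k) Φ _ h1
    rwa [coeffMap_qExpand, coeffMap_jqModC] at this
  · have := h7_transfer_II (Int.castRingHom k) p Φ _ h2
    rwa [coeffMap_jqModC] at this

end ModC

section ModA

variable (p : ℕ) [NeZero p]

/-- **MOD-A** for the series `g ∈ R((q))`: `g` is a root of a monic polynomial of degree `p + 1`
with coefficients in `R[j]`. -/
def StMODA (R : Type*) [CommRing R] (g : LaurentSeries R) : Prop :=
  ∃ H : (R[X])[X], H.Monic ∧ H.natDegree = p + 1 ∧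
    (H.map (aeval (jqModC R)).toRingHom).eval g = 0

/-- **MOD-A from the analytic input**: `r` is the series (over `R`) of the function `g`, and `s`
the series of its `S`-translate at the point `p z`; the prime `p` must not divide the order
of `s`. -/
theorem stMODA_of_AN {R : Type*} [CommRing R] (φ : R →+* ℂ) (hφ : Function.Injective φ)
    (hp : p.Prime) (r s : LaurentSeries R) (hs : ¬ (p : ℤ) ∣ (coeffMap φ s).order)
    (h : StAN p (coeffMap φ r) (coeffMap φ s)) : StMODA p R r := by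
  obtain ⟨H, hH, hdeg, hI, hII⟩ := h
  obtain ⟨H', hm, hd, -, -, h1, -⟩ := h7_modfin φ p hφ hp s r hs H hH hdeg hI hII
  exact ⟨H', hm, hd, h1⟩

omit [NeZero p] in
/-- Transport of MOD-A along a ring homomorphism `ψ : R → k` (e.g. `ℤ[1/p] → ZMod ℓ`). -/
theorem StMODA.map {R k : Type*} [CommRing R] [CommRing k] [Nontrivial k] (ψ : R →+* k)
    {g : LaurentSeries R} (h : StMODA p R g) : StMODA p k (coeffMap ψ g) := by
  obtain ⟨H, hm, hd, h1⟩ := h
  exact ⟨H.map (Polynomial.mapRingHom ψ), hm.map _, by rw [hm.natDegree_map, hd],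
    h7_transfer_I ψ H g h1⟩

omit [NeZero p] in
/-- MOD-A gives integrality over the subalgebra `k[j]` of `k((q))`. -/
theorem StMODA.isIntegral {k : Type*} [CommRing k] {g : LaurentSeries k} (h : StMODA p k g) :
    IsIntegral (Algebra.adjoin k {jqModC k}) g := by
  obtain ⟨H, hm, -, h1⟩ := h
  have hmem : ∀ P : k[X], aeval (jqModC k) P ∈ Algebra.adjoin k {jqModC k} := fun P => by
    rw [Algebra.adjoin_singleton_eq_range_aeval]
    exact ⟨P, rfl⟩
  let f : k[X] →+* Algebra.adjoin k {jqModC k} :=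
    ((aeval (R := k) (jqModC k)).codRestrict (Algebra.adjoin k {jqModC k}) hmem).toRingHom
  refine ⟨H.map f, hm.map _, ?_⟩
  rw [Polynomial.eval₂_map]
  have hcomp : (algebraMap (Algebra.adjoin k {jqModC k}) (LaurentSeries k)).comp f
      = (aeval (R := k) (jqModC k)).toRingHom := RingHom.ext fun P => rfl
  rw [hcomp, ← Polynomial.eval_map]
  exact h1

end ModA

end

end Fermat.Agent.S28.Mod.H7
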