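import Fermat.Agent.S28.Mod.H24_Wire
import Fermat.Agent.S28.Mod.H14_UnitReal
import Fermat.Agent.S28.Mod.H7_ModFin
import Fermat.Agent.S28.Deg.H8_Psi

/-!
# S28 / MOD (helper24): the analytic input `StAN`

`StAN p g gS` (helper7's `H7_ModFin`) for `g = a j_p + c v`, `gS = a j + c p⁻¹² u` over `ℂ`, where
`v = Δ(q^p)/Δ(q)` and `u = Δ(q)/Δ(q^p)`; in particular for `(g, gS) = (j_p, j)` (MOD-C) and
`(g, gS) = (v, p⁻¹² u)` (integrality of `v`).  Consequence: `H7.StMODC p` for every prime `p`.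
-/

set_option autoImplicit false

open UpperHalfPlane ModularForm CongruenceSubgroup Polynomial ModularCurve
open Fermat.Agent.S23 Fermat.Agent.S23.R4 Fermat.Agent.S24 Fermat.Agent.S24.Real
open scoped MatrixGroups ModularForm Manifold

noncomputable section

namespace Fermat.Agent.S28.Mod.H24

/-- The index of `Γ₀(p)` for `p` prime. -/
theorem h24_card_prime (p : ℕ) [NeZero p] (hp : p.Prime) :
    Nat.card (SL(2, ℤ) ⧸ Gamma0 p) = p + 1 :=
  Fermat.Agent.S28.Deg.H8.psi_prime p hp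

/-- **The analytic input** for `g = a j_p + c v` and its translate `gS = a j + c p⁻¹² u`. -/
theorem h24_stAN (p : ℕ) [NeZero p] (hp : p.Prime) (a c : ℂ) :
    H7.StAN p (HahnSeries.C a * qExpand ℂ p (jqModC ℂ) + HahnSeries.C c * Unit.vSer p)
      (HahnSeries.C a * jqModC ℂ + HahnSeries.C (c * ((p : ℂ)⁻¹) ^ 12) * Unit.uSer p) := by
  obtain ⟨H, hm, hd, h1, h2⟩ := h24_exists_relation_of' p (p + 1) (h24_card_prime p hp)
    (Unit.vSer p) (Unit.uSer p) (Unit.vFun p) (Unit.uFun p) (Unit.isModReal_vFun p)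
    (Unit.isReal_uFun p) (((p : ℂ)⁻¹) ^ 12) (Unit.vFun_S_scale p) a c
  refine ⟨H, hm, hd, h1, ?_⟩
  rw [Polynomial.map_map, H7.h7_qExpand_comp_aeval] at h2
  exact h2

/-- The analytic input of MOD-C: `(g, gS) = (j_p, j)`. -/
theorem h24_stAN_j (p : ℕ) [NeZero p] (hp : p.Prime) :
    H7.StAN p (qExpand ℂ p (jqModC ℂ)) (jqModC ℂ) := by
  have h := h24_stAN p hp 1 0
  simpa using h

/-- The analytic input for the modular unit: `(g, gS) = (v, p⁻¹² u)`. -/
theorem h24_stAN_v (p : ℕ) [NeZero p] (hp : p.Prime) :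
    H7.StAN p (Unit.vSer p) (HahnSeries.C (((p : ℂ)⁻¹) ^ 12) * Unit.uSer p) := by
  have h := h24_stAN p hp 0 1
  simpa using h

/-- **MOD-C** (helper7's shape): the modular equation of prime level `p` over `ℤ`. -/
theorem h24_stMODC (p : ℕ) [NeZero p] (hp : p.Prime) : H7.StMODC p :=
  H7.stMODC_of_AN p hp (h24_stAN_j p hp)

end Fermat.Agent.S28.Mod.H24
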