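import Fermat.Agent.S24.H24_DegReal
import Fermat.Prelude.Def_ModularCurve_X0ModL

/-!
# S28 / MOD, analytic input (helper24): the invariant polynomial of `a j(pz) + c v(z)`

Abstract wiring.  Let `vF` be a holomorphic `Γ₀(p)`-invariant function of moderate growth realising
the Laurent series `vS` (in the sense of `Real.IsModReal`), and let `uF` realise `uS`, with
`vF (S • (p z)) = κ * uF z`.  Then for all `a c : ℂ` there is a monic polynomial `H ∈ ℂ[Y][X]` of
degree `μ = [SL₂(ℤ) : Γ₀(p)]` with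

* (I)  `H(a j_p + c vS ; j) = 0` in `ℂ((q))`;
* (II) `H(a j + c κ uS ; j_p) = 0` in `ℂ((q))`.

The application is `vF z = Δ(pz)/Δ(z)`, `uF z = Δ(z)/Δ(pz)`, `κ = p⁻¹²`.
-/

set_option autoImplicit false

open UpperHalfPlane ModularForm CongruenceSubgroup Polynomial ModularCurve
open Fermat.Agent.S23 Fermat.Agent.S23.R4 Fermat.Agent.S24 Fermat.Agent.S24.Real
open scoped MatrixGroups ModularForm Manifold

noncomputable section

namespace Fermat.Agent.S28.Mod.H24

/-! ### Complements to the `IsReal` calculus -/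

theorem h24_isReal_pow {h : LaurentSeries ℂ} {f : ℍ → ℂ} (hf : IsReal h f) (n : ℕ) :
    IsReal (h ^ n) (f ^ n) := by
  induction n with
  | zero => simpa using IsReal.one
  | succ n ih => rw [pow_succ, pow_succ]; exact ih.mul hf

theorem h24_isReal_sum {ι : Type*} (s : Finset ι) {h : ι → LaurentSeries ℂ} {f : ι → ℍ → ℂ}
    (hf : ∀ i ∈ s, IsReal (h i) (f i)) : IsReal (∑ i ∈ s, h i) (∑ i ∈ s, f i) := by
  classical
  induction s using Finset.induction_on with
  | empty => simpa using IsReal.zero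
  | insert a s ha ih =>
    rw [Finset.sum_insert ha, Finset.sum_insert ha]
    exact (hf a (Finset.mem_insert_self a s)).add
      (ih fun i hi => hf i (Finset.mem_insert_of_mem hi))

theorem h24_C_eq_algebraMap (c : ℂ) :
    (HahnSeries.C c : LaurentSeries ℂ) = algebraMap ℂ (LaurentSeries ℂ) c := by
  rw [ModularCurve.algebraMap_laurentSeries_eq_single]; rfl

theorem h24_isReal_aeval {h : LaurentSeries ℂ} {f : ℍ → ℂ} (hf : IsReal h f) (P : ℂ[X]) :
    IsReal (aeval h P) (fun z => P.eval (f z)) := by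
  induction P using Polynomial.induction_on' with
  | add P Q hP hQ =>
    rw [map_add]
    have := hP.add hQ
    have e : ((fun z => P.eval (f z)) + fun z => Q.eval (f z)) = fun z => (P + Q).eval (f z) := by
      funext z; simp
    rwa [e] at this
  | monomial n c =>
    rw [← C_mul_X_pow_eq_monomial, map_mul, aeval_C, map_pow, aeval_X]
    have := (IsReal.const c).mul (h24_isReal_pow hf n)
    have e : ((fun _ : ℍ => c) * f ^ n) = fun z => (C c * X ^ n : ℂ[X]).eval (f z) := by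
      funext z; simp
    rwa [e] at this

/-- The formal `j` over `ℂ`. -/
theorem h24_coeffEmb_jq : coeffEmb ℂ jq = jqModC ℂ := by
  have : jq = jqModC ℚ := rfl
  rw [this]
  exact coeffMap_jqModC _

theorem h24_isReal_j : IsReal (jqModC ℂ) jInv := by
  rw [← h24_coeffEmb_jq]; exact isReal_jInv

theorem h24_isModReal_jp (p : ℕ) [NeZero p] :
    IsModReal p (qExpand ℂ p (jqModC ℂ)) (jN p) := by
  have := isModReal_jN p p dvd_rfl
  rwa [show coeffEmb ℂ (qExpand ℚ p jq) = qExpand ℂ p (jqModC ℂ) by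
    rw [← h24_coeffEmb_jq]; exact Real.coeffMap_qExpand _ p _] at this


/-! ### The polynomial attached to a family of coefficients -/

/-- The polynomial `∑ j ≤ μ, P j * X ^ (μ - j)`. -/
def h24_poly (μ : ℕ) (P : ℕ → ℂ[X]) : (ℂ[X])[X] :=
  ∑ j ∈ Finset.range (μ + 1), C (P j) * X ^ (μ - j)

theorem h24_poly_eq (μ : ℕ) (P : ℕ → ℂ[X]) (h0 : P 0 = 1) :
    h24_poly μ P = X ^ μ + ∑ j ∈ Finset.range μ, C (P (j + 1)) * X ^ (μ - (j + 1)) := by
  rw [h24_poly, Finset.sum_range_succ', h0, map_one, one_mul, Nat.sub_zero, add_comm]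

theorem h24_poly_degree_lt (μ : ℕ) (P : ℕ → ℂ[X]) :
    (∑ j ∈ Finset.range μ, C (P (j + 1)) * X ^ (μ - (j + 1)) : (ℂ[X])[X]).degree < (μ : ℕ) := by
  refine (Polynomial.degree_sum_le _ _).trans_lt ?_
  refine (Finset.sup_lt_iff (WithBot.bot_lt_coe μ)).2 ?_
  intro j hj
  rw [Finset.mem_range] at hj
  refine (Polynomial.degree_C_mul_X_pow_le _ _).trans_lt ?_
  exact (Nat.cast_lt (α := WithBot ℕ)).mpr (by omega)

theorem h24_poly_monic (μ : ℕ) (P : ℕ → ℂ[X]) (h0 : P 0 = 1) : (h24_poly μ P).Monic := by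
  rw [h24_poly_eq μ P h0]
  exact Polynomial.monic_X_pow_add (h24_poly_degree_lt μ P)

theorem h24_poly_natDegree (μ : ℕ) (P : ℕ → ℂ[X]) (h0 : P 0 = 1) :
    (h24_poly μ P).natDegree = μ := by
  rw [h24_poly_eq μ P h0, Polynomial.natDegree_add_eq_left_of_degree_lt, natDegree_X_pow]
  rw [degree_X_pow]
  exact h24_poly_degree_lt μ P

theorem h24_poly_map_eval {A : Type*} [CommRing A] (μ : ℕ) (P : ℕ → ℂ[X]) (φ : ℂ[X] →+* A)
    (x : A) :
    ((h24_poly μ P).map φ).eval x = ∑ j ∈ Finset.range (μ + 1), φ (P j) * x ^ (μ - j) := by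
  simp [h24_poly, Polynomial.map_sum, Polynomial.eval_finsetSum]

/-! ### The `S`-translate -/

theorem h24_scaleH_S_scaleN (p : ℕ) [NeZero p] (z : ℍ) :
    scaleH p (ModularGroup.S • scaleN p z) = ModularGroup.S • z := by
  apply UpperHalfPlane.ext
  rw [coe_scaleH, UpperHalfPlane.modular_S_smul, UpperHalfPlane.modular_S_smul]
  show (p : ℂ) * (-((scaleN p z : ℍ) : ℂ))⁻¹ = (-(z : ℂ))⁻¹
  rw [coe_scaleN]
  have hp : (p : ℂ) ≠ 0 := Nat.cast_ne_zero.mpr (NeZero.ne p)
  have hz : (z : ℂ) ≠ 0 := UpperHalfPlane.ne_zero z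
  field_simp

theorem h24_jN_S_scale (p : ℕ) [NeZero p] (z : ℍ) :
    jN p (ModularGroup.S • scaleN p z) = jInv z := by
  unfold jN
  rw [h24_scaleH_S_scaleN, jInv_smul]

theorem h24_jInv_scaleN (p : ℕ) [NeZero p] (z : ℍ) : jInv (scaleN p z) = jN p z := by
  unfold jN
  rw [scaleN_eq_scaleH]

/-! ### The relation -/

/-- **Analytic input of MOD.**  Abstract form, for any realised `Γ₀(p)`-invariant function `vF`
of moderate growth whose `S`-translate at `p z` is `κ * uF z`. -/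
theorem h24_exists_relation_of (p : ℕ) [NeZero p]
    (vS uS : LaurentSeries ℂ) (vF uF : ℍ → ℂ)
    (hv : IsModReal p vS vF) (hu : IsReal uS uF) (κ : ℂ)
    (hS : ∀ z : ℍ, vF (ModularGroup.S • scaleN p z) = κ * uF z) (a c : ℂ) :
    ∃ H : (ℂ[X])[X], H.Monic ∧ H.natDegree = Nat.card (SL(2, ℤ) ⧸ Gamma0 p) ∧
      (H.map (aeval (jqModC ℂ)).toRingHom).eval
        (HahnSeries.C a * qExpand ℂ p (jqModC ℂ) + HahnSeries.C c * vS) = 0 ∧
      ((H.map (aeval (jqModC ℂ)).toRingHom).map (qExpand ℂ p)).eval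
        (HahnSeries.C a * jqModC ℂ + HahnSeries.C (c * κ) * uS) = 0 := by
  set μ := Nat.card (SL(2, ℤ) ⧸ Gamma0 p) with hμ
  -- the function `g = a j_p + c v`
  have hg : IsModReal p (HahnSeries.C a * qExpand ℂ p (jqModC ℂ) + HahnSeries.C c * vS)
      (a • jN p + c • vF) := by
    have h1 := (IsModReal.const (N := p) a).mul (h24_isModReal_jp p)
    have h2 := (IsModReal.const (N := p) c).mul hv
    have e1 : ((fun _ : ℍ => a) * jN p) = a • jN p := by funext z; simp
    have e2 : ((fun _ : ℍ => c) * vF) = c • vF := by funext z; simp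
    rw [← h24_C_eq_algebraMap, e1] at h1
    rw [← h24_C_eq_algebraMap, e2] at h2
    exact h1.add h2
  obtain ⟨P, hP0, hPrel, -⟩ := G3.exists_monic_relation_of_inv (Gamma0 p) (a • jN p + c • vF)
    hg.holo hg.inv (fun δ => hg.growth δ)
  rw [← hμ] at hPrel
  change ∀ (γ : SL(2, ℤ)) (z : ℍ), ∑ j ∈ Finset.range (μ + 1),
    (P j).eval (jInv z) * (a • jN p + c • vF) (γ • z) ^ (μ - j) = 0 at hPrel
  refine ⟨h24_poly μ P, h24_poly_monic μ P hP0, h24_poly_natDegree μ P hP0, ?_, ?_⟩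
  · -- (I): the relation at `γ = 1`
    rw [h24_poly_map_eval]
    have hreal : IsReal
        (∑ j ∈ Finset.range (μ + 1), aeval (jqModC ℂ) (P j) *
          (HahnSeries.C a * qExpand ℂ p (jqModC ℂ) + HahnSeries.C c * vS) ^ (μ - j))
        (∑ j ∈ Finset.range (μ + 1), (fun z => (P j).eval (jInv z)) *
          (a • jN p + c • vF) ^ (μ - j)) :=
      h24_isReal_sum _ fun j _ =>
        (h24_isReal_aeval h24_isReal_j (P j)).mul (h24_isReal_pow hg.real _)
    refine hreal.eq_zero_iff.mpr ?_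
    funext z
    have h1 := hPrel 1 z
    rw [one_smul] at h1
    rw [Pi.zero_apply, ← h1, Finset.sum_apply]
    rfl
  · -- (II): the relation at `γ = S`, evaluated at `p z`
    rw [Polynomial.map_map, h24_poly_map_eval]
    have hs : IsReal (HahnSeries.C a * jqModC ℂ + HahnSeries.C (c * κ) * uS)
        (a • jInv + (c * κ) • uF) :=
      (h24_isReal_j.smul a).add (hu.smul (c * κ))
    have hreal : IsReal
        (∑ j ∈ Finset.range (μ + 1), aeval (qExpand ℂ p (jqModC ℂ)) (P j) *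
          (HahnSeries.C a * jqModC ℂ + HahnSeries.C (c * κ) * uS) ^ (μ - j))
        (∑ j ∈ Finset.range (μ + 1), (fun z => (P j).eval (jN p z)) *
          (a • jInv + (c * κ) • uF) ^ (μ - j)) :=
      h24_isReal_sum _ fun j _ =>
        (h24_isReal_aeval (h24_isModReal_jp p).real (P j)).mul (h24_isReal_pow hs _)
    have hzero : (∑ j ∈ Finset.range (μ + 1), aeval (qExpand ℂ p (jqModC ℂ)) (P j) *
          (HahnSeries.C a * jqModC ℂ + HahnSeries.C (c * κ) * uS) ^ (μ - j)) = 0 := by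
      refine hreal.eq_zero_iff.mpr ?_
      funext z
      have h1 := hPrel ModularGroup.S (scaleN p z)
      rw [Pi.zero_apply, ← h1, Finset.sum_apply]
      refine Finset.sum_congr rfl fun j _ => ?_
      simp only [Pi.mul_apply, Pi.pow_apply, Pi.add_apply, Pi.smul_apply, smul_eq_mul]
      rw [h24_jInv_scaleN, h24_jN_S_scale, hS]
      ring
    rw [← hzero]
    refine Finset.sum_congr rfl fun j _ => ?_
    congr 1
    rw [RingHom.comp_apply, AlgHom.toRingHom_eq_coe, RingHom.coe_coe]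
    exact (Polynomial.aeval_algHom_apply (qExpandAlgHomC ℂ p) (jqModC ℂ) (P j)).symm

/-- The same with the index given as a number (`μ = p + 1` for `p` prime). -/
theorem h24_exists_relation_of' (p : ℕ) [NeZero p] (μ : ℕ)
    (hμ : Nat.card (SL(2, ℤ) ⧸ Gamma0 p) = μ)
    (vS uS : LaurentSeries ℂ) (vF uF : ℍ → ℂ)
    (hv : IsModReal p vS vF) (hu : IsReal uS uF) (κ : ℂ)
    (hS : ∀ z : ℍ, vF (ModularGroup.S • scaleN p z) = κ * uF z) (a c : ℂ) :
    ∃ H : (ℂ[X])[X], H.Monic ∧ H.natDegree = μ ∧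
      (H.map (aeval (jqModC ℂ)).toRingHom).eval
        (HahnSeries.C a * qExpand ℂ p (jqModC ℂ) + HahnSeries.C c * vS) = 0 ∧
      ((H.map (aeval (jqModC ℂ)).toRingHom).map (qExpand ℂ p)).eval
        (HahnSeries.C a * jqModC ℂ + HahnSeries.C (c * κ) * uS) = 0 := by
  subst hμ
  exact h24_exists_relation_of p vS uS vF uF hv hu κ hS a c

/-- **MOD-C, analytic input** (`a = 1`, `c = 0`; no modular unit needed): a monic
`H ∈ ℂ[Y][X]` of degree `μ` with `H(j_p ; j) = 0` and `H(j ; j_p) = 0`. -/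
theorem h24_exists_relation_j (p : ℕ) [NeZero p] (μ : ℕ)
    (hμ : Nat.card (SL(2, ℤ) ⧸ Gamma0 p) = μ) :
    ∃ H : (ℂ[X])[X], H.Monic ∧ H.natDegree = μ ∧
      (H.map (aeval (jqModC ℂ)).toRingHom).eval (qExpand ℂ p (jqModC ℂ)) = 0 ∧
      ((H.map (aeval (jqModC ℂ)).toRingHom).map (qExpand ℂ p)).eval (jqModC ℂ) = 0 := by
  obtain ⟨H, hm, hd, h1, h2⟩ := h24_exists_relation_of' p μ hμ 0 0 0 0
    IsModReal.zero IsReal.zero 0 (fun z => by simp) 1 0
  refine ⟨H, hm, hd, ?_, ?_⟩
  · simpa using h1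
  · simpa using h2

end Fermat.Agent.S28.Mod.H24
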