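import Mathlib
import Fermat.Prelude.Def_ModularCurve_X0
import Fermat.Prelude.Def_ModularCurve_LaurentCoeff

/-!
# S28 / MOD (helper7): the algebraic core of the integrality of the modular equation

Let `e = qExpand p : A → A`, `A = R((q))`.  Every Laurent series is uniquely
`∑_{i < p} q^i * e (sec_i f)`; hence `A` is free of rank `p` over `e A`, and multiplication by
`s ∈ A` is given by a `p × p` matrix `M` with entries in `A` (to be read in `e A`).  By
Cayley-Hamilton `(charpoly M).map e` kills `s`.

Over a field `K`, if `p` is prime and does not divide `ord s`, the powers `1, s, .., s^(p-1)` are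
linearly independent over `e (K((q)))`; consequently a monic polynomial `H₀` of degree `p + 1`
with `(H₀.map e) (s) = 0` and `H₀ (r) = 0` is `(X - r) * charpoly M`.
-/

set_option autoImplicit false

namespace Fermat.Agent.S28.Mod.H7

open ModularCurve Polynomial

noncomputable section

section Sections

variable {R : Type*} [CommRing R] (p : ℕ) [NeZero p]

lemma h7_pos : (0 : ℤ) < (p : ℤ) := by exact_mod_cast Nat.pos_of_ne_zero (NeZero.ne p)

lemma h7_sec_bdd (i : ℕ) (f : LaurentSeries R) :
    BddBelow (Function.support fun n : ℤ => f.coeff ((p : ℤ) * n + i)) := by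
  refine ⟨min (f.order - i) 0, fun m hm => ?_⟩
  by_contra hlt
  rw [not_le] at hlt
  apply hm
  apply HahnSeries.coeff_eq_zero_of_lt_order
  have h1 : m < f.order - i := lt_of_lt_of_le hlt (min_le_left _ _)
  have h2 : m < 0 := lt_of_lt_of_le hlt (min_le_right _ _)
  have h3 : (p : ℤ) * m ≤ m := by nlinarith [h7_pos p]
  linarith

/-- The `i`-th section of `f` modulo `p`: the series `∑ₙ f_{p n + i} qⁿ`. -/
def h7_sec (i : ℕ) (f : LaurentSeries R) : LaurentSeries R :=
  HahnSeries.ofSuppBddBelow (fun n : ℤ => f.coeff ((p : ℤ) * n + i)) (h7_sec_bdd p i f)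

@[simp] lemma h7_sec_coeff (i : ℕ) (f : LaurentSeries R) (n : ℤ) :
    (h7_sec p i f).coeff n = f.coeff ((p : ℤ) * n + i) := rfl

/-- The coefficients of `q^i * e g`. -/
lemma h7_coeff_single_mul_qExpand (i : ℕ) (g : LaurentSeries R) (m : ℤ) :
    (HahnSeries.single (i : ℤ) (1 : R) * qExpand R p g).coeff m =
      if (p : ℤ) ∣ m - i then g.coeff ((m - i) / p) else 0 := by
  rw [HahnSeries.coeff_single_mul, one_mul]
  split_ifs with h
  · obtain ⟨k, hk⟩ := h
    rw [hk, qExpand_coeff_mul, Int.mul_ediv_cancel_left _ (h7_pos p).ne']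
  · exact qExpand_coeff_of_not_dvd p g h

/-- **Decomposition into sections.** -/
theorem h7_sum_sec (f : LaurentSeries R) :
    ∑ i ∈ Finset.range p, HahnSeries.single (i : ℤ) (1 : R) * qExpand R p (h7_sec p i f) = f := by
  ext m
  rw [HahnSeries.coeff_sum]
  have hp := h7_pos p
  set i0 : ℕ := (m % (p : ℤ)).toNat with hi0
  have hmod0 : 0 ≤ m % (p : ℤ) := Int.emod_nonneg _ hp.ne'
  have hmodlt : m % (p : ℤ) < p := Int.emod_lt_of_pos _ hp
  have hi0c : (i0 : ℤ) = m % (p : ℤ) := Int.toNat_of_nonneg hmod0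
  have hi0lt : i0 < p := by
    have : (i0 : ℤ) < p := by rw [hi0c]; exact hmodlt
    exact_mod_cast this
  rw [Finset.sum_eq_single i0]
  · rw [h7_coeff_single_mul_qExpand]
    have hdvd : (p : ℤ) ∣ m - i0 := by
      rw [hi0c]; exact Int.dvd_self_sub_emod
    rw [if_pos hdvd, h7_sec_coeff]
    congr 1
    rw [Int.mul_ediv_cancel' hdvd]
    ring
  · intro i hi hne
    rw [h7_coeff_single_mul_qExpand, if_neg]
    intro hdvd
    apply hne
    have hilt : (i : ℤ) < p := by exact_mod_cast Finset.mem_range.mp hi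
    have h1 : m % (p : ℤ) = (i : ℤ) % (p : ℤ) := by
      have := Int.emod_emod_of_dvd m (dvd_refl (p : ℤ))
      exact (Int.emod_eq_emod_iff_emod_sub_eq_zero).mpr (Int.emod_eq_zero_of_dvd hdvd)
    rw [Int.emod_eq_of_lt (by positivity) hilt] at h1
    have : (i0 : ℤ) = i := by rw [hi0c, h1]
    exact_mod_cast this.symm
  · intro h
    exact absurd (Finset.mem_range.mpr hi0lt) h

end Sections

section CayleyHamilton

variable {R : Type*} [CommRing R] (p : ℕ) [NeZero p]

/-- The matrix of multiplication by `s` in the basis `1, q, .., q^(p-1)` of `R((q))` over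
`e (R((q)))`; its entries are to be read through `e = qExpand p`. -/
def h7_mat (s : LaurentSeries R) : Matrix (Fin p) (Fin p) (LaurentSeries R) :=
  fun i k => h7_sec p (i : ℕ) (s * HahnSeries.single ((k : ℕ) : ℤ) (1 : R))

/-- The basis vector `(1, q, .., q^(p-1))`. -/
def h7_vec : Fin p → LaurentSeries R := fun i => HahnSeries.single ((i : ℕ) : ℤ) (1 : R)

lemma h7_mulVec (s : LaurentSeries R) :
    Matrix.mulVec ((h7_mat p s).map (qExpand R p)).transpose (h7_vec p) = s • h7_vec p := by
  funext k
  rw [Matrix.mulVec, dotProduct]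
  simp only [Matrix.transpose_apply, Matrix.map_apply, Pi.smul_apply, smul_eq_mul, h7_vec, h7_mat]
  have h := h7_sum_sec p (s * HahnSeries.single ((k : ℕ) : ℤ) (1 : R))
  rw [← Fin.sum_univ_eq_sum_range
    (fun i => HahnSeries.single (i : ℤ) (1 : R) *
      qExpand R p (h7_sec p i (s * HahnSeries.single ((k : ℕ) : ℤ) (1 : R))))] at h
  refine Eq.trans ?_ h
  exact Finset.sum_congr rfl fun i _ => mul_comm _ _

lemma h7_pow_mulVec (s : LaurentSeries R) (n : ℕ) :
    Matrix.mulVec (((h7_mat p s).map (qExpand R p)).transpose ^ n) (h7_vec p)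
      = s ^ n • h7_vec p := by
  induction n with
  | zero => simp
  | succ n ih =>
    rw [pow_succ, ← Matrix.mulVec_mulVec, h7_mulVec, Matrix.mulVec_smul, ih, smul_smul,
      pow_succ, mul_comm]

lemma h7_aeval_mulVec (s : LaurentSeries R) (f : (LaurentSeries R)[X]) :
    Matrix.mulVec (aeval ((h7_mat p s).map (qExpand R p)).transpose f) (h7_vec p)
      = f.eval s • h7_vec p := by
  induction f using Polynomial.induction_on' with
  | add f g hf hg => rw [map_add, Matrix.add_mulVec, hf, hg, eval_add, add_smul]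
  | monomial n a =>
    rw [← C_mul_X_pow_eq_monomial, map_mul, aeval_C, map_pow, aeval_X, eval_mul, eval_C,
      eval_pow, eval_X, Algebra.algebraMap_eq_smul_one, Matrix.smul_mul, one_mul,
      Matrix.smul_mulVec, h7_pow_mulVec, smul_smul]

/-- **Cayley-Hamilton**: the characteristic polynomial of multiplication by `s`, read through
`e = qExpand p`, kills `s`. -/
theorem h7_charpoly_eval (s : LaurentSeries R) :
    ((h7_mat p s).charpoly.map (qExpand R p)).eval s = 0 := by
  have h1 := h7_aeval_mulVec p s ((h7_mat p s).charpoly.map (qExpand R p))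
  rw [← Matrix.charpoly_map, ← Matrix.charpoly_transpose, Matrix.aeval_self_charpoly,
    Matrix.zero_mulVec] at h1
  have hp : 0 < p := Nat.pos_of_ne_zero (NeZero.ne p)
  have h2 := congrFun h1 ⟨0, hp⟩
  simp only [Pi.zero_apply, Pi.smul_apply, smul_eq_mul, h7_vec] at h2
  rw [Matrix.charpoly_transpose, Matrix.charpoly_map] at h2
  have h3 : (HahnSeries.single (((⟨0, hp⟩ : Fin p) : ℕ) : ℤ) (1 : R)) = 1 := by
    simp
  rw [h3, mul_one] at h2
  exact h2.symm

theorem h7_charpoly_monic (s : LaurentSeries R) : (h7_mat p s).charpoly.Monic :=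
  Matrix.charpoly_monic _

theorem h7_charpoly_natDegree [Nontrivial R] (s : LaurentSeries R) :
    (h7_mat p s).charpoly.natDegree = p := by
  rw [Matrix.charpoly_natDegree_eq_dim, Fintype.card_fin]

end CayleyHamilton

section LinIndep

variable {K : Type*} [Field K] (p : ℕ) [NeZero p]

lemma h7_coeff_order_ne_zero {x : LaurentSeries K} (hx : x ≠ 0) : x.coeff x.order ≠ 0 :=
  fun h => hx (HahnSeries.coeff_order_eq_zero.mp h)

lemma h7_order_qExpand (c : LaurentSeries K) :
    (qExpand K p c).order = (p : ℤ) * c.order := by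
  rcases eq_or_ne c 0 with rfl | hc
  · simp
  have hne : (qExpand K p c).coeff ((p : ℤ) * c.order) ≠ 0 := by
    rw [qExpand_coeff_mul]
    exact h7_coeff_order_ne_zero hc
  have hec : qExpand K p c ≠ 0 := HahnSeries.ne_zero_of_coeff_ne_zero hne
  refine le_antisymm (HahnSeries.order_le_of_coeff_ne_zero hne) ?_
  by_contra hlt
  rw [not_le] at hlt
  apply h7_coeff_order_ne_zero hec
  by_cases hd : (p : ℤ) ∣ (qExpand K p c).order
  · obtain ⟨k, hk⟩ := hd
    rw [hk, qExpand_coeff_mul]
    apply HahnSeries.coeff_eq_zero_of_lt_order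
    rw [hk] at hlt
    exact lt_of_mul_lt_mul_left hlt (h7_pos p).le
  · exact qExpand_coeff_of_not_dvd p c hd

/-- **Linear independence of the powers.** If the prime `p` does not divide the order of `s`,
then no nonzero polynomial of degree `< p` with coefficients in `e (K((q)))` kills `s`. -/
theorem h7_eval_ne_zero (hp : p.Prime) (s : LaurentSeries K) (hs : ¬ (p : ℤ) ∣ s.order)
    (D : (LaurentSeries K)[X]) (hD : D ≠ 0) (hdeg : D.natDegree < p) :
    (D.map (qExpand K p)).eval s ≠ 0 := by
  classical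
  have hs0 : s ≠ 0 := by
    rintro rfl
    exact hs (by simp)
  have hinj : Function.Injective (qExpand K p) := qExpand_injective p
  have hdeg' : (D.map (qExpand K p)).natDegree < p :=
    lt_of_le_of_lt Polynomial.natDegree_map_le hdeg
  rw [Polynomial.eval_eq_sum_range' hdeg']
  simp only [Polynomial.coeff_map]
  set T : ℕ → LaurentSeries K := fun k => qExpand K p (D.coeff k) * s ^ k with hT
  have hTne : ∀ k, D.coeff k ≠ 0 → T k ≠ 0 := fun k hk =>
    mul_ne_zero (fun h => hk (hinj (by rw [h, map_zero]))) (pow_ne_zero _ hs0)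
  have hTord : ∀ k, D.coeff k ≠ 0 → (T k).order = (p : ℤ) * (D.coeff k).order + k * s.order := by
    intro k hk
    rw [hT]
    simp only
    rw [HahnSeries.order_mul (fun h => hk (hinj (by rw [h, map_zero]))) (pow_ne_zero _ hs0),
      HahnSeries.order_pow, h7_order_qExpand, nsmul_eq_mul]
  set S := (Finset.range p).filter (fun k => D.coeff k ≠ 0) with hS
  have hSne : S.Nonempty := by
    refine ⟨D.natDegree, ?_⟩
    rw [hS, Finset.mem_filter, Finset.mem_range]
    exact ⟨hdeg, by rwa [Polynomial.coeff_natDegree, Ne, Polynomial.leadingCoeff_eq_zero]⟩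
  obtain ⟨k₀, hk₀S, hk₀min⟩ := Finset.exists_min_image S (fun k => (T k).order) hSne
  have hk₀ : k₀ < p ∧ D.coeff k₀ ≠ 0 := by
    rw [hS, Finset.mem_filter, Finset.mem_range] at hk₀S
    exact hk₀S
  intro hsum
  have hcoeff := congrArg (fun x : LaurentSeries K => x.coeff (T k₀).order) hsum
  simp only [HahnSeries.coeff_sum, HahnSeries.coeff_zero] at hcoeff
  rw [Finset.sum_eq_single k₀] at hcoeff
  · exact h7_coeff_order_ne_zero (hTne k₀ hk₀.2) hcoeff
  · intro k hk hkne
    by_cases hDk : D.coeff k = 0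
    · simp [hT, hDk]
    have hkS : k ∈ S := by
      rw [hS, Finset.mem_filter]
      exact ⟨hk, hDk⟩
    apply HahnSeries.coeff_eq_zero_of_lt_order
    refine lt_of_le_of_ne (hk₀min k hkS) ?_
    intro heq
    rw [hTord k hDk, hTord k₀ hk₀.2] at heq
    have hklt : k < p := Finset.mem_range.mp hk
    have hdvd : (p : ℤ) ∣ ((k : ℤ) - k₀) * s.order := by
      refine ⟨(D.coeff k₀).order - (D.coeff k).order, ?_⟩
      linear_combination -heq
    have hpZ : Prime (p : ℤ) := Nat.prime_iff_prime_int.mp hp
    rcases hpZ.dvd_or_dvd hdvd with h | h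
    · apply hkne
      have h1 : |(k : ℤ) - k₀| < p := by
        rw [abs_lt]
        constructor <;> [skip; skip] <;> omega
      have h2 := Int.eq_zero_of_abs_lt_dvd h h1
      omega
    · exact hs h
  · intro h
    exact absurd (Finset.mem_range.mpr hk₀.1) h

end LinIndep

section Core

variable {K : Type*} [Field K] (p : ℕ) [NeZero p]

/-- Over a field: a monic `H₀` of degree `p + 1` with `H₀ (r) = 0` and `(e H₀) (s) = 0` is
`(X - r) χ` for every monic `χ` of degree `p` with `(e χ) (s) = 0`. -/
theorem h7_eq_mul (hp : p.Prime) (s r : LaurentSeries K) (hs : ¬ (p : ℤ) ∣ s.order)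
    (χ : (LaurentSeries K)[X]) (hχ : χ.Monic) (hχdeg : χ.natDegree = p)
    (hχs : (χ.map (qExpand K p)).eval s = 0)
    (H₀ : (LaurentSeries K)[X]) (hH : H₀.Monic) (hdeg : H₀.natDegree = p + 1)
    (hHs : (H₀.map (qExpand K p)).eval s = 0) (hHr : H₀.eval r = 0) :
    H₀ = (X - C r) * χ := by
  have hp2 : 2 ≤ p := hp.two_le
  -- the root `r` is not a root of `χ`
  have hχr : χ.eval r ≠ 0 := by
    intro h0
    have hroot : (X - C r) * (χ /ₘ (X - C r)) = χ :=
      Polynomial.mul_divByMonic_eq_iff_isRoot.mpr h0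
    set Q := χ /ₘ (X - C r) with hQ
    have hQ0 : Q ≠ 0 := by
      rintro h
      rw [h, mul_zero] at hroot
      exact hχ.ne_zero hroot.symm
    have hQdeg : Q.natDegree < p := by
      have h1 := congrArg Polynomial.natDegree hroot
      rw [Polynomial.natDegree_mul (Polynomial.X_sub_C_ne_zero r) hQ0,
        Polynomial.natDegree_X_sub_C, hχdeg] at h1
      omega
    have h2 := hχs
    rw [← hroot, Polynomial.map_mul, Polynomial.eval_mul] at h2
    rcases mul_eq_zero.mp h2 with h3 | h3
    · simp only [Polynomial.map_sub, Polynomial.map_X, Polynomial.map_C, eval_sub, eval_X,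
        eval_C] at h3
      apply hs
      rw [sub_eq_zero.mp h3, h7_order_qExpand]
      exact dvd_mul_right _ _
    · exact h7_eval_ne_zero p hp s hs Q hQ0 hQdeg h3
  set G := (X - C r) * χ with hG
  have hGmonic : G.Monic := (Polynomial.monic_X_sub_C r).mul hχ
  have hGdeg : G.natDegree = p + 1 := by
    rw [hG, Polynomial.natDegree_mul (Polynomial.X_sub_C_ne_zero r) hχ.ne_zero,
      Polynomial.natDegree_X_sub_C, hχdeg, add_comm]
  have hGs : (G.map (qExpand K p)).eval s = 0 := by
    rw [hG, Polynomial.map_mul, Polynomial.eval_mul, hχs, mul_zero]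
  set D := H₀ - G with hD
  have hDdeg : D.natDegree ≤ p := by
    by_cases hD0 : D = 0
    · rw [hD0]; simp
    have h1 : (H₀ - G).degree < H₀.degree :=
      Polynomial.degree_sub_lt_left
        (by rw [Polynomial.degree_eq_natDegree hH.ne_zero,
          Polynomial.degree_eq_natDegree hGmonic.ne_zero, hdeg, hGdeg])
        hH.ne_zero (by rw [hH.leadingCoeff, hGmonic.leadingCoeff])
    rw [Polynomial.degree_eq_natDegree hH.ne_zero, hdeg] at h1
    have h2 := Polynomial.natDegree_lt_iff_degree_lt hD0 |>.mpr h1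
    omega
  set d := D.coeff p with hd
  set D₂ := D - C d * χ with hD₂
  have hD₂coeff : D₂.coeff p = 0 := by
    rw [hD₂, Polynomial.coeff_sub, Polynomial.coeff_C_mul]
    have : χ.coeff p = 1 := by
      rw [← hχdeg]; exact hχ.coeff_natDegree
    rw [this, mul_one, sub_self]
  have hD₂le : D₂.natDegree ≤ p := by
    refine (Polynomial.natDegree_sub_le _ _).trans (max_le hDdeg ?_)
    exact (Polynomial.natDegree_C_mul_le _ _).trans hχdeg.le
  have hD₂s : (D₂.map (qExpand K p)).eval s = 0 := by
    rw [hD₂, hD, Polynomial.map_sub, Polynomial.map_sub, Polynomial.eval_sub, Polynomial.eval_sub,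
      hHs, hGs, Polynomial.map_mul, Polynomial.eval_mul, hχs, mul_zero, sub_zero, sub_zero]
  have hD₂0 : D₂ = 0 := by
    by_contra hne
    have hlt : D₂.natDegree < p := by
      refine lt_of_le_of_ne hD₂le fun heq => ?_
      apply hne
      rw [← Polynomial.leadingCoeff_eq_zero, Polynomial.leadingCoeff, heq, hD₂coeff]
    exact h7_eval_ne_zero p hp s hs D₂ hne hlt hD₂s
  have hH₀ : H₀ = G + C d * χ := by
    have h1 : D = C d * χ := sub_eq_zero.mp hD₂0
    rw [← h1, hD]
    ring
  have hd0 : d = 0 := by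
    have h1 := hHr
    rw [hH₀, Polynomial.eval_add, hG, Polynomial.eval_mul, Polynomial.eval_mul] at h1
    simp only [eval_sub, eval_X, eval_C, sub_self, zero_mul, zero_add] at h1
    exact (mul_eq_zero.mp h1).resolve_right hχr
  rw [hH₀, hd0, map_zero, zero_mul, add_zero]

end Core

section Final

variable {R K : Type*} [CommRing R] [Field K] (φ : R →+* K) (p : ℕ) [NeZero p]

lemma h7_coeffMap_qExpand (x : LaurentSeries R) :
    coeffMap φ (qExpand R p x) = qExpand K p (coeffMap φ x) := by
  ext k
  rw [coeffMap_coeff]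
  by_cases hk : (p : ℤ) ∣ k
  · obtain ⟨m, rfl⟩ := hk
    rw [qExpand_coeff_mul, qExpand_coeff_mul, coeffMap_coeff]
  · rw [qExpand_coeff_of_not_dvd p _ hk, qExpand_coeff_of_not_dvd p _ hk, map_zero]

/-- The candidate polynomial `(X - r) * charpoly (multiplication by s)` over `R((q))`. -/
def h7_G (s r : LaurentSeries R) : (LaurentSeries R)[X] := (X - C r) * (h7_mat p s).charpoly

theorem h7_G_monic (s r : LaurentSeries R) : (h7_G p s r).Monic :=
  (Polynomial.monic_X_sub_C r).mul (h7_charpoly_monic p s)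

theorem h7_G_natDegree [Nontrivial R] (s r : LaurentSeries R) : (h7_G p s r).natDegree = p + 1 := by
  rw [h7_G, (Polynomial.monic_X_sub_C r).natDegree_mul (h7_charpoly_monic p s),
    Polynomial.natDegree_X_sub_C, h7_charpoly_natDegree, add_comm]

theorem h7_G_eval_r (s r : LaurentSeries R) : (h7_G p s r).eval r = 0 := by
  rw [h7_G, Polynomial.eval_mul]
  simp

theorem h7_G_eval_s (s r : LaurentSeries R) : ((h7_G p s r).map (qExpand R p)).eval s = 0 := by
  rw [h7_G, Polynomial.map_mul, Polynomial.eval_mul, h7_charpoly_eval, mul_zero]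

/-- **Algebraic core of MOD.**  Let `s, r ∈ R((q))`, `p` a prime not dividing the order of (the
image in `K((q))` of) `s`.  A monic polynomial `H₀` of degree `p + 1` over `K((q))` such that
`H₀ (r) = 0` and `(qExpand p H₀) (s) = 0` is the image of `(X - r) * charpoly (s)`, a polynomial
with coefficients in `R((q))`. -/
theorem h7_core (hp : p.Prime) (s r : LaurentSeries R)
    (hs : ¬ (p : ℤ) ∣ (coeffMap φ s).order)
    (H₀ : (LaurentSeries K)[X]) (hH : H₀.Monic) (hdeg : H₀.natDegree = p + 1)
    (hHs : (H₀.map (qExpand K p)).eval (coeffMap φ s) = 0)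
    (hHr : H₀.eval (coeffMap φ r) = 0) :
    H₀ = (h7_G p s r).map (coeffMap φ) := by
  have hR : Nontrivial R := by
    by_contra h
    rw [not_nontrivial_iff_subsingleton] at h
    have : (1 : K) = 0 := by rw [← map_one φ, Subsingleton.elim (1 : R) 0, map_zero]
    exact one_ne_zero this
  set χ := (h7_mat p s).charpoly.map (coeffMap φ) with hχ
  have hχm : χ.Monic := (h7_charpoly_monic p s).map _
  have hχdeg : χ.natDegree = p := by
    rw [hχ, (h7_charpoly_monic p s).natDegree_map, h7_charpoly_natDegree]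
  have hcomm : (coeffMap φ).comp (qExpand R p) = (qExpand K p).comp (coeffMap φ) :=
    RingHom.ext fun x => h7_coeffMap_qExpand φ p x
  have hχs : (χ.map (qExpand K p)).eval (coeffMap φ s) = 0 := by
    have h1 := congrArg (coeffMap φ) (h7_charpoly_eval p s)
    rw [map_zero, ← Polynomial.eval₂_hom, ← Polynomial.eval_map, Polynomial.map_map, hcomm,
      ← Polynomial.map_map] at h1
    exact h1
  have h := h7_eq_mul p hp (coeffMap φ s) (coeffMap φ r) hs χ hχm hχdeg hχs H₀ hH hdeg hHs hHr
  rw [h, h7_G, Polynomial.map_mul, Polynomial.map_sub, Polynomial.map_X, Polynomial.map_C]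

end Final

end

end Fermat.Agent.S28.Mod.H7
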