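import Fermat.Agent.S28.Mod.H7_ModFin
import Fermat.Agent.S28.Mod.H22_UnitZ

/-!
# S28 / MOD (helper7): the instances of the final assembly

`gSer R p a c = a j_p + c v` and its `S`-translate `gSSer R p a c' = a j + c' u`
(`c' = c p⁻¹²`), over any commutative ring `R`.  From the analytic input `StANac p a c` (over `ℂ`)
we get MOD-C (`(a, c) = (1, 0)`) and MOD-A (any `a c : ℕ`, not both zero) over every ring `R`
with an injective homomorphism to `ℂ` in which `p` is invertible.
-/

set_option autoImplicit false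

namespace Fermat.Agent.S28.Mod.H7

open ModularCurve Polynomial Fermat.Agent.S28.Mod.UnitZ

noncomputable section

section Series

variable (R : Type*) [CommRing R] (p : ℕ) [NeZero p]

/-- The series `a j_p + c v`, `v = Δ(q^p)/Δ(q)`. -/
def gSer (a c : R) : LaurentSeries R :=
  HahnSeries.C a * qExpand R p (jqModC R) + HahnSeries.C c * vL R p

/-- The series `a j + c' u`, `u = Δ(q)/Δ(q^p)`. -/
def gSSer (a c' : R) : LaurentSeries R :=
  HahnSeries.C a * jqModC R + HahnSeries.C c' * uL R p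

variable {R}

lemma h7_coeffMap_C {S : Type*} [CommRing S] (φ : R →+* S) (a : R) :
    coeffMap φ (HahnSeries.C a) = HahnSeries.C (φ a) := by
  rw [HahnSeries.C_apply, HahnSeries.C_apply, coeffMap_single]

theorem coeffMap_gSer {S : Type*} [CommRing S] (φ : R →+* S) (a c : R) :
    coeffMap φ (gSer R p a c) = gSer S p (φ a) (φ c) := by
  rw [gSer, gSer, map_add, map_mul, map_mul, h7_coeffMap_C, h7_coeffMap_C, coeffMap_qExpand,
    ModularCurve.coeffMap_jqModC, coeffMap_vL]

theorem coeffMap_gSSer {S : Type*} [CommRing S] (φ : R →+* S) (a c : R) :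
    coeffMap φ (gSSer R p a c) = gSSer S p (φ a) (φ c) := by
  rw [gSSer, gSSer, map_add, map_mul, map_mul, h7_coeffMap_C, h7_coeffMap_C,
    ModularCurve.coeffMap_jqModC, coeffMap_uL]

variable (R)

theorem gSer_one_zero : gSer R p 1 0 = qExpand R p (jqModC R) := by
  rw [gSer, map_one, map_zero, one_mul, zero_mul, add_zero]

theorem gSSer_one_zero : gSSer R p 1 0 = jqModC R := by
  rw [gSSer, map_one, map_zero, one_mul, zero_mul, add_zero]

theorem gSer_zero_one : gSer R p 0 1 = vL R p := by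
  rw [gSer, map_one, map_zero, one_mul, zero_mul, zero_add]

end Series

section Order

variable (p : ℕ) [NeZero p]

/-- The order of the `S`-translate over `ℂ` is prime to `p`, for `a c : ℕ` not both zero. -/
theorem not_dvd_order_gSSer (hp : p.Prime) (a c : ℕ) (hac : a ≠ 0 ∨ c ≠ 0) :
    ¬ (p : ℤ) ∣ (gSSer ℂ p (a : ℂ) ((c : ℂ) * ((p : ℂ)⁻¹) ^ 12)).order := by
  have hp2 : 2 ≤ p := hp.two_le
  have hpC : (p : ℂ) ≠ 0 := Nat.cast_ne_zero.mpr hp.ne_zero
  rcases Nat.eq_zero_or_pos c with hc | hc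
  · subst hc
    have ha : (a : ℂ) ≠ 0 := by
      rcases hac with h | h
      · exact Nat.cast_ne_zero.mpr h
      · exact absurd rfl h
    rw [gSSer, Nat.cast_zero, zero_mul, map_zero, zero_mul, add_zero, order_translate_j ℂ ha]
    exact not_dvd_neg_one p hp2
  · have hcC : (c : ℂ) * ((p : ℂ)⁻¹) ^ 12 ≠ 0 :=
      mul_ne_zero (Nat.cast_ne_zero.mpr hc.ne') (pow_ne_zero _ (inv_ne_zero hpC))
    rcases Nat.lt_or_ge 2 p with h3 | h2
    · rw [gSSer, order_translate_of_ne_zero ℂ p h3 _ hcC]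
      exact not_dvd_one_sub p hp2
    · have hp2' : p = 2 := le_antisymm h2 hp2
      subst hp2'
      have hsum : (a : ℂ) + (c : ℂ) * (((2 : ℕ) : ℂ)⁻¹) ^ 12 ≠ 0 := by
        have h1 : ((a : ℂ) + (c : ℂ) * (((2 : ℕ) : ℂ)⁻¹) ^ 12) =
            (((a : ℝ) + (c : ℝ) * ((2 : ℝ)⁻¹) ^ 12 : ℝ) : ℂ) := by
          push_cast; ring
        rw [h1, Ne, Complex.ofReal_eq_zero]
        have h2 : (0 : ℝ) < (c : ℝ) := Nat.cast_pos.mpr hc
        have h3 : (0 : ℝ) ≤ (a : ℝ) := Nat.cast_nonneg a
        positivity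
      rw [gSSer, order_translate_two ℂ hsum]
      exact not_dvd_neg_one 2 hp2

end Order

section Inst

variable (p : ℕ) [NeZero p]

/-- **The analytic input for `g = a j_p + c v`** (to be delivered by the analytic half):
some monic polynomial of degree `p + 1` over `ℂ[Y]` kills `a j_p + c v` (with `Y ↦ j`) and the
`S`-translate `a j + c p⁻¹² u` (with `Y ↦ j_p`). -/
def StANac (a c : ℂ) : Prop :=
  StAN p (gSer ℂ p a c) (gSSer ℂ p a (c * ((p : ℂ)⁻¹) ^ 12))

/-- **MOD-C** from the analytic input at `(a, c) = (1, 0)`. -/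
theorem stMODC_of_ANac (hp : p.Prime) (h : StANac p 1 0) : StMODC p := by
  apply stMODC_of_AN p hp
  have h' := h
  rw [StANac, zero_mul, gSer_one_zero, gSSer_one_zero] at h'
  exact h'

/-- **MOD-A** for `g = a j_p + c v`, `a c : ℕ` not both zero, over any ring `R` with an injective
homomorphism to `ℂ` in which `p` is invertible. -/
theorem stMODA_gSer {R : Type*} [CommRing R] (φ : R →+* ℂ) (hφ : Function.Injective φ)
    (hp : p.Prime) (pinv : R) (hpinv : (p : R) * pinv = 1) (a c : ℕ) (hac : a ≠ 0 ∨ c ≠ 0)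
    (h : StANac p (a : ℂ) (c : ℂ)) : StMODA p R (gSer R p (a : R) (c : R)) := by
  have hpinv' : φ pinv = ((p : ℂ))⁻¹ := by
    have h1 := congrArg φ hpinv
    rw [map_mul, map_natCast, map_one] at h1
    exact eq_inv_of_mul_eq_one_right h1
  have hs : coeffMap φ (gSSer R p (a : R) ((c : R) * pinv ^ 12)) =
      gSSer ℂ p (a : ℂ) ((c : ℂ) * ((p : ℂ)⁻¹) ^ 12) := by
    rw [coeffMap_gSSer, map_natCast, map_mul, map_natCast, map_pow, hpinv']
  have hr : coeffMap φ (gSer R p (a : R) (c : R)) = gSer ℂ p (a : ℂ) (c : ℂ) := by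
    rw [coeffMap_gSer, map_natCast, map_natCast]
  refine stMODA_of_AN p φ hφ hp _ (gSSer R p (a : R) ((c : R) * pinv ^ 12)) ?_ ?_
  · rw [hs]
    exact not_dvd_order_gSSer p hp a c hac
  · rw [hs, hr]
    exact h

/-- **`v` satisfies MOD-A** over any ring `R` with an injective homomorphism to `ℂ` in which `p`
is invertible. -/
theorem stMODA_vL {R : Type*} [CommRing R] (φ : R →+* ℂ) (hφ : Function.Injective φ)
    (hp : p.Prime) (pinv : R) (hpinv : (p : R) * pinv = 1) (h : StANac p 0 1) :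
    StMODA p R (vL R p) := by
  have h1 := stMODA_gSer p φ hφ hp pinv hpinv 0 1 (Or.inr one_ne_zero)
    (by simpa using h)
  rwa [Nat.cast_zero, Nat.cast_one, gSer_zero_one] at h1

end Inst

end

end Fermat.Agent.S28.Mod.H7
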