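import Fermat.Agent.S28.Mod.H7_ModBridge
import Fermat.Agent.S28.Mod.H24_AN

/-!
# S28 / MOD (helper7): the deliverables (M1) and (M3) of MOD, unconditionally

* `stModC_all` : `Deg.H9.StModC p` for every prime `p` (the modular equation over `ℤ`);
* `stVInt_all` : `Deg.H21.StVInt (ZMod ℓ) p` for all primes `p ≠ ℓ` (`v` integral over `k[j]`);
* `stMODA_all` : MOD-A for `a j_p + c v`, `a c : ℕ` not both zero, over every ring with an
  injective homomorphism to `ℂ` in which `p` is invertible.
-/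

set_option autoImplicit false

namespace Fermat.Agent.S28.Mod.H7

open ModularCurve Polynomial Fermat.Agent.S28.Mod.UnitZ

noncomputable section

variable (p : ℕ) [NeZero p]

/-- **The analytic input**, in the shape `StANac`, from helper24's `h24_stAN`. -/
theorem stANac (hp : p.Prime) (a c : ℂ) : StANac p a c := by
  have h := Fermat.Agent.S28.Mod.H24.h24_stAN p hp a c
  rw [StANac, gSer, gSSer, vL_eq_coeffEmb, uL_eq_coeffEmb]
  exact h

/-- **(M1) MOD-C** for every prime `p`, in the shape consumed by PRIME. -/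
theorem stModC_all (hp : p.Prime) : Fermat.Agent.S28.Deg.H9.StModC p :=
  stModC_of_ANac p hp (stANac p hp 1 0)

/-- **(M3) integrality of `v`** over `(ZMod ℓ)[j]` for primes `p ≠ ℓ`, in the shape consumed by
the exclusion. -/
theorem stVInt_all (hp : p.Prime) (ℓ : ℕ) [Fact ℓ.Prime] (hpl : p ≠ ℓ) :
    Fermat.Agent.S28.Deg.H21.StVInt (ZMod ℓ) p :=
  stVInt_of_ANac p hp ℓ hpl (stANac p hp 0 1)

/-- **MOD-A** for `a j_p + c v`, `a c : ℕ` not both zero. -/
theorem stMODA_all {R : Type*} [CommRing R] (φ : R →+* ℂ) (hφ : Function.Injective φ)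
    (hp : p.Prime) (pinv : R) (hpinv : (p : R) * pinv = 1) (a c : ℕ) (hac : a ≠ 0 ∨ c ≠ 0) :
    StMODA p R (gSer R p (a : R) (c : R)) :=
  stMODA_gSer p φ hφ hp pinv hpinv a c hac (stANac p hp a c)

/-- MOD-A for `v` over `ℤ[1/p]`. -/
theorem stMODA_vL_zinv_all (hp : p.Prime) : StMODA p (Zinv p) (vL (Zinv p) p) :=
  stMODA_vL_zinv p hp (stANac p hp 0 1)

/-- MOD-A for `v` over every nontrivial ring in which `p` is invertible. -/
theorem stMODA_vL_of_isUnit (hp : p.Prime) (S : Type*) [CommRing S] [Nontrivial S]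
    (hu : IsUnit ((p : ℕ) : S)) : StMODA p S (vL S p) := by
  have hu' : IsUnit ((Int.castRingHom S) ((p : ℕ) : ℤ)) := by simpa using hu
  have h1 := (stMODA_vL_zinv_all p hp).map p
    (IsLocalization.Away.lift ((p : ℕ) : ℤ) (g := Int.castRingHom S) hu')
  rwa [coeffMap_vL] at h1

end

end Fermat.Agent.S28.Mod.H7
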