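import Mathlib

/-!
# S28 / MOD: the normalised derivative of a bounded holomorphic function is bounded (helper8)

Cauchy estimate on discs of radius `1`: if `f : ℍ → ℂ` is holomorphic and bounded at `i∞`, then
`D f = (2πi)⁻¹ f'` is bounded at `i∞`.  No `q`-expansions are used.
-/

set_option autoImplicit false

noncomputable section

namespace Fermat.Agent.S28.Mod.H8I3

open UpperHalfPlane Filter Topology Complex Metric
open scoped Manifold Derivative

/-- **Cauchy estimate at `i∞`.** -/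
theorem isBoundedAtImInfty_D {f : ℍ → ℂ} (hf : MDifferentiable 𝓘(ℂ) 𝓘(ℂ) f)
    (hb : IsBoundedAtImInfty f) : IsBoundedAtImInfty (D f) := by
  rw [UpperHalfPlane.isBoundedAtImInfty_iff] at hb ⊢
  obtain ⟨M, A, hMA⟩ := hb
  have hdiff : DifferentiableOn ℂ (f ∘ ofComplex) {z : ℂ | 0 < z.im} :=
    UpperHalfPlane.mdifferentiable_iff.mp hf
  refine ⟨‖(2 * (Real.pi : ℂ) * Complex.I)⁻¹‖ * (M / 1), max A 0 + 2, fun z hz => ?_⟩
  have him : ∀ w ∈ closedBall (z : ℂ) 1, max A 0 + 1 ≤ w.im := by
    intro w hw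
    rw [mem_closedBall, dist_eq_norm] at hw
    have h1 : |(w - z).im| ≤ ‖w - z‖ := Complex.abs_im_le_norm _
    have h2 : (w - (z : ℂ)).im = w.im - z.im := by simp
    rw [h2] at h1
    have h3 := (abs_le.mp (h1.trans hw)).1
    linarith
  have hsub : closedBall (z : ℂ) 1 ⊆ {z : ℂ | 0 < z.im} := by
    intro w hw
    have := him w hw
    have h0 : (0 : ℝ) ≤ max A 0 := le_max_right _ _
    show 0 < w.im
    linarith
  have hd : DiffContOnCl ℂ (f ∘ ofComplex) (ball (z : ℂ) 1) := by
    apply DifferentiableOn.diffContOnCl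
    rw [closure_ball _ one_ne_zero]
    exact hdiff.mono hsub
  have hC : ∀ w ∈ sphere (z : ℂ) 1, ‖(f ∘ ofComplex) w‖ ≤ M := by
    intro w hw
    have hw' : w ∈ closedBall (z : ℂ) 1 := sphere_subset_closedBall hw
    have hwim : 0 < w.im := hsub hw'
    have h1 := him w hw'
    have hA : A ≤ (ofComplex w).im := by
      rw [ofComplex_apply_of_im_pos hwim]
      show A ≤ w.im
      have : A ≤ max A 0 := le_max_left _ _
      linarith
    exact hMA (ofComplex w) hA
  have hcauchy := Complex.norm_deriv_le_of_forall_mem_sphere_norm_le one_pos hd hC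
  show ‖(2 * (Real.pi : ℂ) * Complex.I)⁻¹ * deriv (f ∘ ofComplex) (z : ℂ)‖ ≤ _
  rw [norm_mul]
  exact mul_le_mul_of_nonneg_left hcauchy (norm_nonneg _)

end Fermat.Agent.S28.Mod.H8I3
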