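import Mathlib
import Fermat.Agent.S23.H14_PolyJ
import Fermat.Agent.S28.Mod.H8_CauchyD

/-!
# S28 / MOD / (I3), analytic half (helper8)

`(D j)^6 = G(j) Δ` on the upper half plane for some polynomial `G ∈ ℂ[X]` (of degree `≤ 13`;
the true `G` is `X^4 (X - 1728)^3`, which is not needed).

`D j` has weight `2`, so `(D j)^6 / Δ` is a holomorphic `SL(2, ℤ)`-invariant function; it has
moderate growth at `i∞` by the Cauchy estimate; hence it is a polynomial in `j`.
-/

set_option autoImplicit false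

noncomputable section

namespace Fermat.Agent.S28.Mod.H8I3

open UpperHalfPlane ModularForm Filter Topology Complex EisensteinSeries
open Fermat.Agent.S23
open scoped MatrixGroups ModularForm Manifold Derivative

local notation "Δ" => ModularForm.discriminant

/-- `D j` transforms with weight `2`. -/
theorem D_jInv_smul (γ : SL(2, ℤ)) (z : ℍ) :
    D R1.jInv (γ • z) = denom γ z ^ (2 : ℤ) * D R1.jInv z := by
  have h := Derivative.normalizedDerivOfComplex_SL_slash (k := 0) R1.mdifferentiable_jInv (γ := γ)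
  rw [R1.jInv_slash] at h
  have hz := congrFun h z
  simp only [Pi.sub_apply, Int.cast_zero, zero_mul, sub_zero, zero_add] at hz
  rw [SL_slash_apply] at hz
  have hd : denom γ z ≠ 0 := denom_ne_zero γ z
  rw [hz, zpow_neg]
  field_simp

/-- The weight-zero function `(D j)^6 / Δ`. -/
def phi (z : ℍ) : ℂ := D R1.jInv z ^ 6 / Δ z

theorem phi_smul (γ : SL(2, ℤ)) (z : ℍ) : phi (γ • z) = phi z := by
  have hd : denom γ z ≠ 0 := denom_ne_zero γ z
  have hΔ := discriminant_ne_zero z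
  rw [phi, phi, D_jInv_smul, R1.discriminant_smul_eq]
  have h12 : denom γ z ^ (12 : ℤ) = (denom γ z ^ (2 : ℤ)) ^ 6 := by
    rw [← zpow_natCast, ← zpow_mul]; norm_num
  rw [h12, mul_pow]
  have h2 : (denom γ z ^ (2 : ℤ)) ^ 6 ≠ 0 := pow_ne_zero _ (zpow_ne_zero _ hd)
  field_simp

theorem mdifferentiable_D_jInv : MDifferentiable 𝓘(ℂ) 𝓘(ℂ) (D R1.jInv) :=
  Derivative.normalizedDerivOfComplex_mdifferentiable R1.mdifferentiable_jInv

theorem mdifferentiable_phi : MDifferentiable 𝓘(ℂ) 𝓘(ℂ) phi := by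
  have h6 : MDifferentiable 𝓘(ℂ) 𝓘(ℂ) (fun z : ℍ => D R1.jInv z ^ 6) :=
    mdifferentiable_D_jInv.pow 6
  exact h6.div (ModularFormClass.holo CuspForm.discriminant) discriminant_ne_zero

theorem mdifferentiable_E4_cube : MDifferentiable 𝓘(ℂ) 𝓘(ℂ) (fun z : ℍ => E₄ z ^ 3) :=
  (ModularFormClass.holo E₄).pow 3

theorem mdifferentiable_discriminant : MDifferentiable 𝓘(ℂ) 𝓘(ℂ) (Δ : ℍ → ℂ) :=
  ModularFormClass.holo CuspForm.discriminant

/-- `D j · Δ² = D(E₄³) · Δ - E₄³ · D Δ`. -/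
theorem D_jInv_mul_sq (z : ℍ) :
    D R1.jInv z * Δ z ^ 2 = D (fun z : ℍ => E₄ z ^ 3) z * Δ z - E₄ z ^ 3 * D (Δ : ℍ → ℂ) z := by
  have hprod : (fun z : ℍ => E₄ z ^ 3) = R1.jInv * (Δ : ℍ → ℂ) := by
    funext w
    rw [Pi.mul_apply, R1.jInv_mul_discriminant]
  have h := Derivative.normalizedDerivOfComplex_mul R1.jInv (Δ : ℍ → ℂ) R1.mdifferentiable_jInv
    mdifferentiable_discriminant
  rw [← hprod] at h
  have hz := congrFun h z
  simp only [Pi.add_apply, Pi.mul_apply] at hz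
  rw [hz, R1.E₄_cube_eq]
  ring

theorem isBoundedAtImInfty_discriminant : IsBoundedAtImInfty (Δ : ℍ → ℂ) :=
  (discriminant_isZeroAtImInfty).boundedAtFilter

theorem isBoundedAtImInfty_E4 : IsBoundedAtImInfty (⇑E₄ : ℍ → ℂ) :=
  ModularFormClass.bdd_at_infty E₄

theorem isBoundedAtImInfty_E4_cube : IsBoundedAtImInfty (fun z : ℍ => E₄ z ^ 3) := by
  have h := (isBoundedAtImInfty_E4.mul isBoundedAtImInfty_E4).mul isBoundedAtImInfty_E4
  have e : (fun z : ℍ => E₄ z ^ 3) = (⇑E₄ * ⇑E₄) * ⇑E₄ := by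
    funext z; simp only [Pi.mul_apply]; ring
  rw [e]; exact h

theorem isBoundedAtImInfty_pow {f : ℍ → ℂ} (hf : IsBoundedAtImInfty f) (n : ℕ) :
    IsBoundedAtImInfty (fun z => f z ^ n) := by
  induction n with
  | zero =>
    simp only [pow_zero]
    exact Filter.const_boundedAtFilter _ (1 : ℂ)
  | succ n ih =>
    have e : (fun z => f z ^ (n + 1)) = (fun z => f z ^ n) * f := by
      funext z; simp only [Pi.mul_apply, pow_succ]
    rw [e]
    exact ih.mul hf

/-- `(D j)^6 / Δ · Δ^13` is bounded at `i∞`. -/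
theorem isBoundedAtImInfty_phi_mul :
    IsBoundedAtImInfty (fun z => phi z * Δ z ^ 13) := by
  have h1 : IsBoundedAtImInfty (D (fun z : ℍ => E₄ z ^ 3)) :=
    isBoundedAtImInfty_D mdifferentiable_E4_cube isBoundedAtImInfty_E4_cube
  have h2 : IsBoundedAtImInfty (D (Δ : ℍ → ℂ)) :=
    isBoundedAtImInfty_D mdifferentiable_discriminant isBoundedAtImInfty_discriminant
  have h3 : IsBoundedAtImInfty
      (D (fun z : ℍ => E₄ z ^ 3) * (Δ : ℍ → ℂ) + -((fun z : ℍ => E₄ z ^ 3) * D (Δ : ℍ → ℂ))) :=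
    (h1.mul isBoundedAtImInfty_discriminant).add (isBoundedAtImInfty_E4_cube.mul h2).neg
  have h4 := isBoundedAtImInfty_pow h3 6
  have e : (fun z => phi z * Δ z ^ 13) = fun z =>
      (D (fun z : ℍ => E₄ z ^ 3) * (Δ : ℍ → ℂ)
        + -((fun z : ℍ => E₄ z ^ 3) * D (Δ : ℍ → ℂ))) z ^ 6 := by
    funext z
    have hΔ := discriminant_ne_zero z
    have hk := D_jInv_mul_sq z
    simp only [Pi.add_apply, Pi.mul_apply, Pi.neg_apply]
    rw [← sub_eq_add_neg, ← hk, phi]
    field_simp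
  rw [e]
  exact h4

/-- **(I3), analytic half**: `(D j)^6 = G(j) Δ` for some polynomial `G`. -/
theorem exists_poly_D_jInv :
    ∃ G : Polynomial ℂ, G.natDegree ≤ 13 ∧
      ∀ z : ℍ, D R1.jInv z ^ 6 = G.eval (R1.jInv z) * Δ z := by
  obtain ⟨G, hG, hGz⟩ := R1.exists_poly_jInv' phi mdifferentiable_phi phi_smul 13
    isBoundedAtImInfty_phi_mul
  refine ⟨G, hG, fun z => ?_⟩
  have hΔ := discriminant_ne_zero z
  rw [← hGz z, phi, div_mul_cancel₀ _ hΔ]

end Fermat.Agent.S28.Mod.H8I3
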